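import Fermat.Agent.ORD.Dep.Interface
import Fermat.Agent.ES.Mid.CongInertia

/-!
# ORD / Dep, package FL-API : basic API of `GO`, `rd`, `Cg`
-/

set_option autoImplicit false

noncomputable section

namespace Fermat.Agent.ORD.Dep

open ModularCurve
open Fermat.Agent.S24 (Qbar FF)
open Fermat.Agent.ES.Mid (GQ gal IsDiv formalN twProd compress tw)
open Fermat.Agent.INJ.Inst (kA)
open Fermat.Agent.INJ.Inst.Gauss (IsRatio inc rho red red_eq isRatio_inc isRatio_zero isRatio_one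
  inc_single rho_single inc_injective)

variable {A : ValuationSubring Qbar}

/-! ### `GO` and `rd` -/

theorem rd_eq {x : LaurentSeries Qbar} {f g : LaurentSeries A}
    (h : IsRatio (IsLocalRing.residue A) x f g) :
    rd A x = rho (IsLocalRing.residue A) f / rho (IsLocalRing.residue A) g := red_eq h

theorem GO_inc (y : LaurentSeries A) : GO A (inc A y) := ⟨y, 1, isRatio_inc y⟩

theorem rd_inc (y : LaurentSeries A) : rd A (inc A y) = rho (IsLocalRing.residue A) y := by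
  rw [rd_eq (isRatio_inc y), map_one, div_one]

theorem GO_zero : GO A 0 := ⟨0, 1, isRatio_zero⟩

theorem GO_one : GO A 1 := ⟨1, 1, isRatio_one⟩

@[simp] theorem rd_zero : rd A 0 = 0 := by rw [rd_eq isRatio_zero, map_zero, zero_div]

@[simp] theorem rd_one : rd A 1 = 1 := by rw [rd_eq isRatio_one, map_one, div_one]

theorem rd_of_not_GO {x : LaurentSeries Qbar} (h : ¬ GO A x) : rd A x = 0 := dif_neg h

theorem GO_of_rd_ne_zero {x : LaurentSeries Qbar} (h : rd A x ≠ 0) : GO A x := by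
  by_contra h'
  exact h (rd_of_not_GO h')

theorem GO.add {x y : LaurentSeries Qbar} (hx : GO A x) (hy : GO A y) : GO A (x + y) := by
  obtain ⟨f, g, h1⟩ := hx
  obtain ⟨f', g', h2⟩ := hy
  exact ⟨_, _, h1.add h2⟩

theorem GO.mul {x y : LaurentSeries Qbar} (hx : GO A x) (hy : GO A y) : GO A (x * y) := by
  obtain ⟨f, g, h1⟩ := hx
  obtain ⟨f', g', h2⟩ := hy
  exact ⟨_, _, h1.mul h2⟩

theorem GO.neg {x : LaurentSeries Qbar} (hx : GO A x) : GO A (-x) := by
  obtain ⟨f, g, h1⟩ := hx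
  exact ⟨_, _, h1.neg⟩

theorem GO.sub {x y : LaurentSeries Qbar} (hx : GO A x) (hy : GO A y) : GO A (x - y) := by
  rw [sub_eq_add_neg]
  exact hx.add hy.neg

theorem GO.pow {x : LaurentSeries Qbar} (hx : GO A x) (n : ℕ) : GO A (x ^ n) := by
  induction n with
  | zero => rw [pow_zero]; exact GO_one
  | succ n ih => rw [pow_succ]; exact ih.mul hx

theorem GO_sum {ι : Type*} (s : Finset ι) (f : ι → LaurentSeries Qbar)
    (h : ∀ i ∈ s, GO A (f i)) : GO A (∑ i ∈ s, f i) := by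
  classical
  induction s using Finset.induction_on with
  | empty => rw [Finset.sum_empty]; exact GO_zero
  | insert a s ha ih =>
    rw [Finset.sum_insert ha]
    exact (h a (Finset.mem_insert_self a s)).add (ih fun i hi => h i (Finset.mem_insert_of_mem hi))

theorem GO_prod {ι : Type*} (s : Finset ι) (f : ι → LaurentSeries Qbar)
    (h : ∀ i ∈ s, GO A (f i)) : GO A (∏ i ∈ s, f i) := by
  classical
  induction s using Finset.induction_on with
  | empty => rw [Finset.prod_empty]; exact GO_one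
  | insert a s ha ih =>
    rw [Finset.prod_insert ha]
    exact (h a (Finset.mem_insert_self a s)).mul (ih fun i hi => h i (Finset.mem_insert_of_mem hi))

theorem rd_add {x y : LaurentSeries Qbar} (hx : GO A x) (hy : GO A y) :
    rd A (x + y) = rd A x + rd A y := by
  obtain ⟨f, g, h1⟩ := hx
  obtain ⟨f', g', h2⟩ := hy
  rw [rd_eq h1, rd_eq h2, rd_eq (h1.add h2), map_add, map_mul, map_mul, map_mul,
    div_add_div _ _ h1.1 h2.1]
  congr 1
  ring

theorem rd_mul {x y : LaurentSeries Qbar} (hx : GO A x) (hy : GO A y) :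
    rd A (x * y) = rd A x * rd A y := by
  obtain ⟨f, g, h1⟩ := hx
  obtain ⟨f', g', h2⟩ := hy
  rw [rd_eq h1, rd_eq h2, rd_eq (h1.mul h2), map_mul, map_mul, div_mul_div_comm]

theorem rd_neg {x : LaurentSeries Qbar} (hx : GO A x) : rd A (-x) = - rd A x := by
  obtain ⟨f, g, h1⟩ := hx
  rw [rd_eq h1, rd_eq h1.neg, map_neg, neg_div]

theorem rd_sub {x y : LaurentSeries Qbar} (hx : GO A x) (hy : GO A y) :
    rd A (x - y) = rd A x - rd A y := by
  rw [sub_eq_add_neg, rd_add hx hy.neg, rd_neg hy, sub_eq_add_neg]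

theorem rd_pow {x : LaurentSeries Qbar} (hx : GO A x) (n : ℕ) : rd A (x ^ n) = rd A x ^ n := by
  induction n with
  | zero => rw [pow_zero, pow_zero, rd_one]
  | succ n ih => rw [pow_succ, pow_succ, rd_mul (hx.pow n) hx, ih]

theorem rd_sum {ι : Type*} (s : Finset ι) (f : ι → LaurentSeries Qbar)
    (h : ∀ i ∈ s, GO A (f i)) : rd A (∑ i ∈ s, f i) = ∑ i ∈ s, rd A (f i) := by
  classical
  induction s using Finset.induction_on with
  | empty => rw [Finset.sum_empty, Finset.sum_empty, rd_zero]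
  | insert a s ha ih =>
    rw [Finset.sum_insert ha, Finset.sum_insert ha, rd_add (h a (Finset.mem_insert_self a s))
      (GO_sum s f fun i hi => h i (Finset.mem_insert_of_mem hi)),
      ih fun i hi => h i (Finset.mem_insert_of_mem hi)]

theorem rd_prod {ι : Type*} (s : Finset ι) (f : ι → LaurentSeries Qbar)
    (h : ∀ i ∈ s, GO A (f i)) : rd A (∏ i ∈ s, f i) = ∏ i ∈ s, rd A (f i) := by
  classical
  induction s using Finset.induction_on with
  | empty => rw [Finset.prod_empty, Finset.prod_empty, rd_one]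
  | insert a s ha ih =>
    rw [Finset.prod_insert ha, Finset.prod_insert ha, rd_mul (h a (Finset.mem_insert_self a s))
      (GO_prod s f fun i hi => h i (Finset.mem_insert_of_mem hi)),
      ih fun i hi => h i (Finset.mem_insert_of_mem hi)]

/-! ### constants -/

theorem isRatio_cst {a : Qbar} (ha : a ∈ A) :
    IsRatio (IsLocalRing.residue A) (cst a) (HahnSeries.single 0 (⟨a, ha⟩ : A)) 1 := by
  have := isRatio_inc (res := IsLocalRing.residue A) (HahnSeries.single 0 (⟨a, ha⟩ : A))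
  rwa [inc_single] at this

theorem GO_cst {a : Qbar} (ha : a ∈ A) : GO A (cst a) := ⟨_, _, isRatio_cst ha⟩

theorem rd_cst {a : Qbar} (ha : a ∈ A) :
    rd A (cst a) = cstk A (IsLocalRing.residue A ⟨a, ha⟩) := by
  rw [rd_eq (isRatio_cst ha), map_one, div_one, rho_single]

theorem residue_eq_zero_of_nonunits {a : Qbar} (ha : a ∈ A.nonunits) :
    IsLocalRing.residue A ⟨a, A.nonunits_subset ha⟩ = 0 := by
  rw [IsLocalRing.residue_eq_zero_iff, ← ValuationSubring.coe_mem_nonunits_iff]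
  exact ha

theorem rd_cst_of_nonunits {a : Qbar} (ha : a ∈ A.nonunits) : rd A (cst a) = 0 := by
  rw [rd_cst (A.nonunits_subset ha), residue_eq_zero_of_nonunits ha]
  exact map_zero _

theorem inv_mem_nonunits_of_not_mem {c : Qbar} (hc : c ∉ A) : c⁻¹ ∈ A.nonunits := by
  have hc0 : c ≠ 0 := by
    rintro rfl
    exact hc A.zero_mem
  have h1 : 1 < A.valuation c := not_le.1 (mt (A.valuation_le_one_iff c).1 hc)
  rw [ValuationSubring.mem_nonunits_iff, map_inv₀]
  exact inv_lt_one_of_one_lt₀ h1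

theorem cst_mul (a b : Qbar) : cst (a * b) = cst a * cst b := map_mul _ a b

theorem cst_inv_mul_cancel {c : Qbar} (hc : c ≠ 0) (x : LaurentSeries Qbar) :
    cst c⁻¹ * (cst c * x) = x := by
  rw [← mul_assoc, ← cst_mul, inv_mul_cancel₀ hc]
  show algebraMap Qbar (LaurentSeries Qbar) 1 * x = x
  rw [map_one, one_mul]

theorem mem_of_GO_cst {c : Qbar} (h : GO A (cst c)) : c ∈ A := by
  by_contra hc
  obtain ⟨f, g, hg, he⟩ := h
  have hc0 : c ≠ 0 := by
    rintro rfl
    exact hc A.zero_mem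
  have hn := inv_mem_nonunits_of_not_mem hc
  have h1 : g = HahnSeries.single 0 (⟨c⁻¹, A.nonunits_subset hn⟩ : A) * f := by
    apply inc_injective A
    rw [map_mul, inc_single, ← he]
    exact (cst_inv_mul_cancel hc0 _).symm
  apply hg
  rw [h1, map_mul, rho_single, residue_eq_zero_of_nonunits hn, map_zero, zero_mul]

/-! ### inverses -/

theorem GO.inv {x : LaurentSeries Qbar} (hx : GO A x) (h : rd A x ≠ 0) : GO A x⁻¹ := by
  obtain ⟨f, g, h1⟩ := hx
  rw [rd_eq h1] at h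
  exact ⟨g, f, h1.inv fun hf => h (by rw [hf, zero_div])⟩

theorem rd_inv {x : LaurentSeries Qbar} (hx : GO A x) (h : rd A x ≠ 0) :
    rd A x⁻¹ = (rd A x)⁻¹ := by
  obtain ⟨f, g, h1⟩ := hx
  rw [rd_eq h1] at h ⊢
  rw [rd_eq (h1.inv fun hf => h (by rw [hf, zero_div])), inv_div]

theorem GO.div {x y : LaurentSeries Qbar} (hx : GO A x) (hy : GO A y) (h : rd A y ≠ 0) :
    GO A (x / y) := by
  rw [div_eq_mul_inv]
  exact hx.mul (hy.inv h)

theorem rd_div {x y : LaurentSeries Qbar} (hx : GO A x) (hy : GO A y) (h : rd A y ≠ 0) :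
    rd A (x / y) = rd A x / rd A y := by
  rw [div_eq_mul_inv, rd_mul hx (hy.inv h), rd_inv hy h, div_eq_mul_inv]

/-! ### elements of `F_N` -/

theorem exists_norm (A : ValuationSubring Qbar) (N : ℕ) [NeZero N] {u : FF N} (hu : u ≠ 0) :
    ∃ c : Qbar, c ≠ 0 ∧ GO A (cst c * (u : LaurentSeries Qbar)) ∧
      rd A (cst c * (u : LaurentSeries Qbar)) ≠ 0 := by
  obtain ⟨α, f, g, hα, hf, hg, he⟩ := INJ.Inst.satF N A u hu
  have hr : IsRatio (IsLocalRing.residue A) (cst α⁻¹ * (u : LaurentSeries Qbar)) f g := by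
    refine ⟨hg, ?_⟩
    rw [mul_assoc, he]
    exact cst_inv_mul_cancel hα _
  exact ⟨α⁻¹, inv_ne_zero hα, ⟨f, g, hr⟩, by rw [rd_eq hr]; exact div_ne_zero hf hg⟩

theorem exists_small (N : ℕ) [NeZero N] {u : FF N} (hu : u ≠ 0)
    (hG : GO A (u : LaurentSeries Qbar)) (h0 : rd A (u : LaurentSeries Qbar) = 0) :
    ∃ c : Qbar, Sm A c ∧ Cg A c (u : LaurentSeries Qbar) 0 := by
  obtain ⟨c₀, hc₀, h1, h2⟩ := exists_norm A N hu
  have hc : c₀ ∉ A := by
    intro hc
    apply h2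
    rw [rd_mul (GO_cst hc) hG, h0, mul_zero]
  refine ⟨c₀⁻¹, ⟨inv_ne_zero hc₀, inv_mem_nonunits_of_not_mem hc⟩, _, h1, ?_⟩
  rw [zero_add, cst_inv_mul_cancel hc₀]

/-! ### inertia -/

theorem isRatio_coeffMap {σ : GQ} (hσ : σ ∈ A.inertiaSubgroupIn ℚ) {x : LaurentSeries Qbar}
    {f g : LaurentSeries A} (h : IsRatio (IsLocalRing.residue A) x f g) :
    IsRatio (IsLocalRing.residue A) (coeffMap (σ : Qbar →+* Qbar) x)
      (coeffMap (ES.Mid.J.resHom hσ) f) (coeffMap (ES.Mid.J.resHom hσ) g) := by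
  have e : ∀ y : LaurentSeries A, inc A (coeffMap (ES.Mid.J.resHom hσ) y) =
      coeffMap (σ : Qbar →+* Qbar) (inc A y) := by
    intro y
    rw [coeffMap_coeffMap, coeffMap_coeffMap, ES.Mid.J.subtype_comp_resHom]
  refine ⟨?_, ?_⟩
  · rw [coeffMap_coeffMap, ES.Mid.J.residue_comp_resHom]
    exact h.1
  · rw [e, e, ← map_mul, h.2]

theorem GO.coeffMap {σ : GQ} (hσ : σ ∈ A.inertiaSubgroupIn ℚ) {x : LaurentSeries Qbar}
    (hx : GO A x) : GO A (coeffMap (σ : Qbar →+* Qbar) x) := by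
  obtain ⟨f, g, h⟩ := hx
  exact ⟨_, _, isRatio_coeffMap hσ h⟩

theorem rd_coeffMap {σ : GQ} (hσ : σ ∈ A.inertiaSubgroupIn ℚ) {x : LaurentSeries Qbar}
    (hx : GO A x) : rd A (coeffMap (σ : Qbar →+* Qbar) x) = rd A x := by
  obtain ⟨f, g, h⟩ := hx
  rw [rd_eq h, rd_eq (isRatio_coeffMap hσ h), coeffMap_coeffMap, coeffMap_coeffMap,
    ES.Mid.J.residue_comp_resHom]

/-! ### congruences -/

theorem Cg.refl (c : Qbar) (x : LaurentSeries Qbar) : Cg A c x x :=
  ⟨0, GO_zero, by rw [mul_zero, add_zero]⟩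

theorem Cg.symm {c : Qbar} {x y : LaurentSeries Qbar} (h : Cg A c x y) : Cg A c y x := by
  obtain ⟨z, hz, rfl⟩ := h
  exact ⟨-z, hz.neg, by ring⟩

theorem Cg.trans {c : Qbar} {x y w : LaurentSeries Qbar} (h : Cg A c x y) (h' : Cg A c y w) :
    Cg A c x w := by
  obtain ⟨z, hz, rfl⟩ := h
  obtain ⟨z', hz', rfl⟩ := h'
  exact ⟨z' + z, hz'.add hz, by ring⟩

theorem Cg.add {c : Qbar} {x y x' y' : LaurentSeries Qbar} (h : Cg A c x y) (h' : Cg A c x' y') :
    Cg A c (x + x') (y + y') := by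
  obtain ⟨z, hz, rfl⟩ := h
  obtain ⟨z', hz', rfl⟩ := h'
  exact ⟨z + z', hz.add hz', by ring⟩

theorem Cg.neg {c : Qbar} {x y : LaurentSeries Qbar} (h : Cg A c x y) : Cg A c (-x) (-y) := by
  obtain ⟨z, hz, rfl⟩ := h
  exact ⟨-z, hz.neg, by ring⟩

theorem Cg.sub {c : Qbar} {x y x' y' : LaurentSeries Qbar} (h : Cg A c x y) (h' : Cg A c x' y') :
    Cg A c (x - x') (y - y') := by
  rw [sub_eq_add_neg, sub_eq_add_neg]
  exact h.add h'.neg

theorem Cg.mul {c : Qbar} {x y x' y' : LaurentSeries Qbar} (h : Cg A c x y) (h' : Cg A c x' y')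
    (hy : GO A y) (hx' : GO A x') : Cg A c (x * x') (y * y') := by
  obtain ⟨z, hz, rfl⟩ := h
  obtain ⟨z', hz', e⟩ := h'
  refine ⟨z * x' + y * z', (hz.mul hx').add (hy.mul hz'), ?_⟩
  have h1 : (y + cst c * z) * x' = y * x' + cst c * (z * x') := by ring
  have h2 : y * x' = y * y' + cst c * (y * z') := by rw [e]; ring
  rw [h1, h2]
  ring

theorem Cg.mul_left {c : Qbar} {x y : LaurentSeries Qbar} (h : Cg A c x y)
    {w : LaurentSeries Qbar} (hw : GO A w) : Cg A c (w * x) (w * y) := by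
  obtain ⟨z, hz, rfl⟩ := h
  exact ⟨w * z, hw.mul hz, by ring⟩

theorem Cg.mul_right {c : Qbar} {x y : LaurentSeries Qbar} (h : Cg A c x y)
    {w : LaurentSeries Qbar} (hw : GO A w) : Cg A c (x * w) (y * w) := by
  obtain ⟨z, hz, rfl⟩ := h
  exact ⟨z * w, hz.mul hw, by ring⟩

/-- `x ≡ y mod d a`, `a ∈ A`, implies `x ≡ y mod d`. -/
theorem Cg.mono_mul {d a : Qbar} (ha : a ∈ A) {x y : LaurentSeries Qbar}
    (h : Cg A (d * a) x y) : Cg A d x y := by
  obtain ⟨z, hz, rfl⟩ := h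
  exact ⟨cst a * z, (GO_cst ha).mul hz, by rw [cst_mul, mul_assoc]⟩

theorem Cg.mono {c d : Qbar} (hd : d ≠ 0) (hcd : c / d ∈ A) {x y : LaurentSeries Qbar}
    (h : Cg A c x y) : Cg A d x y := by
  apply Cg.mono_mul hcd
  rwa [mul_div_cancel₀ _ hd]

theorem Cg.GO {c : Qbar} (hc : c ∈ A) {x y : LaurentSeries Qbar} (h : Cg A c x y)
    (hy : GO A y) : GO A x := by
  obtain ⟨z, hz, rfl⟩ := h
  exact hy.add ((GO_cst hc).mul hz)

theorem Cg.rd_eq {c : Qbar} (hc : c ∈ A.nonunits) {x y : LaurentSeries Qbar} (h : Cg A c x y)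
    (hy : Dep.GO A y) : rd A x = rd A y := by
  obtain ⟨z, hz, rfl⟩ := h
  have hcA := GO_cst (A.nonunits_subset hc)
  rw [rd_add hy (hcA.mul hz), rd_mul hcA hz, rd_cst_of_nonunits hc, zero_mul, add_zero]

theorem Cg.pow {c : Qbar} {x y : LaurentSeries Qbar} (h : Cg A c x y) (hx : Dep.GO A x)
    (hy : Dep.GO A y) (n : ℕ) : Cg A c (x ^ n) (y ^ n) := by
  induction n with
  | zero => rw [pow_zero, pow_zero]; exact Cg.refl c 1
  | succ n ih => rw [pow_succ, pow_succ]; exact ih.mul h (hy.pow n) hx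

theorem Cg_iff_sub {c : Qbar} {x y : LaurentSeries Qbar} : Cg A c x y ↔ Cg A c (x - y) 0 := by
  constructor
  · rintro ⟨z, hz, rfl⟩
    exact ⟨z, hz, by ring⟩
  · rintro ⟨z, hz, e⟩
    exact ⟨z, hz, by rw [zero_add] at e; rw [← e]; ring⟩

/-- two distinct Gauss-integral elements of `F_N` with the same reduction are congruent modulo a
nonzero element of the maximal ideal. -/
theorem Cg_of_rd_eq (N : ℕ) [NeZero N] {u v : FF N} (hne : u ≠ v)
    (hu : GO A (u : LaurentSeries Qbar)) (hv : GO A (v : LaurentSeries Qbar))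
    (h : rd A (u : LaurentSeries Qbar) = rd A (v : LaurentSeries Qbar)) :
    ∃ c : Qbar, Sm A c ∧ Cg A c (u : LaurentSeries Qbar) (v : LaurentSeries Qbar) := by
  have e : ((u - v : FF N) : LaurentSeries Qbar) = (u : LaurentSeries Qbar) - v := rfl
  obtain ⟨c, hc, hcg⟩ := exists_small (A := A) N (sub_ne_zero.2 hne) (by rw [e]; exact hu.sub hv)
    (by rw [e, rd_sub hu hv, h, sub_self])
  rw [e] at hcg
  exact ⟨c, hc, Cg_iff_sub.2 hcg⟩

/-! ### the statement -/

theorem stmt_GOApi : Stmt_GOApi := by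
  intro A
  refine ⟨fun x y hx hy => ⟨hx.add hy, hx.mul hy, hx.neg, rd_add hx hy, rd_mul hx hy, rd_neg hx⟩,
    fun a ha => ⟨GO_cst ha, fun h => rd_cst h⟩, fun x hx h => ⟨hx.inv h, rd_inv hx h⟩,
    fun N _ u hu => exists_norm A N hu, fun N _ u hu hG h0 => exists_small N hu hG h0,
    fun c hc => mem_of_GO_cst hc, fun σ hσ x hx => ⟨hx.coeffMap hσ, rd_coeffMap hσ hx⟩⟩

end Fermat.Agent.ORD.Dep

end
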