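import Fermat.Agent.ORD.Dep.Interface
import Fermat.Agent.INJ.Inst.ChartS
import Fermat.Agent.INJ.Inst.Basic
import Fermat.Agent.INJ.P1
import Fermat.Agent.INJ.P2
import Fermat.Agent.ES.Mid.HF2
import Fermat.Agent.ES.Mid.HF3

/-!
# ORD / Dep, package DEP-LIFT : the residue field at a level prime to `p` is `k(j(q^d) : d ∣ N)`

* `LF_rep`   : `p ∤ N`, `x ∈ F_N` Gauss-integral ⟹ `rd x ∈ k(j(q^d) : d ∣ N)`;
* `LF_lift`  : every element of `k(j(q^d) : d ∣ N)` lifts to a Gauss-integral element of `F_N^H`, as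
               soon as every element of `k` lifts to `A ∩ ℚ̄^H`;
* `LF_frob`  : `k(j(q^d) : d ∣ N)` is stable under the Frobenius on coefficients and its inverse;
* `stmt_LiftFix (hT : Stmt_Teich) : Stmt_LiftFix`,  `stmt_FrobRoot : Stmt_FrobRoot`.
-/

set_option autoImplicit false
set_option synthInstance.maxHeartbeats 400000

noncomputable section

namespace Fermat.Agent.ORD.Dep

open ModularCurve IntermediateField
open Fermat.Agent.S24 (Qbar FF)
open Fermat.Agent.ES.Mid (GQ gal IsDiv formalN twProd compress tw)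
open Fermat.Agent.INJ.Inst (kA)
open Fermat.Agent.INJ.Inst.Gauss (IsRatio red_eq)

/-! ### API of `GO` and `rd` -/

section API

variable {A : ValuationSubring Qbar}

theorem LF_add {x y : LaurentSeries Qbar} (hx : GO A x) (hy : GO A y) :
    GO A (x + y) ∧ rd A (x + y) = rd A x + rd A y := by
  obtain ⟨f, g, h1⟩ := hx
  obtain ⟨f', g', h2⟩ := hy
  refine ⟨⟨_, _, h1.add h2⟩, ?_⟩
  rw [rd, rd, rd, red_eq h1, red_eq h2, red_eq (h1.add h2), map_add, map_mul, map_mul, map_mul,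
    div_add_div _ _ h1.1 h2.1]
  congr 1
  ring

theorem LF_mul {x y : LaurentSeries Qbar} (hx : GO A x) (hy : GO A y) :
    GO A (x * y) ∧ rd A (x * y) = rd A x * rd A y := by
  obtain ⟨f, g, h1⟩ := hx
  obtain ⟨f', g', h2⟩ := hy
  refine ⟨⟨_, _, h1.mul h2⟩, ?_⟩
  rw [rd, rd, rd, red_eq h1, red_eq h2, red_eq (h1.mul h2), map_mul, map_mul, div_mul_div_comm]

theorem LF_inv {x : LaurentSeries Qbar} (hx : GO A x) (h0 : rd A x ≠ 0) :
    GO A x⁻¹ ∧ rd A x⁻¹ = (rd A x)⁻¹ := by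
  obtain ⟨f, g, h1⟩ := hx
  have hf : coeffMap (IsLocalRing.residue A) f ≠ 0 := by
    intro hf
    apply h0
    rw [rd, red_eq h1, hf, zero_div]
  refine ⟨⟨_, _, h1.inv hf⟩, ?_⟩
  rw [rd, rd, red_eq h1, red_eq (h1.inv hf), inv_div]

theorem LF_inc (y : LaurentSeries A) :
    GO A (coeffMap A.subtype y) ∧ rd A (coeffMap A.subtype y) = coeffMap (IsLocalRing.residue A) y := by
  have h := INJ.Inst.Gauss.isRatio_inc (res := IsLocalRing.residue A) y
  refine ⟨⟨_, _, h⟩, ?_⟩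
  rw [rd, red_eq h, map_one, div_one]

theorem LF_zero : GO A 0 ∧ rd A 0 = 0 := by
  have := LF_inc (A := A) 0
  rwa [map_zero, map_zero] at this

theorem LF_cst (a : A) :
    GO A (cst (a : Qbar)) ∧ rd A (cst (a : Qbar)) = cstk A (IsLocalRing.residue A a) := by
  have := LF_inc (A := A) (HahnSeries.single 0 a)
  rwa [INJ.Inst.Gauss.inc_single, INJ.Inst.Gauss.rho_single] at this

end API

/-! ### lifting -/

theorem LF_lift (A : ValuationSubring Qbar) (N : ℕ) [NeZero N] (H : Subgroup GQ)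
    (hT : ∀ a ∈ A, ∃ b ∈ A, FixK H b ∧ a - b ∈ A.nonunits) (z : LaurentSeries (kA A))
    (hz : z ∈ modularFunctionFieldFullC (kA A) N) :
    ∃ y : FF N, FixF N H y ∧ GO A (y : LaurentSeries Qbar) ∧ rd A (y : LaurentSeries Qbar) = z := by
  rw [modularFunctionFieldFullC] at hz
  induction hz using IntermediateField.adjoin_induction with
  | mem z hz =>
    obtain ⟨d, hd0, hd, rfl⟩ := hz
    refine ⟨⟨S28.jd Qbar d, INJ.Inst.jd_mem_bar (NeZero.ne N) hd⟩, ?_, ?_⟩
    · intro σ _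
      apply Subtype.ext
      rw [ES.Mid.coe_gal]
      exact S28.tower_coeffMap_jd _ d
    · have := LF_inc (A := A) (S28.jd A d)
      rw [S28.tower_coeffMap_jd, S28.tower_coeffMap_jd] at this
      rw [← S28.Vq_eq]
      exact this
  | algebraMap c =>
    obtain ⟨a, rfl⟩ := IsLocalRing.residue_surjective c
    obtain ⟨b, hb, hfix, hab⟩ := hT a a.2
    refine ⟨algebraMap Qbar (FF N) b, ?_, ?_⟩
    · intro σ hσ
      have := arithmeticRingAut_algebraMap (modularFunctionFieldFull N) σ b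
      rw [hfix σ hσ] at this
      exact this
    · have h1 := LF_cst (A := A) ⟨b, hb⟩
      have h2 : IsLocalRing.residue A ⟨b, hb⟩ = IsLocalRing.residue A a := by
        rw [eq_comm, ← sub_eq_zero, ← map_sub, IsLocalRing.residue_eq_zero_iff,
          ← ValuationSubring.coe_mem_nonunits_iff]
        exact hab
      rw [h2] at h1
      exact h1
  | add z z' _ _ h h' =>
    obtain ⟨y, hy1, hy2, rfl⟩ := h
    obtain ⟨y', hy1', hy2', rfl⟩ := h'
    refine ⟨y + y', fun σ hσ => by rw [map_add, hy1 σ hσ, hy1' σ hσ], LF_add hy2 hy2'⟩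
  | inv z _ h =>
    obtain ⟨y, hy1, hy2, rfl⟩ := h
    by_cases h0 : rd A (y : LaurentSeries Qbar) = 0
    · refine ⟨0, fun σ _ => map_zero _, ?_⟩
      rw [h0, inv_zero]
      exact LF_zero
    · exact ⟨y⁻¹, fun σ hσ => by rw [map_inv₀, hy1 σ hσ], LF_inv hy2 h0⟩
  | mul z z' _ _ h h' =>
    obtain ⟨y, hy1, hy2, rfl⟩ := h
    obtain ⟨y', hy1', hy2', rfl⟩ := h'
    refine ⟨y * y', fun σ hσ => by rw [map_mul, hy1 σ hσ, hy1' σ hσ], LF_mul hy2 hy2'⟩

/-! ### Frobenius on the coefficients -/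

theorem LF_frob (k : Type) [Field k] [IsAlgClosed k] (p : ℕ) [Fact p.Prime] [CharP k p] (N : ℕ)
    (z : LaurentSeries k) (hz : z ∈ modularFunctionFieldFullC k N) :
    coeffMap (frobenius k p) z ∈ modularFunctionFieldFullC k N ∧
      ∃ z' ∈ modularFunctionFieldFullC k N, coeffMap (frobenius k p) z' = z := by
  have hz' := hz
  rw [modularFunctionFieldFullC] at hz'
  induction hz' using IntermediateField.adjoin_induction with
  | mem z hz1 =>
    obtain ⟨d, hd0, hd, rfl⟩ := hz1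
    have h1 : coeffMap (frobenius k p) (qExpand k d (jqModC k)) = qExpand k d (jqModC k) := by
      rw [coeffMap_qExpand, coeffMap_jqModC]
    exact ⟨h1.symm ▸ hz, _, hz, h1⟩
  | algebraMap c =>
    obtain ⟨c', hc'⟩ := IsAlgClosed.exists_pow_nat_eq c (Fact.out : p.Prime).pos
    refine ⟨?_, algebraMap k _ c', IntermediateField.algebraMap_mem _ _, ?_⟩
    · rw [coeffMap_algebraMap]
      exact IntermediateField.algebraMap_mem _ _
    · rw [coeffMap_algebraMap, frobenius_def, hc']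
  | add z z' h1 h2 h h' =>
    obtain ⟨ha, w, hw, rfl⟩ := h h1
    obtain ⟨ha', w', hw', rfl⟩ := h' h2
    exact ⟨by rw [map_add]; exact add_mem ha ha', w + w', add_mem hw hw', map_add _ _ _⟩
  | inv z h1 h =>
    obtain ⟨ha, w, hw, rfl⟩ := h h1
    exact ⟨by rw [map_inv₀]; exact inv_mem ha, w⁻¹, inv_mem hw, map_inv₀ _ _⟩
  | mul z z' h1 h2 h h' =>
    obtain ⟨ha, w, hw, rfl⟩ := h h1
    obtain ⟨ha', w', hw', rfl⟩ := h' h2
    exact ⟨by rw [map_mul]; exact mul_mem ha ha', w * w', mul_mem hw hw', map_mul _ _ _⟩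

/-! ### the residue field is generated by the `j(q^d)` -/

theorem LF_coe_mem {k M : Type*} [Field k] [Field M] [Algebra k M] (L : IntermediateField k M)
    (x c : L) (hc : c ∈ k⟮x⟯) : (c : M) ∈ k⟮(x : M)⟯ := by
  have h1 : (k⟮x⟯).map L.val = k⟮(x : M)⟯ := by
    rw [IntermediateField.adjoin_map, Set.image_singleton]
    rfl
  rw [← h1]
  exact ⟨c, hc, rfl⟩

theorem LF_exists_coe {k M : Type*} [Field k] [Field M] [Algebra k M] (L : IntermediateField k M)
    (x : L) (c : M) (hc : c ∈ k⟮(x : M)⟯) : ∃ c' : k⟮x⟯, ((c' : L) : M) = c := by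
  have h1 : (k⟮x⟯).map L.val = k⟮(x : M)⟯ := by
    rw [IntermediateField.adjoin_map, Set.image_singleton]
    rfl
  rw [← h1] at hc
  obtain ⟨c', hc', rfl⟩ := hc
  exact ⟨⟨c', hc'⟩, rfl⟩

set_option maxHeartbeats 1000000 in
theorem LF_rep (p : ℕ) (hp : p.Prime) (A : ValuationSubring Qbar) (hA : A.LiesOverPrime p)
    (N : ℕ) [NeZero N] (hpN : ¬ p ∣ N) (x : FF N) (hx : GO A (x : LaurentSeries Qbar)) :
    rd A (x : LaurentSeries Qbar) ∈ modularFunctionFieldFullC (kA A) N := by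
  have hN0 : N ≠ 0 := NeZero.ne N
  have hAC : IsAlgClosed (kA A) := S18G.isAlgClosed_kA A
  have hNk : (N : kA A) ≠ 0 := INJ.Inst.CS.natCast_ne_zero A hA
    ((Nat.Prime.coprime_iff_not_dvd hp).2 hpN).symm
  obtain ⟨L, D, hG, h1, -⟩ := INJ.Inst.exists_gauss_strong N A
  -- the coordinate `s`
  have hsA : coeffMap A.subtype (S28.jd A N) = S28.jd Qbar N := S28.tower_coeffMap_jd _ N
  have hsmem : coeffMap A.subtype (S28.jd A N) ∈ modularFunctionFieldBar N :=
    hsA ▸ INJ.Inst.jd_mem_bar hN0 dvd_rfl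
  let s : FF N := ⟨_, hsmem⟩
  have hsO : s ∈ D.O := (hG.rd (S28.jd A N) hsmem).1
  have hsrd : ((D.rd s : L) : LaurentSeries (kA A)) = S28.jd (kA A) N :=
    (hG.rd (S28.jd A N) hsmem).2.trans (S28.tower_coeffMap_jd _ N)
  have htr : Transcendental (kA A) (D.rd s) := by
    intro h
    have h1 := h.algHom L.val
    change IsAlgebraic (kA A) ((D.rd s : L) : LaurentSeries (kA A)) at h1
    rw [hsrd] at h1
    exact INJ.Inst.CS.transcendental_jd (kA A) N h1
  -- the tower basis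
  obtain ⟨ι, hι, b, hb1, hb2, hb3⟩ := INJ.Inst.Tower.tower N (kA A) hNk
  have hy : ∀ i, coeffMap A.subtype (S28.cZ A (b i)) = S28.cZ Qbar (b i) := fun i => by
    rw [coeffMap_coeffMap]
    exact coeffMap_congr (RingHom.ext_int _ _) _
  have hmem : ∀ i, coeffMap A.subtype (S28.cZ A (b i)) ∈ modularFunctionFieldBar N := fun i => by
    rw [hy]
    exact INJ.Inst.CS.cZ_mem_bar (hb1 i)
  let e : ι → FF N := fun i => ⟨_, hmem i⟩
  have heO : ∀ i, e i ∈ D.O := fun i => (hG.rd _ (hmem i)).1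
  have he : ∀ i, ((D.rd (e i) : L) : LaurentSeries (kA A)) = S28.cZ (kA A) (b i) := fun i => by
    rw [(hG.rd _ (hmem i)).2, coeffMap_coeffMap]
    exact coeffMap_congr (RingHom.ext_int _ _) _
  have hli : LinearIndependent (kA A)⟮D.rd s⟯ (fun i => D.rd (e i)) := by
    apply INJ.Inst.CS.linearIndependent_of_ambient L (D.rd s) (fun i => D.rd (e i))
    have hfun : (fun i => ((D.rd (e i) : L) : LaurentSeries (kA A))) =
        fun i => S28.cZ (kA A) (b i) := funext he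
    rw [hfun, hsrd]
    rw [S28.Ej] at hb3
    exact hb3
  have hO := (INJ.stmt_Ortho INJ.stmt_Gauss Qbar (FF N) (kA A) L D s hsO htr ι e heO hli).2
  have hGa := (INJ.stmt_Gauss Qbar (FF N) (kA A) L D s hsO htr).2.2.2.2
  -- the expansion of `x`
  have hxs := hb2 x x.2
  rw [S28.Ej, ← hsA] at hxs
  obtain ⟨c, hc⟩ := (Submodule.mem_span_range_iff_exists_fun _).mp hxs
  choose c' hc' using fun i => LF_exists_coe (modularFunctionFieldBar N) s (c i) (c i).2
  have hxe : x = ∑ i, ((c' i : FF N)) * e i := by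
    apply Subtype.ext
    rw [← hc, IntermediateField.coe_sum]
    refine Finset.sum_congr rfl fun i _ => ?_
    rw [IntermediateField.smul_def, smul_eq_mul, IntermediateField.coe_mul, hc' i, ← hy i]
  -- `x ∈ O`, `D.rd x = rd x`
  obtain ⟨f, g, hfg⟩ := hx
  obtain ⟨hxO, hxrd⟩ := h1 x f g hfg.1 hfg.2
  rw [rd, red_eq hfg, ← hxrd]
  have hcO : ∀ i, ((c' i : FF N)) ∈ D.O := hO c' (hxe ▸ hxO)
  rw [hxe, INJ.RedData.rd_sum _ _ (fun i _ => mul_mem (hcO i) (heO i)), IntermediateField.coe_sum]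
  refine sum_mem fun i _ => ?_
  rw [INJ.RedData.rd_mul (hcO i) (heO i), IntermediateField.coe_mul, he i]
  refine mul_mem ?_ (S28.tower_cZ_mem_Kf (kA A) (Nat.pos_of_ne_zero hN0) (hb1 i))
  have h2 := LF_coe_mem L (D.rd s) _ (hGa (c' i) (hcO i))
  rw [hsrd] at h2
  have hle : (kA A)⟮S28.jd (kA A) N⟯ ≤ modularFunctionFieldFullC (kA A) N := by
    rw [adjoin_simple_le_iff, S28.jd, S28.Vq_eq]
    exact jqModCd_mem_full (kA A) N dvd_rfl
  exact hle h2

/-! ### the statements -/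

theorem stmt_LiftFix (hT : Stmt_Teich) : Stmt_LiftFix := by
  intro p hp A hA N _ hpN x hx
  exact LF_lift A N _ (hT p hp A hA) _ (LF_rep p hp A hA N hpN x hx)

theorem LF_bot (A : ValuationSubring Qbar) :
    ∀ a ∈ A, ∃ b ∈ A, FixK (⊥ : Subgroup GQ) b ∧ a - b ∈ A.nonunits := by
  intro a ha
  refine ⟨a, ha, ?_, ?_⟩
  · intro σ hσ
    rw [Subgroup.mem_bot] at hσ
    rw [hσ]
    rfl
  · rw [sub_self]
    exact A.nonunits.zero_mem

theorem stmt_FrobRoot : Stmt_FrobRoot := by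
  intro p _ hp A hA N _ hpN x hx
  have : Fact p.Prime := ⟨hp⟩
  have hAC : IsAlgClosed (kA A) := S18G.isAlgClosed_kA A
  have hch : CharP (kA A) p := ES.Mid.HF3.charP_residue A p hA
  obtain ⟨h1, z', hz', h2⟩ := LF_frob (kA A) p N _ (LF_rep p hp A hA N hpN x hx)
  constructor
  · obtain ⟨y, -, hy, hyz⟩ := LF_lift A N ⊥ (LF_bot A) z' hz'
    exact ⟨y, hy, by rw [hyz, ES.Mid.HF2.pow_eq p z', h2]⟩
  · obtain ⟨y, -, hy, hyz⟩ := LF_lift A N ⊥ (LF_bot A) _ h1
    exact ⟨y, hy, by rw [hyz, ES.Mid.HF2.pow_eq p]⟩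

end Fermat.Agent.ORD.Dep

end
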