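import Fermat.Agent.ORD.Dep.Interface
import Fermat.Agent.ES.Mid.HGlue
import Fermat.Agent.ES.Mid.InvRat
import Fermat.Agent.ES.Mid.HF1
import Fermat.Agent.ES.Mid.HA1
import Fermat.Agent.ES.Mid.HA2
import Fermat.Agent.ES.Mid.HA3

/-!
# ORD / Dep : (FL-NMEM) `T_ℓ` preserves `F_N` (`ℓ ∤ N`) and commutes with `G_ℚ`
(`Stmt_NMem`, unconditional; from `ES/Mid/HGlue.lean`).
-/

set_option autoImplicit false

namespace Fermat.Agent.ORD.Dep

open ModularCurve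
open Fermat.Agent.S24 (Qbar FF)
open Fermat.Agent.ES.Mid

theorem stmt_NMem : Stmt_NMem := by
  intro N _ ℓ _ hℓ hℓN ζ hζ u
  have hmem := HG.formalN_mem INV.invRat ha_char ha_mdiff HA2.stmt_HA_rep HA3.ha_growth
    HF1.hf_mul N hℓ hℓN ζ hζ
  refine ⟨HG.mkN hmem u, rfl, fun hu => HG.mkN_ne_zero hmem HF1.hf_mul hζ hu, ?_⟩
  intro H hH σ hσ
  rw [← HG.mkN_gal hmem HF1.hf_map HF1.hf_indep hζ σ u, hH σ hσ]

end Fermat.Agent.ORD.Dep

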