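import Fermat.Agent.ORD.Dep.Interface
import Fermat.Agent.ES.Mid.HF1
import Fermat.Agent.ES.Mid.HF2
import Fermat.Agent.ES.Mid.HF3
import Fermat.Agent.INJ.Inst.Sat

/-!
# ORD / Dep, package DEP-C : `U_p` raises the depth (formal `q`-expansion computation) (helper9)

`stmt_C2`, `stmt_C1`, `stmt_Deepen`, all unconditional.
-/

set_option autoImplicit false
set_option linter.unusedSectionVars false

noncomputable section

namespace Fermat.Agent.ORD.Dep

open ModularCurve
open Fermat.Agent.S24 (Qbar FF)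
open Fermat.Agent.ES.Mid (GQ gal IsDiv formalN twProd compress tw tw_coeff compress_coeff)
open Fermat.Agent.INJ.Inst (kA)
open Fermat.Agent.INJ.Inst.Gauss (IsRatio inc rho red red_eq)

namespace C

/-! ### formal lemmas over a commutative ring -/

section Formal

variable {R : Type*} [CommRing R]

theorem tw_add (ζ : Rˣ) (x y : LaurentSeries R) : tw ζ (x + y) = tw ζ x + tw ζ y := by
  ext n
  simp [mul_add]

theorem tw_single_zero (ζ : Rˣ) (a : R) :
    tw ζ (HahnSeries.single 0 a : LaurentSeries R) = HahnSeries.single 0 a := by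
  ext n
  rw [tw_coeff]
  by_cases hn : n = 0
  · subst hn; simp
  · rw [HahnSeries.coeff_single_of_ne hn, mul_zero]

theorem compress_add (ℓ : ℕ) [NeZero ℓ] (x y : LaurentSeries R) :
    compress ℓ (x + y) = compress ℓ x + compress ℓ y := by
  ext n
  simp

theorem compress_zero (ℓ : ℕ) [NeZero ℓ] : compress ℓ (0 : LaurentSeries R) = 0 := by
  ext n
  simp

theorem compress_sum {ι : Type*} (ℓ : ℕ) [NeZero ℓ] (s : Finset ι) (f : ι → LaurentSeries R) :
    compress ℓ (∑ i ∈ s, f i) = ∑ i ∈ s, compress ℓ (f i) := by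
  classical
  induction s using Finset.induction_on with
  | empty => simp [compress_zero]
  | insert a s ha ih => rw [Finset.sum_insert ha, Finset.sum_insert ha, compress_add, ih]

theorem compress_single_mul (ℓ : ℕ) [NeZero ℓ] (a : R) (x : LaurentSeries R) :
    compress ℓ (HahnSeries.single 0 a * x) = HahnSeries.single 0 a * compress ℓ x := by
  ext n
  simp

theorem compress_tw (ℓ : ℕ) [NeZero ℓ] (ζ : Rˣ) (h : ζ ^ ℓ = 1) (x : LaurentSeries R) :
    compress ℓ (tw ζ x) = compress ℓ x := by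
  ext n
  rw [compress_coeff, compress_coeff, tw_coeff, zpow_mul, zpow_natCast, h, one_zpow, Units.val_one,
    one_mul]

/-- `compress` is linear over the series in `q ^ ℓ`. -/
theorem compress_mul_qExpand (ℓ : ℕ) [NeZero ℓ] (x y : LaurentSeries R) :
    compress ℓ (x * qExpand R ℓ y) = compress ℓ x * y := by
  have hℓ : (ℓ : ℤ) ≠ 0 := by exact_mod_cast NeZero.ne ℓ
  ext n
  rw [compress_coeff, HahnSeries.coeff_mul, HahnSeries.coeff_mul]
  symm
  refine Finset.sum_bij (fun ij _ => ((ℓ : ℤ) * ij.1, (ℓ : ℤ) * ij.2)) ?_ ?_ ?_ ?_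
  · intro ij hij
    rw [Finset.mem_antidiagonal] at hij ⊢
    refine ⟨?_, ?_, ?_⟩
    · exact hij.1
    · have := hij.2.1
      rw [HahnSeries.mem_support] at this ⊢
      rwa [qExpand_coeff_mul]
    · show (ℓ : ℤ) * ij.1 + (ℓ : ℤ) * ij.2 = (ℓ : ℤ) * n
      rw [← mul_add, hij.2.2]
  · intro a _ b _ hab
    have h1 := (Prod.ext_iff.1 hab).1
    have h2 := (Prod.ext_iff.1 hab).2
    exact Prod.ext (mul_left_cancel₀ hℓ h1) (mul_left_cancel₀ hℓ h2)
  · intro ij hij
    rw [Finset.mem_antidiagonal] at hij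
    obtain ⟨h1, h2, h3⟩ := hij
    have hd : (ℓ : ℤ) ∣ ij.2 := by
      by_contra hd
      exact h2 (qExpand_coeff_of_not_dvd ℓ y hd)
    obtain ⟨j', hj'⟩ := hd
    have hi : ij.1 = (ℓ : ℤ) * (n - j') := by
      rw [mul_sub, ← hj', ← h3]; ring
    refine ⟨(n - j', j'), ?_, ?_⟩
    · rw [Finset.mem_antidiagonal]
      refine ⟨?_, ?_, by simp⟩
      · show (compress ℓ x).coeff (n - j') ≠ 0
        rw [compress_coeff, ← hi]
        exact h1
      · rw [HahnSeries.mem_support] at h2 ⊢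
        rwa [hj', qExpand_coeff_mul] at h2
    · exact Prod.ext hi.symm hj'.symm
  · intro ij _
    rw [compress_coeff, qExpand_coeff_mul]

end Formal

/-! ### API of `GO`, `rd` -/

section GOapi

open Fermat.Agent.ES.Mid
open Fermat.Agent.INJ.Inst.Gauss (isRatio_inc isRatio_zero isRatio_one inc_single rho_single)

variable {A : ValuationSubring Qbar}

theorem GO_add {x y : LaurentSeries Qbar} (hx : GO A x) (hy : GO A y) : GO A (x + y) := by
  obtain ⟨f, g, h⟩ := hx
  obtain ⟨f', g', h'⟩ := hy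
  exact ⟨_, _, h.add h'⟩

theorem GO_mul {x y : LaurentSeries Qbar} (hx : GO A x) (hy : GO A y) : GO A (x * y) := by
  obtain ⟨f, g, h⟩ := hx
  obtain ⟨f', g', h'⟩ := hy
  exact ⟨_, _, h.mul h'⟩

theorem GO_zero : GO A 0 := ⟨0, 1, isRatio_zero⟩

theorem GO_one : GO A 1 := ⟨1, 1, isRatio_one⟩

theorem GO_sum {ι : Type*} (s : Finset ι) (f : ι → LaurentSeries Qbar)
    (h : ∀ i ∈ s, GO A (f i)) : GO A (∑ i ∈ s, f i) := by
  classical
  induction s using Finset.induction_on with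
  | empty => simpa using GO_zero
  | insert a s ha ih =>
    rw [Finset.sum_insert ha]
    exact GO_add (h a (Finset.mem_insert_self a s))
      (ih fun i hi => h i (Finset.mem_insert_of_mem hi))

theorem isRatio_cst {a : Qbar} (ha : a ∈ A) :
    IsRatio (IsLocalRing.residue A) (cst a) (HahnSeries.single 0 (⟨a, ha⟩ : A)) 1 := by
  have := isRatio_inc (res := IsLocalRing.residue A) (HahnSeries.single 0 (⟨a, ha⟩ : A))
  rwa [inc_single] at this

theorem GO_cst {a : Qbar} (ha : a ∈ A) : GO A (cst a) := ⟨_, _, isRatio_cst ha⟩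

theorem rd_add {x y : LaurentSeries Qbar} (hx : GO A x) (hy : GO A y) :
    rd A (x + y) = rd A x + rd A y := by
  obtain ⟨f, g, h⟩ := hx
  obtain ⟨f', g', h'⟩ := hy
  rw [rd, rd, rd, red_eq h, red_eq h', red_eq (h.add h'), map_add, map_mul, map_mul, map_mul,
    div_add_div _ _ h.1 h'.1]
  congr 1
  ring

theorem res_eq_zero {a : Qbar} (ha : a ∈ A.nonunits) :
    ∃ h : a ∈ A, IsLocalRing.residue A ⟨a, h⟩ = 0 := by
  obtain ⟨h, hm⟩ := ValuationSubring.mem_nonunits_iff_exists_mem_maximalIdeal.1 ha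
  exact ⟨h, (IsLocalRing.residue_eq_zero_iff _).2 hm⟩

theorem rd_cst_mul_of_nonunit {a : Qbar} (ha : a ∈ A.nonunits) {x : LaurentSeries Qbar}
    (hx : GO A x) : rd A (cst a * x) = 0 := by
  obtain ⟨h, h0⟩ := res_eq_zero ha
  obtain ⟨f, g, hr⟩ := hx
  rw [rd, red_eq ((isRatio_cst h).mul hr), map_mul, rho_single, h0, map_zero, zero_mul, zero_div]

variable {p : ℕ} [NeZero p]

theorem isRatio_V {z : LaurentSeries Qbar} {f g : LaurentSeries A}
    (h : IsRatio (IsLocalRing.residue A) z f g) :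
    IsRatio (IsLocalRing.residue A) (qExpand Qbar p z) (qExpand A p f) (qExpand A p g) := by
  refine ⟨?_, ?_⟩
  · show coeffMap _ (qExpand A p g) ≠ 0
    rw [coeffMap_qExpand]
    intro h0
    exact h.1 (qExpand_injective p (by rw [h0, map_zero]))
  · show _ * coeffMap _ _ = coeffMap _ _
    rw [coeffMap_qExpand, coeffMap_qExpand, ← map_mul]
    exact congrArg _ h.2

theorem GO_V {z : LaurentSeries Qbar} (hz : GO A z) : GO A (qExpand Qbar p z) := by
  obtain ⟨f, g, h⟩ := hz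
  exact ⟨_, _, isRatio_V h⟩

theorem rd_V {z : LaurentSeries Qbar} (hz : GO A z) :
    rd A (qExpand Qbar p z) = qExpand (kA A) p (rd A z) := by
  obtain ⟨f, g, h⟩ := hz
  rw [rd, rd, red_eq (isRatio_V h), red_eq h, map_div₀]
  show coeffMap _ _ / coeffMap _ _ = _
  rw [coeffMap_qExpand, coeffMap_qExpand]

/-- the root of unity `ζ` as a unit of `A`; it reduces to `1`. -/
theorem exists_zA (hp : p.Prime) (hA : A.LiesOverPrime p) (ζ : Qbarˣ) (hζ : IsPrimitiveRoot ζ p) :
    ∃ zA : Aˣ, Units.map (A.subtype : A →* Qbar) zA = ζ ∧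
      Units.map (IsLocalRing.residue A : A →* kA A) zA = 1 ∧ IsPrimitiveRoot zA p := by
  have : Fact p.Prime := ⟨hp⟩
  have := HF3.charP_residue A p hA
  have hζ1 : (ζ : Qbar) ^ p = 1 := by
    have := congrArg Units.val hζ.pow_eq_one
    rwa [Units.val_pow_eq_pow_val, Units.val_one] at this
  have hζ2 : ((ζ⁻¹ : Qbarˣ) : Qbar) ^ p = 1 := by
    have h3 : (ζ⁻¹) ^ p = 1 := by rw [inv_pow, hζ.pow_eq_one, inv_one]
    have := congrArg Units.val h3
    rwa [Units.val_pow_eq_pow_val, Units.val_one] at this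
  let zA : Aˣ := ⟨⟨ζ, HF3.mem_of_pow_eq_one A p hp.pos hζ1⟩,
    ⟨(ζ⁻¹ : Qbarˣ), HF3.mem_of_pow_eq_one A p hp.pos hζ2⟩,
    Subtype.ext (by simp), Subtype.ext (by simp)⟩
  have hzA : Units.map (A.subtype : A →* Qbar) zA = ζ := Units.ext rfl
  refine ⟨zA, hzA, ?_, ?_⟩
  · apply Units.ext
    show IsLocalRing.residue A (zA : A) = 1
    apply frobenius_inj (IsLocalRing.ResidueField A) p
    rw [frobenius_def, frobenius_def, one_pow, ← map_pow]
    have : (zA : A) ^ p = 1 := Subtype.ext hζ1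
    rw [this, map_one]
  · refine IsPrimitiveRoot.of_map_of_injective (f := Units.map (A.subtype : A →* Qbar))
      (by rw [hzA]; exact hζ) ?_
    intro a b hab
    apply Units.ext
    apply Subtype.ext
    exact congrArg Units.val hab

theorem GO_tw (zA : Aˣ) (ζ : Qbarˣ) (h1 : Units.map (A.subtype : A →* Qbar) zA = ζ)
    (h2 : Units.map (IsLocalRing.residue A : A →* kA A) zA = 1) (j : ℕ) {z : LaurentSeries Qbar}
    (hz : GO A z) : GO A (tw (ζ ^ j) z) := by
  obtain ⟨f, g, hg, he⟩ := hz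
  refine ⟨tw (zA ^ j) f, tw (zA ^ j) g, ?_, ?_⟩
  · show coeffMap _ (tw (zA ^ j) g) ≠ 0
    rw [HF1.coeffMap_tw, map_pow, h2, one_pow, HF1.tw_one_left]
    exact hg
  · show tw (ζ ^ j) z * coeffMap A.subtype (tw (zA ^ j) g) = coeffMap A.subtype (tw (zA ^ j) f)
    rw [HF1.coeffMap_tw, HF1.coeffMap_tw, map_pow, h1, ← HF1.tw_mul]
    exact congrArg _ he

theorem GO_compress (hp : p.Prime) (hA : A.LiesOverPrime p) (ζ : Qbarˣ)
    (hζ : IsPrimitiveRoot ζ p) {z : LaurentSeries Qbar} (hz : GO A z) : GO A (compress p z) := by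
  have : Fact p.Prime := ⟨hp⟩
  have := HF3.charP_residue A p hA
  obtain ⟨zA, -, h2, h3⟩ := exists_zA hp hA ζ hζ
  obtain ⟨f, g, hg, he⟩ := hz
  obtain ⟨H, hH⟩ : ∃ H : LaurentSeries A, twProd p zA g = g * H := by
    obtain ⟨n, hn⟩ : ∃ n, p = n + 1 := ⟨p - 1, by have := hp.pos; omega⟩
    refine ⟨∏ j ∈ Finset.range n, tw (zA ^ (j + 1)) g, ?_⟩
    unfold twProd
    rw [hn, Finset.prod_range_succ', pow_zero, HF1.tw_one_left, mul_comm]
  have hV : qExpand A p (compress p (twProd p zA g)) = twProd p zA g := HF1.hf_expand A p zA h3 g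
  refine ⟨compress p (f * H), compress p (twProd p zA g), ?_, ?_⟩
  · show coeffMap _ (compress p (twProd p zA g)) ≠ 0
    rw [HF1.coeffMap_compress, HF1.coeffMap_twProd, h2, HF2.twProd_one, HF2.pow_eq,
      HF2.compress_qExpand]
    intro h0
    exact hg (HF3.coeffMap_injective _ (frobenius_inj (IsLocalRing.ResidueField A) p)
      (by rw [h0, map_zero]))
  · show compress p z * coeffMap A.subtype (compress p (twProd p zA g))
      = coeffMap A.subtype (compress p (f * H))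
    rw [← compress_mul_qExpand, ← coeffMap_qExpand, hV, hH, HF1.coeffMap_compress, map_mul,
      map_mul, ← mul_assoc]
    have he' : z * coeffMap A.subtype g = coeffMap A.subtype f := he
    rw [he']

theorem cst_mul (a b : Qbar) : cst (a * b) = cst a * cst b := map_mul _ _ _

theorem cst_natCast (n : ℕ) : cst (n : Qbar) = (n : LaurentSeries Qbar) := map_natCast _ _

theorem V_cst (a : Qbar) : qExpand Qbar p (cst a) = cst a := by
  rw [cst, algebraMap_laurentSeries_eq_single, qExpand_single, mul_zero]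

theorem nonunits_mul {a b : Qbar} (ha : a ∈ A.nonunits) (hb : b ∈ A) : a * b ∈ A.nonunits := by
  rw [ValuationSubring.mem_nonunits_iff] at ha ⊢
  rw [← A.valuation_le_one_iff] at hb
  rw [map_mul]
  exact lt_of_le_of_lt (mul_le_of_le_one_right' hb) ha

theorem compress_cst_mul (a : Qbar) (x : LaurentSeries Qbar) :
    compress p (cst a * x) = cst a * compress p x := by
  rw [cst, algebraMap_laurentSeries_eq_single, compress_single_mul]

theorem tw_cst_mul (ζ : Qbarˣ) (a : Qbar) (x : LaurentSeries Qbar) :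
    tw ζ (cst a * x) = cst a * tw ζ x := by
  rw [HF1.tw_mul, cst, algebraMap_laurentSeries_eq_single, tw_single_zero]

/-- expansion of a product `∏ (1 + c b_j)` up to `c ^ 2`. -/
theorem prod_expand {ι : Type*} (s : Finset ι) (b : ι → LaurentSeries Qbar)
    (hb : ∀ j ∈ s, GO A (b j)) {c : Qbar} (hc : c ∈ A) :
    ∃ R, GO A R ∧
      ∏ j ∈ s, (1 + cst c * b j) = 1 + cst c * ∑ j ∈ s, b j + cst (c * c) * R := by
  classical
  induction s using Finset.induction_on with
  | empty => exact ⟨0, GO_zero, by simp⟩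
  | insert a s ha ih =>
    obtain ⟨R, hR, hprod⟩ := ih (fun j hj => hb j (Finset.mem_insert_of_mem hj))
    have hba := hb a (Finset.mem_insert_self a s)
    have hS := GO_sum s b (fun j hj => hb j (Finset.mem_insert_of_mem hj))
    refine ⟨R + b a * ∑ j ∈ s, b j + cst c * (b a * R),
      GO_add (GO_add hR (GO_mul hba hS)) (GO_mul (GO_cst hc) (GO_mul hba hR)), ?_⟩
    rw [Finset.prod_insert ha, Finset.sum_insert ha, hprod, cst_mul]
    ring

end GOapi

end C

open Fermat.Agent.ES.Mid in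
theorem stmt_C2 : Stmt_C2 := by
  intro p _ hp A hA ζ hζ c hc z hz
  obtain ⟨zA, h1, h2, -⟩ := C.exists_zA hp hA ζ hζ
  have hcA : c ∈ A := A.nonunits_subset hc.2
  obtain ⟨R, hR, hprod⟩ := C.prod_expand (Finset.range p) (fun j => tw (ζ ^ j) z)
    (fun j _ => C.GO_tw zA ζ h1 h2 j hz) hcA
  refine ⟨compress p R, compress p z, C.GO_compress hp hA ζ hζ hR, C.GO_compress hp hA ζ hζ hz, ?_⟩
  have htw : twProd p ζ (1 + cst c * z) = ∏ j ∈ Finset.range p, (1 + cst c * tw (ζ ^ j) z) := by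
    unfold twProd
    refine Finset.prod_congr rfl fun j _ => ?_
    rw [C.tw_add, HF1.tw_one_right, C.tw_cst_mul]
  have hsum : ∀ j ∈ Finset.range p, compress p (tw (ζ ^ j) z) = compress p z := fun j _ =>
    C.compress_tw p _ (by rw [← pow_mul, mul_comm, pow_mul, hζ.pow_eq_one, one_pow]) z
  unfold formalU
  rw [htw, hprod, C.compress_add, C.compress_add, HF1.compress_one, C.compress_cst_mul,
    C.compress_cst_mul, C.compress_sum, Finset.sum_congr rfl hsum, Finset.sum_const,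
    Finset.card_range, nsmul_eq_mul, C.cst_mul (p : Qbar) c, C.cst_natCast]
  ring

theorem stmt_C1 : Stmt_C1 := by
  intro p _ hp A hA ζ hζ c hc z hz
  obtain ⟨z₁, z₂, hz₁, hz₂, hU⟩ := stmt_C2 p hp A hA ζ hζ c hc z hz
  have hcA : c ∈ A := A.nonunits_subset hc.2
  have hpA : (p : Qbar) ∈ A := A.nonunits_subset hA
  have hVz : GO A (qExpand Qbar p z) := C.GO_V hz
  have hW : GO A (1 + cst c * qExpand Qbar p z) :=
    C.GO_add C.GO_one (C.GO_mul (C.GO_cst hcA) hVz)
  have hY₁ := C.GO_mul hz₁ hW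
  have hY₂ := C.GO_mul hz₂ hW
  have hG₁ := C.GO_mul (C.GO_cst hcA) hY₁
  have hG₂ := C.GO_mul (C.GO_cst hpA) hY₂
  refine ⟨qExpand Qbar p z + (cst c * (z₁ * (1 + cst c * qExpand Qbar p z))
    + cst (p : Qbar) * (z₂ * (1 + cst c * qExpand Qbar p z))),
    C.GO_add hVz (C.GO_add hG₁ hG₂), ?_, ?_⟩
  · have e : formalN p ζ (1 + cst c * z)
        = qExpand Qbar p (1 + cst c * z) * formalU p ζ (1 + cst c * z) := rfl
    rw [e, hU, map_add, map_one, map_mul, C.V_cst, C.cst_mul, C.cst_mul]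
    ring
  · rw [C.rd_add hVz (C.GO_add hG₁ hG₂), C.rd_add hG₁ hG₂, C.rd_cst_mul_of_nonunit hc.2 hY₁,
      C.rd_cst_mul_of_nonunit hA hY₂, add_zero, add_zero, C.rd_V hz]

theorem stmt_Deepen : Stmt_Deepen := by
  intro p _ hp A hA ζ hζ c hc x hx d hd
  have hp0 : (p : Qbar) ≠ 0 := by exact_mod_cast hp.ne_zero
  obtain ⟨μ, hμ, hcμ, hpμ⟩ : ∃ μ : Qbar, Sm A μ ∧ c * μ⁻¹ ∈ A ∧ (p : Qbar) * μ⁻¹ ∈ A := by
    rcases A.mem_or_inv_mem ((p : Qbar) * c⁻¹) with h | h
    · exact ⟨c, hc, by rw [mul_inv_cancel₀ hc.1]; exact A.one_mem, h⟩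
    · refine ⟨p, ⟨hp0, hA⟩, ?_, by rw [mul_inv_cancel₀ hp0]; exact A.one_mem⟩
      rw [mul_inv, inv_inv, mul_comm] at h
      exact h
  have hμA : μ ∈ A := A.nonunits_subset hμ.2
  have hcA : c ∈ A := A.nonunits_subset hc.2
  have hμ0 := hμ.1
  have key : ∀ n, Cg A (c * μ ^ n) ((formalU p ζ)^[n] x) 1 := by
    intro n
    induction n with
    | zero => simpa using hx
    | succ n ih =>
      obtain ⟨z, hz, he⟩ := ih
      have hsm : Sm A (c * μ ^ n) :=
        ⟨mul_ne_zero hc.1 (pow_ne_zero _ hμ0), C.nonunits_mul hc.2 (pow_mem hμA _)⟩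
      obtain ⟨z₁, z₂, hz₁, hz₂, hU⟩ := stmt_C2 p hp A hA ζ hζ _ hsm z hz
      rw [Function.iterate_succ_apply', he, hU]
      refine ⟨cst (c * μ⁻¹ * μ ^ n) * z₁ + cst ((p : Qbar) * μ⁻¹) * z₂,
        C.GO_add (C.GO_mul (C.GO_cst (mul_mem hcμ (pow_mem hμA _))) hz₁)
          (C.GO_mul (C.GO_cst hpμ) hz₂), ?_⟩
      have e1 : c * μ ^ n * (c * μ ^ n) = c * μ ^ (n + 1) * (c * μ⁻¹ * μ ^ n) := by
        rw [pow_succ]
        field_simp
      have e2 : (p : Qbar) * (c * μ ^ n) = c * μ ^ (n + 1) * ((p : Qbar) * μ⁻¹) := by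
        rw [pow_succ]
        field_simp
      rw [e1, e2, C.cst_mul, C.cst_mul (c * μ ^ (n + 1))]
      ring
  have : Algebra.IsAlgebraic ℚ Qbar := AlgebraicClosure.isAlgebraic ℚ
  obtain ⟨n₀, hn₀⟩ := INJ.Inst.Sat.arch hp hA μ hμ.2 d hd
  refine ⟨n₀, fun n hn => ?_⟩
  obtain ⟨z, hz, he⟩ := key n
  refine ⟨cst (c * μ ^ (n - n₀) * (μ ^ n₀ * d⁻¹)) * z,
    C.GO_mul (C.GO_cst (mul_mem (mul_mem hcA (pow_mem hμA _)) hn₀)) hz, ?_⟩
  rw [he, ← mul_assoc, ← C.cst_mul]
  have e3 : c * μ ^ n = d * (c * μ ^ (n - n₀) * (μ ^ n₀ * d⁻¹)) := by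
    obtain ⟨k, rfl⟩ := Nat.exists_eq_add_of_le hn
    rw [Nat.add_sub_cancel_left, pow_add]
    field_simp
  rw [e3]

end Fermat.Agent.ORD.Dep

end
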