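import Fermat.Agent.ORD.Dep.Interface
import Fermat.Agent.S36.H90

/-!
# ORD / Dep : (FL-H90) Hilbert 90 and (FL-KD) Kummer descent
-/

set_option autoImplicit false

noncomputable section

namespace Fermat.Agent.ORD.Dep

open ModularCurve
open Fermat.Agent.S24 (Qbar FF)
open Fermat.Agent.ES.Mid (GQ gal coe_gal)
open Fermat.Agent.S36.H90 (OneU)

theorem stmt_H90 : Stmt_H90 := by
  intro N _ p H u hp hu h
  obtain ⟨w, hw0, hw⟩ := Fermat.Agent.S36.H90.h90 N p hp.ne' H u hu (by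
    intro σ hσ
    obtain ⟨g, hg⟩ := h σ hσ
    refine ⟨g, ?_⟩
    rw [hg, mul_comm u, mul_assoc, mul_inv_cancel₀ hu, mul_one])
  refine ⟨1, w, one_ne_zero, hw0, fun σ hσ => ?_⟩
  rw [map_one, one_mul]
  exact hw σ hσ

theorem stmt_KD : Stmt_KD := by
  intro N _ p H y g hp hg hy hyg
  have hg0 : (g : LaurentSeries Qbar) ≠ 0 := fun h0 => hg (Subtype.ext h0)
  obtain ⟨a, ha⟩ : ∃ a : Qbar, a = (g : LaurentSeries Qbar).leadingCoeff := ⟨_, rfl⟩
  have ha0 : a ≠ 0 := by rw [ha]; exact HahnSeries.leadingCoeff_ne_zero.2 hg0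
  obtain ⟨g₀, hg₀⟩ : ∃ g₀ : FF N, g₀ = algebraMap Qbar (FF N) a⁻¹ * g := ⟨_, rfl⟩
  have hA0 : algebraMap Qbar (FF N) a⁻¹ ≠ 0 :=
    (map_ne_zero_iff _ (algebraMap Qbar (FF N)).injective).2 (inv_ne_zero ha0)
  have hg₀0 : g₀ ≠ 0 := by rw [hg₀]; exact mul_ne_zero hA0 hg
  have hlc : (g₀ : LaurentSeries Qbar).leadingCoeff = 1 := by
    have e : (g₀ : LaurentSeries Qbar) =
        ((algebraMap Qbar (FF N) a⁻¹ : FF N) : LaurentSeries Qbar) * (g : LaurentSeries Qbar) := by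
      rw [hg₀]; rfl
    rw [e, Fermat.Agent.S36.H90.coe_const, HahnSeries.leadingCoeff_mul,
      Fermat.Agent.S36.H90.leadingCoeff_const, ← ha, inv_mul_cancel₀ ha0]
  have hy_eq : y = algebraMap Qbar (FF N) (a ^ p) * g₀ ^ p := by
    rw [hg₀, mul_pow, ← map_pow, ← mul_assoc, ← map_mul, ← mul_pow, mul_inv_cancel₀ ha0, one_pow,
      map_one, one_mul, hyg]
  have hlcy : (y : LaurentSeries Qbar).leadingCoeff = a ^ p := by
    have e : (y : LaurentSeries Qbar) = (g : LaurentSeries Qbar) ^ p := by rw [hyg]; rfl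
    rw [e, Fermat.Agent.S36.H90.leadingCoeff_pow', ← ha]
  have hfixc : FixK H (a ^ p) := by
    intro σ hσ
    rw [← hlcy, ← Fermat.Agent.S36.H90.leadingCoeff_coeffMap, ← coe_gal, hy σ hσ]
  have hC0 : algebraMap Qbar (FF N) (a ^ p) ≠ 0 :=
    (map_ne_zero_iff _ (algebraMap Qbar (FF N)).injective).2 (pow_ne_zero _ ha0)
  have hgalC : ∀ σ ∈ H, gal N σ (algebraMap Qbar (FF N) (a ^ p)) = algebraMap Qbar (FF N) (a ^ p) := by
    intro σ hσ
    apply Subtype.ext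
    rw [coe_gal, Fermat.Agent.S36.H90.coe_const, HahnSeries.C_apply, coeffMap_single]
    congr 1
    exact hfixc σ hσ
  refine ⟨a ^ p, g₀, pow_ne_zero _ ha0, hfixc, hg₀0, fun σ hσ => ?_, hy_eq⟩
  have hone := Fermat.Agent.S36.H90.oneU_gal_div N σ g₀ hlc
  have hpow : (gal N σ g₀ * g₀⁻¹) ^ p = 1 := by
    have h1 : gal N σ (g₀ ^ p) = g₀ ^ p := by
      have h2 := hy σ hσ
      rw [hy_eq, map_mul, hgalC σ hσ] at h2
      exact mul_left_cancel₀ hC0 h2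
    rw [mul_pow, ← map_pow, h1, inv_pow, mul_inv_cancel₀ (pow_ne_zero _ hg₀0)]
  have h3 : ((gal N σ g₀ * g₀⁻¹ : FF N) : LaurentSeries Qbar) = 1 :=
    hone.eq_one_of_pow hp.ne' (congrArg Subtype.val hpow)
  have h4 : gal N σ g₀ * g₀⁻¹ = 1 := Subtype.ext h3
  exact eq_of_mul_inv_eq_one h4

end Fermat.Agent.ORD.Dep
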