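import Fermat.Agent.ORD.Dep.Interface
import Fermat.Agent.ES.Mid.CongInertia

/-! # ORD / Dep : (DF-TAME) `s(w)/w ≡ ω(s)` modulo the maximal ideal, for `s` in the inertia
group and `w = (-p)^(1/(p-1))`. -/

set_option autoImplicit false

noncomputable section

namespace Fermat.Agent.ORD.Dep

open Fermat.Agent.S24 (Qbar)
open Fermat.Agent.ES.Mid (GQ)

/-- a root of unity has valuation `1`. -/
theorem Tame_val_root {L : Type*} [Field L] (A : ValuationSubring L) {n : ℕ} (hn : n ≠ 0) {ζ : L}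
    (hζ : ζ ^ n = 1) : A.valuation ζ = 1 := by
  have h : A.valuation ζ ^ n = 1 := by rw [← map_pow, hζ, map_one]
  exact (pow_eq_one_iff_of_nonneg zero_le hn).1 h

/-- `v(1 - ζ^k) ≤ v(1 - ζ)`. -/
theorem Tame_val_le {L : Type*} [Field L] (A : ValuationSubring L) {ζ : L}
    (hζ : A.valuation ζ = 1) (k : ℕ) : A.valuation (1 - ζ ^ k) ≤ A.valuation (1 - ζ) := by
  have h1 : 1 - ζ ^ k = (∑ i ∈ Finset.range k, ζ ^ i) * (1 - ζ) := (geom_sum_mul_neg ζ k).symm
  have h2 : A.valuation (∑ i ∈ Finset.range k, ζ ^ i) ≤ 1 := by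
    refine Valuation.map_sum_le _ fun i _ => ?_
    rw [map_pow, hζ, one_pow]
  rw [h1, map_mul]
  exact mul_le_of_le_one_left' h2

/-- `v(1 - ζ^k) = v(1 - ζ)` for `k` prime to the order. -/
theorem Tame_val_eq {L : Type*} [Field L] (A : ValuationSubring L) {n : ℕ} (hn : 1 < n) {ζ : L}
    (hζ : ζ ^ n = 1) {k : ℕ} (hk : k.Coprime n) :
    A.valuation (1 - ζ ^ k) = A.valuation (1 - ζ) := by
  have hn0 : n ≠ 0 := by omega
  refine le_antisymm (Tame_val_le A (Tame_val_root A hn0 hζ) k) ?_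
  obtain ⟨j, hj⟩ : ∃ j : ℕ, (ζ ^ k) ^ j = ζ := by
    obtain ⟨j, -, hj⟩ := Nat.exists_mul_mod_eq_one_of_coprime hk hn
    refine ⟨j, ?_⟩
    rw [← pow_mul, ← Nat.div_add_mod (k * j) n, hj, pow_add, pow_mul, hζ, one_pow, one_mul, pow_one]
  have h1 : A.valuation (ζ ^ k) = 1 := by rw [map_pow, Tame_val_root A hn0 hζ, one_pow]
  have := Tame_val_le A h1 j
  rwa [hj] at this

/-- `v(p) = v(1 - ζ)^(p-1)`. -/
theorem Tame_val_p {L : Type*} [Field L] (A : ValuationSubring L) {p : ℕ} (hp : p.Prime) {ζ : L}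
    (hζ : IsPrimitiveRoot ζ p) : A.valuation (p : L) = A.valuation (1 - ζ) ^ (p - 1) := by
  obtain ⟨n, rfl⟩ : ∃ n, p = n + 1 := ⟨p - 1, (Nat.succ_pred_eq_of_pos hp.pos).symm⟩
  have h := hζ.prod_one_sub_pow_eq_order
  have h' : ((n + 1 : ℕ) : L) = ∏ k ∈ Finset.range n, (1 - ζ ^ (k + 1)) := by
    rw [h]; push_cast; rfl
  rw [h', map_prod, Nat.add_sub_cancel]
  rw [Finset.prod_congr rfl (g := fun _ => A.valuation (1 - ζ)), Finset.prod_const,
    Finset.card_range]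
  intro k hk
  refine Tame_val_eq A hp.one_lt hζ.pow_eq_one ?_
  refine (Nat.Coprime.symm ?_)
  rw [hp.coprime_iff_not_dvd]
  intro hd
  have := Nat.le_of_dvd (Nat.succ_pos k) hd
  have := Finset.mem_range.1 hk
  omega

theorem stmt_Tame : Stmt_Tame := by
  intro p hp A hA w hw s hs c hc
  have hA' : (p : Qbar) ∈ A.nonunits := hA
  have he : 0 < p - 1 := Nat.sub_pos_of_lt hp.one_lt
  have hp0 : (p : Qbar) ≠ 0 := by exact_mod_cast hp.ne_zero
  have hw0 : w ≠ 0 := by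
    rintro rfl
    rw [zero_pow he.ne'] at hw
    exact hp0 (neg_eq_zero.1 hw.symm)
  have : NeZero p := ⟨hp.ne_zero⟩
  obtain ⟨ζ, hζ⟩ : ∃ ζ : Qbar, IsPrimitiveRoot ζ p := HasEnoughRootsOfUnity.exists_primitiveRoot Qbar p
  set v := A.valuation with hv
  have hwp : v (p : Qbar) = v w ^ (p - 1) := by
    rw [← map_pow, hw, Valuation.map_neg]
  have hζp : v (p : Qbar) = v (1 - ζ) ^ (p - 1) := Tame_val_p A hp hζ
  have hvw : v (1 - ζ) = v w := by
    have h : v (1 - ζ) ^ (p - 1) = v w ^ (p - 1) := by rw [← hζp, hwp]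
    exact (pow_left_inj₀ zero_le zero_le he.ne').1 h
  have hw1 : v w < 1 := by
    have h1 : v (p : Qbar) < 1 := (ValuationSubring.mem_nonunits_iff A).1 hA'
    rw [hwp] at h1
    exact (pow_lt_one_iff_of_nonneg zero_le he.ne').1 h1
  have hvw0 : v w ≠ 0 := (Valuation.ne_zero_iff _).2 hw0
  have hζ1 : v ζ = 1 := Tame_val_root A hp.ne_zero hζ.pow_eq_one
  have h1ζ : (1 - ζ) ≠ 0 := by
    intro h
    rw [h, map_zero] at hvw
    exact hvw0 hvw.symm
  -- `η = (1 - ζ) / w` is a unit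
  set η : Qbar := (1 - ζ) * w⁻¹ with hη
  have hvη : v η = 1 := by
    rw [hη, map_mul, map_inv₀, hvw, mul_inv_cancel₀ hvw0]
  have hηA : η ∈ A := (A.valuation_le_one_iff _).1 hvη.le
  have hsη : v (s η - η) < 1 :=
    (ValuationSubring.mem_nonunits_iff A).1 (Fermat.Agent.ES.Mid.J.sub_mem_nonunits hs η hηA)
  have hvsη : v (s η) = 1 := by
    have h : s η = η + (s η - η) := by ring
    have h2 : v (s η - η) < v η := by rw [hvη]; exact hsη
    rw [h, Valuation.map_add_eq_of_lt_left _ h2, hvη]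
  have hsη0 : s η ≠ 0 := by
    intro h
    rw [h, map_zero] at hvsη
    exact zero_ne_one hvsη
  have hsw0 : s w ≠ 0 := by
    intro h
    exact hw0 ((map_eq_zero s).1 h)
  -- `s η = (1 - ζ^c) / s w`
  have hsηeq : s η = (1 - ζ ^ c) * (s w)⁻¹ := by
    rw [hη, map_mul, map_inv₀, map_sub, map_one, hc ζ hζ.pow_eq_one]
  set G : Qbar := ∑ i ∈ Finset.range c, ζ ^ i with hG
  have hGeq : 1 - ζ ^ c = G * (1 - ζ) := (geom_sum_mul_neg ζ c).symm
  have hkey : s w * w⁻¹ - (c : Qbar)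
      = ((G - c) * η + c * (η - s η)) * (s η)⁻¹ := by
    have h1 : s w = G * (1 - ζ) * (s η)⁻¹ := by
      rw [hsηeq, hGeq]
      have hG0 : G * (1 - ζ) ≠ 0 := by
        intro h
        rw [hsηeq, hGeq, h, zero_mul] at hsη0
        exact hsη0 rfl
      rw [mul_inv, inv_inv, ← mul_assoc, mul_inv_cancel₀ hG0, one_mul]
    have h2 : (c : Qbar) = c * s η * (s η)⁻¹ := by
      rw [mul_assoc, mul_inv_cancel₀ hsη0, mul_one]
    rw [h1]
    nth_rewrite 1 [h2]
    rw [hη]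
    ring
  have hGc : v (G - c) < 1 := by
    have h : G - c = ∑ i ∈ Finset.range c, (ζ ^ i - 1) := by
      rw [Finset.sum_sub_distrib, Finset.sum_const, Finset.card_range, nsmul_eq_mul, mul_one]
    rw [h]
    refine Valuation.map_sum_lt _ one_ne_zero fun i _ => ?_
    rw [← Valuation.map_neg, neg_sub]
    exact lt_of_le_of_lt (Tame_val_le A hζ1 i) (by rw [hvw]; exact hw1)
  have hcA : v (c : Qbar) ≤ 1 := (A.valuation_le_one_iff _).2 (natCast_mem A c)
  rw [ValuationSubring.mem_nonunits_iff, hkey, map_mul, map_inv₀, hvsη, inv_one, mul_one]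
  refine lt_of_le_of_lt (Valuation.map_add _ _ _) (max_lt ?_ ?_)
  · rw [map_mul, hvη, mul_one]
    exact hGc
  · rw [map_mul, Valuation.map_sub_swap]
    exact lt_of_le_of_lt (mul_le_of_le_one_left' hcA) hsη

end Fermat.Agent.ORD.Dep

end
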