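import Fermat.Agent.ORD.Dep.Interface
import Fermat.Agent.INJ.Inst.Sat

/-! # ORD / Dep : (DF-UNIFW) `w = (-p)^(1/(p-1))` is a uniformiser of `ℚ(w)`. -/

set_option autoImplicit false

noncomputable section

namespace Fermat.Agent.ORD.Dep

open Polynomial
open Fermat.Agent.S24 (Qbar)
open Fermat.Agent.INJ.Inst

theorem UnifW_unitA_of_val {A : ValuationSubring Qbar} {a : Qbar} (h : A.valuation a = 1) :
    UnitA A a := by
  refine ⟨(A.valuation_le_one_iff _).1 h.le, (A.valuation_le_one_iff _).1 ?_⟩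
  rw [map_inv₀, h, inv_one]

/-- the ultrametric step. -/
theorem UnifW_val_sum {L : Type*} [Field L] [CharZero L] (A : ValuationSubring L) {p e : ℕ}
    (hp : p.Prime) (hA : (p : L) ∈ A.nonunits) (w : L) (hw0 : w ≠ 0)
    (hw1 : A.valuation w < 1) (hwp : A.valuation (p : L) = A.valuation w ^ e) (c : ℕ → ℚ)
    (ha : ∑ i ∈ Finset.range e, algebraMap ℚ L (c i) * w ^ i ≠ 0) :
    ∃ n : ℤ, A.valuation (∑ i ∈ Finset.range e, algebraMap ℚ L (c i) * w ^ i)
      = A.valuation w ^ n := by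
  classical
  set γ := A.valuation w with hγ
  have hγ0 : 0 < γ := zero_lt_iff.2 ((Valuation.ne_zero_iff _).2 hw0)
  set s := (Finset.range e).filter (fun i => c i ≠ 0) with hs
  have hsum : ∑ i ∈ Finset.range e, algebraMap ℚ L (c i) * w ^ i
      = ∑ i ∈ s, algebraMap ℚ L (c i) * w ^ i := by
    rw [hs, Finset.sum_filter]
    refine Finset.sum_congr rfl fun i _ => ?_
    by_cases hi : c i = 0
    · simp [hi]
    · simp [hi]
  rw [hsum] at ha ⊢
  have hne : s.Nonempty := by
    rw [Finset.nonempty_iff_ne_empty]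
    intro h
    rw [h, Finset.sum_empty] at ha
    exact ha rfl
  have hm : ∀ i, ∃ m : ℤ, c i ≠ 0 → A.valuation (algebraMap ℚ L (c i)) = A.valuation (p : L) ^ m := by
    intro i
    by_cases hi : c i = 0
    · exact ⟨0, fun h => absurd hi h⟩
    · obtain ⟨m, hm⟩ := Sat.val_rat hp hA (c i) hi
      exact ⟨m, fun _ => hm⟩
  choose m hm using hm
  set N : ℕ → ℤ := fun i => (e : ℤ) * m i + i with hN
  have hval : ∀ i ∈ s, A.valuation (algebraMap ℚ L (c i) * w ^ i) = γ ^ N i := by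
    intro i hi
    have hci : c i ≠ 0 := (Finset.mem_filter.1 hi).2
    rw [map_mul, map_pow, hm i hci, hwp, hN, zpow_add₀ hγ0.ne', zpow_mul, zpow_natCast,
      zpow_natCast]
  have hinj : ∀ i ∈ s, ∀ j ∈ s, N i = N j → i = j := by
    intro i hi j hj hij
    have hi' : i < e := Finset.mem_range.1 (Finset.mem_filter.1 hi).1
    have hj' : j < e := Finset.mem_range.1 (Finset.mem_filter.1 hj).1
    have h1 : N i % (e : ℤ) = i := by
      rw [hN]
      show ((e : ℤ) * m i + i) % (e : ℤ) = i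
      rw [Int.mul_add_emod_self_left]
      exact Int.emod_eq_of_lt (by positivity) (by exact_mod_cast hi')
    have h2 : N j % (e : ℤ) = j := by
      rw [hN]
      show ((e : ℤ) * m j + j) % (e : ℤ) = j
      rw [Int.mul_add_emod_self_left]
      exact Int.emod_eq_of_lt (by positivity) (by exact_mod_cast hj')
    rw [hij, h2] at h1
    exact_mod_cast h1.symm
  obtain ⟨i₀, hi₀, hmin⟩ := Finset.exists_min_image s N hne
  refine ⟨N i₀, ?_⟩
  rw [← Finset.add_sum_erase s _ hi₀]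
  have hlt : A.valuation (∑ j ∈ s.erase i₀, algebraMap ℚ L (c j) * w ^ j) < γ ^ N i₀ := by
    refine Valuation.map_sum_lt _ (zpow_ne_zero _ hγ0.ne') fun j hj => ?_
    have hjs := Finset.mem_of_mem_erase hj
    rw [hval j hjs]
    refine zpow_lt_zpow_right_of_lt_one₀ hγ0 hw1 (lt_of_le_of_ne (hmin j hjs) fun h => ?_)
    exact Finset.ne_of_mem_erase hj (hinj _ hi₀ _ hjs h).symm
  rw [← hval i₀ hi₀] at hlt ⊢
  exact Valuation.map_add_eq_of_lt_left _ hlt

theorem stmt_UnifW : Stmt_UnifW := by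
  intro p hp A hA w hw
  have hA' : (p : Qbar) ∈ A.nonunits := hA
  have he : 0 < p - 1 := Nat.sub_pos_of_lt hp.one_lt
  have hp0 : (p : Qbar) ≠ 0 := by exact_mod_cast hp.ne_zero
  have hw0 : w ≠ 0 := by
    rintro rfl
    rw [zero_pow he.ne'] at hw
    exact hp0 (neg_eq_zero.1 hw.symm)
  have hwp : A.valuation (p : Qbar) = A.valuation w ^ (p - 1) := by
    rw [← map_pow, hw, Valuation.map_neg]
  have hw1 : A.valuation w < 1 := by
    have h1 : A.valuation (p : Qbar) < 1 := (ValuationSubring.mem_nonunits_iff A).1 hA'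
    rw [hwp] at h1
    exact (pow_lt_one_iff_of_nonneg zero_le he.ne').1 h1
  refine ⟨⟨hw0, (ValuationSubring.mem_nonunits_iff A).2 hw1⟩, ?_⟩
  intro a ha0 ha
  -- `a` is a polynomial in `w` of degree `< p - 1`
  have hq : (X ^ (p - 1) + C (p : ℚ) : ℚ[X]).Monic := monic_X_pow_add_C _ he.ne'
  have hroot : aeval w (X ^ (p - 1) + C (p : ℚ) : ℚ[X]) = 0 := by
    simp [hw]
  have halg : IsAlgebraic ℚ w := ⟨_, hq.ne_zero, hroot⟩
  have ha' : a ∈ (IntermediateField.adjoin ℚ {w}).toSubalgebra := ha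
  rw [IntermediateField.adjoin_simple_toSubalgebra_of_isAlgebraic halg,
    Algebra.adjoin_singleton_eq_range_aeval] at ha'
  obtain ⟨P, rfl⟩ := ha'
  have h1 : aeval w P = aeval w (P %ₘ (X ^ (p - 1) + C (p : ℚ))) :=
    (aeval_modByMonic_eq_self_of_root hroot).symm
  have hdeg : (P %ₘ (X ^ (p - 1) + C (p : ℚ))).natDegree < p - 1 := by
    have := natDegree_modByMonic_lt P hq (by
      intro h
      have := congrArg natDegree h
      rw [natDegree_X_pow_add_C, natDegree_one] at this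
      exact he.ne' this)
    rwa [natDegree_X_pow_add_C] at this
  have h2 : (aeval w) P = ∑ i ∈ Finset.range (p - 1),
      algebraMap ℚ Qbar ((P %ₘ (X ^ (p - 1) + C (p : ℚ))).coeff i) * w ^ i := by
    rw [h1, aeval_eq_sum_range' hdeg]
    refine Finset.sum_congr rfl fun i _ => ?_
    rw [Algebra.smul_def]
  have h2' : (aeval w).toRingHom P = ∑ i ∈ Finset.range (p - 1),
      algebraMap ℚ Qbar ((P %ₘ (X ^ (p - 1) + C (p : ℚ))).coeff i) * w ^ i := h2
  rw [h2'] at ha0 ⊢
  obtain ⟨n, hn⟩ := UnifW_val_sum A hp hA' w hw0 hw1 hwp _ ha0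
  refine ⟨n, UnifW_unitA_of_val ?_⟩
  rw [map_mul, hn, map_zpow₀, ← zpow_add₀ ((Valuation.ne_zero_iff _).2 hw0), add_neg_cancel,
    zpow_zero]

end Fermat.Agent.ORD.Dep

end
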