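import Fermat.Agent.ORD.Dep.Defs

/-!
# ORD / Dep : interface (statements as `Prop`s; architect: helper79)

Output of the package (consumed by `[NM]`/`[FIN]`, helper11):
* `Stmt_LemmaD`   : level `N` prime to `p`; `T_p x = 0` and `I` acts on `x` through `ω` ⟹ `x = 0`;
* `Stmt_LemmaD'`  : level `N` prime to `p`; `x ∈ W_∞(p)`, `T_p^J x = x` ⟹ `I` acts on `x` through `ω`;
* `Stmt_Deepen`   : any level; `U_p` raises the depth (first half of Lemma D'').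
Input : `Stmt_AFF` (= Theorem A of `INJ/Deep` instantiated at `FF N`, helper49).

Every package proves `theorem stmt_xxx (h.. : Stmt_..) : Stmt_xxx` in its own NEW file
`Fermat/Agent/ORD/Dep/<Name>.lean` importing this one.
-/

set_option autoImplicit false

noncomputable section

namespace Fermat.Agent.ORD.Dep

open ModularCurve
open Fermat.Agent.S24 (Qbar FF)
open Fermat.Agent.ES.Mid (GQ gal IsDiv formalN twProd compress tw)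
open Fermat.Agent.INJ.Inst (kA)

/-! ### 0. input from `INJ/Deep` -/

/-- (A) a class of depth `> p e'` at a level prime to `p` is trivial. -/
def Stmt_AFF : Prop :=
  ∀ (p : ℕ), p.Prime → p ≠ 2 → ∀ A : ValuationSubring Qbar, A.LiesOverPrime p →
  ∀ (N : ℕ) [NeZero N], ¬ p ∣ N → ∀ w π' : Qbar, w ^ (p - 1) = -(p : Qbar) → Sm A π' →
  ∀ u : FF N, IsDiv N p u → Cg A (w ^ p * π') (u : LaurentSeries Qbar) 1 → ∃ y : FF N, y ^ p = u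

/-! ### 1. valuation theory of `ℚ̄` (packages DF-*) -/

/-- (DF-DISC) a number field is discretely valued. -/
def Stmt_Disc : Prop :=
  ∀ (p : ℕ), p.Prime → ∀ A : ValuationSubring Qbar, A.LiesOverPrime p →
  ∀ L₀ : IntermediateField ℚ Qbar, FiniteDimensional ℚ L₀ →
    ∃ π : Qbar, π ∈ L₀ ∧ Sm A π ∧ UnifOn A (fun a => a ∈ L₀) π

/-- (DF-UNR) `ℚ̄^(I ∩ G_{L₀})` is unramified over `L₀`. -/
def Stmt_Unr : Prop :=
  ∀ (p : ℕ), p.Prime → ∀ A : ValuationSubring Qbar, A.LiesOverPrime p →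
  ∀ L₀ : IntermediateField ℚ Qbar, FiniteDimensional ℚ L₀ →
  ∀ π : Qbar, π ∈ L₀ → Sm A π → UnifOn A (fun a => a ∈ L₀) π →
    Lvl A (A.inertiaSubgroupIn ℚ ⊓ L₀.fixingSubgroup) π

/-- (DF-UNIFW) `w = (-p)^(1/(p-1))` is a uniformiser of `ℚ(w)`. -/
def Stmt_UnifW : Prop :=
  ∀ (p : ℕ), p.Prime → ∀ A : ValuationSubring Qbar, A.LiesOverPrime p →
  ∀ w : Qbar, w ^ (p - 1) = -(p : Qbar) →
    Sm A w ∧ UnifOn A (fun a => a ∈ IntermediateField.adjoin ℚ {w}) w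

/-- (DF-TEICH) the inertia field has residue field `k`. -/
def Stmt_Teich : Prop :=
  ∀ (p : ℕ), p.Prime → ∀ A : ValuationSubring Qbar, A.LiesOverPrime p →
  ∀ a ∈ A, ∃ b ∈ A, FixK (A.inertiaSubgroupIn ℚ) b ∧ a - b ∈ A.nonunits

/-- (DF-TAME) `s(w)/w ≡ ω(s)` for `s ∈ I`. -/
def Stmt_Tame : Prop :=
  ∀ (p : ℕ), p.Prime → ∀ A : ValuationSubring Qbar, A.LiesOverPrime p →
  ∀ w : Qbar, w ^ (p - 1) = -(p : Qbar) →
  ∀ s ∈ A.inertiaSubgroupIn ℚ, ∀ c : ℕ, ActsMu p s c → s w * w⁻¹ - (c : Qbar) ∈ A.nonunits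

/-! ### 2. the function field over a discretely valued level (packages FL-*) -/

/-- (FL-API) basic API of `GO`, `rd`, `Cg` on `FF N` (from `INJ/Inst/Gauss*.lean`). -/
def Stmt_GOApi : Prop :=
  ∀ (A : ValuationSubring Qbar),
    (∀ x y, GO A x → GO A y → GO A (x + y) ∧ GO A (x * y) ∧ GO A (-x) ∧
      rd A (x + y) = rd A x + rd A y ∧ rd A (x * y) = rd A x * rd A y ∧ rd A (-x) = - rd A x) ∧
    (∀ a ∈ A, GO A (cst a) ∧ ∀ h : a ∈ A, rd A (cst a) = cstk A (IsLocalRing.residue A ⟨a, h⟩)) ∧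
    (∀ x, GO A x → rd A x ≠ 0 → GO A x⁻¹ ∧ rd A x⁻¹ = (rd A x)⁻¹) ∧
    (∀ (N : ℕ) [NeZero N] (u : FF N), u ≠ 0 → ∃ c : Qbar, c ≠ 0 ∧
      GO A (cst c * (u : LaurentSeries Qbar)) ∧ rd A (cst c * (u : LaurentSeries Qbar)) ≠ 0) ∧
    (∀ (N : ℕ) [NeZero N] (u : FF N), u ≠ 0 → GO A (u : LaurentSeries Qbar) →
      rd A (u : LaurentSeries Qbar) = 0 → ∃ c : Qbar, Sm A c ∧ Cg A c (u : LaurentSeries Qbar) 0) ∧
    (∀ c : Qbar, GO A (cst c) → c ∈ A) ∧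
    (∀ σ ∈ A.inertiaSubgroupIn ℚ, ∀ x, GO A x →
      GO A (coeffMap (σ : Qbar →+* Qbar) x) ∧ rd A (coeffMap (σ : Qbar →+* Qbar) x) = rd A x)

/-- (FL-DISC) the Gauss valuation of `F_N^H` is discrete with uniformiser `π`. -/
def Stmt_GaussDisc : Prop :=
  ∀ (A : ValuationSubring Qbar) (H : Subgroup GQ) (π : Qbar), Lvl A H π →
  ∀ (N : ℕ) [NeZero N] (u : FF N), u ≠ 0 → FixF N H u →
    ∃ n : ℤ, GO A (cst (π ^ (-n)) * (u : LaurentSeries Qbar)) ∧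
      rd A (cst (π ^ (-n)) * (u : LaurentSeries Qbar)) ≠ 0

/-- (FL-LIFT) at a level prime to `p` every element of the residue field lifts to `F_N^I`. -/
def Stmt_LiftFix : Prop :=
  ∀ (p : ℕ), p.Prime → ∀ A : ValuationSubring Qbar, A.LiesOverPrime p →
  ∀ (N : ℕ) [NeZero N], ¬ p ∣ N → ∀ x : FF N, GO A (x : LaurentSeries Qbar) →
    ∃ y : FF N, FixF N (A.inertiaSubgroupIn ℚ) y ∧ GO A (y : LaurentSeries Qbar) ∧
      rd A (y : LaurentSeries Qbar) = rd A (x : LaurentSeries Qbar)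

/-- (FL-FROB) at a level prime to `p` the residue field is stable under
`∑ a_n q^n ↦ ∑ a_n^(1/p) q^n` and under `∑ a_n q^n ↦ ∑ a_n^p q^n`. -/
def Stmt_FrobRoot : Prop :=
  ∀ (p : ℕ) [NeZero p], p.Prime → ∀ A : ValuationSubring Qbar, A.LiesOverPrime p →
  ∀ (N : ℕ) [NeZero N], ¬ p ∣ N → ∀ x : FF N, GO A (x : LaurentSeries Qbar) →
    (∃ y : FF N, GO A (y : LaurentSeries Qbar) ∧
      rd A (y : LaurentSeries Qbar) ^ p = qExpand (kA A) p (rd A (x : LaurentSeries Qbar))) ∧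
    (∃ y : FF N, GO A (y : LaurentSeries Qbar) ∧
      qExpand (kA A) p (rd A (y : LaurentSeries Qbar)) = rd A (x : LaurentSeries Qbar) ^ p)

/-- (FL-NMEM) `T_ℓ` preserves `F_N` (`ℓ ∤ N`) (from `ES/Mid/HGlue.lean`). -/
def Stmt_NMem : Prop :=
  ∀ (N : ℕ) [NeZero N] (ℓ : ℕ) [NeZero ℓ], ℓ.Prime → ¬ ℓ ∣ N → ∀ ζ : Qbarˣ, IsPrimitiveRoot ζ ℓ →
  ∀ u : FF N, ∃ v : FF N, (v : LaurentSeries Qbar) = formalN ℓ ζ (u : LaurentSeries Qbar) ∧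
    (u ≠ 0 → v ≠ 0) ∧ ∀ H : Subgroup GQ, FixF N H u → FixF N H v

/-- (FL-H90) Hilbert 90 : a class fixed by `H` has a representative in `F_N^H`. -/
def Stmt_H90 : Prop :=
  ∀ (N : ℕ) [NeZero N] (p : ℕ) (H : Subgroup GQ) (u : FF N), 0 < p → u ≠ 0 →
    (∀ σ ∈ H, ∃ g : FF N, gal N σ u = u * g ^ p) →
    ∃ (c : Qbar) (b : FF N), c ≠ 0 ∧ b ≠ 0 ∧ FixF N H (algebraMap Qbar (FF N) c * u * b ^ p)

/-- (FL-KD) Kummer descent : a `p`-th power lying in `F_N^H` is a constant of `ℚ̄^H` times a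
`p`-th power of `F_N^H`. -/
def Stmt_KD : Prop :=
  ∀ (N : ℕ) [NeZero N] (p : ℕ) (H : Subgroup GQ) (y g : FF N), 0 < p → g ≠ 0 → FixF N H y →
    y = g ^ p →
    ∃ (c : Qbar) (g₀ : FF N), c ≠ 0 ∧ FixK H c ∧ g₀ ≠ 0 ∧ FixF N H g₀ ∧
      y = algebraMap Qbar (FF N) c * g₀ ^ p

/-- (FL-REP) a class of `W_∞(p)` with a representative in `F_N^H` has a representative in `F_N^H`
which is `≡ 1 mod π`. -/
def Stmt_RepFix : Prop :=
  ∀ (p : ℕ), p.Prime → ∀ A : ValuationSubring Qbar, A.LiesOverPrime p →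
  ∀ (H : Subgroup GQ) (π : Qbar), Lvl A H π → ∀ (N : ℕ) [NeZero N], ¬ p ∣ N →
  ∀ u : FF N, FixF N H u → InW A N p u →
    ∃ (c : Qbar) (g : FF N), c ≠ 0 ∧ FixK H c ∧ g ≠ 0 ∧ FixF N H g ∧
      Cg A π (cst c * (u : LaurentSeries Qbar) * (g : LaurentSeries Qbar) ^ p) 1

/-! ### 3. formal computations (packages C-*, B-*) -/

/-- (C2) `U_p` raises the depth : `U_p(1 + c z) = 1 + c² z₁ + p c z₂`. -/
def Stmt_C2 : Prop :=
  ∀ (p : ℕ) [NeZero p], p.Prime → ∀ A : ValuationSubring Qbar, A.LiesOverPrime p →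
  ∀ ζ : Qbarˣ, IsPrimitiveRoot ζ p → ∀ c : Qbar, Sm A c → ∀ z : LaurentSeries Qbar, GO A z →
    ∃ z₁ z₂ : LaurentSeries Qbar, GO A z₁ ∧ GO A z₂ ∧
      formalU p ζ (1 + cst c * z) = 1 + cst (c * c) * z₁ + cst ((p : Qbar) * c) * z₂

/-- (C1) `T_p(1 + c z) = 1 + c z'`, `z'bar = zbar(q^p)`. -/
def Stmt_C1 : Prop :=
  ∀ (p : ℕ) [NeZero p], p.Prime → ∀ A : ValuationSubring Qbar, A.LiesOverPrime p →
  ∀ ζ : Qbarˣ, IsPrimitiveRoot ζ p → ∀ c : Qbar, Sm A c → ∀ z : LaurentSeries Qbar, GO A z →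
    ∃ z' : LaurentSeries Qbar, GO A z' ∧ formalN p ζ (1 + cst c * z) = 1 + cst c * z' ∧
      rd A z' = qExpand (kA A) p (rd A z)

/-- (C0) `T_p x = 0 ⟹ x ∈ W_∞(p)` (Eichler-Shimura congruence at `p`). -/
def Stmt_KerInW : Prop :=
  ∀ (p : ℕ) [NeZero p], p.Prime → ∀ A : ValuationSubring Qbar, A.LiesOverPrime p →
  ∀ (N : ℕ) [NeZero N], ¬ p ∣ N → ∀ ζ : Qbarˣ, IsPrimitiveRoot ζ p → ∀ u g : FF N, u ≠ 0 →
    formalN p ζ (u : LaurentSeries Qbar) = (g : LaurentSeries Qbar) ^ p → InW A N p u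

/-- (B2) `p`-th powers near `1` over a level with uniformiser `w` :
`c g^p ≡ 1 mod w ⟹ c g^p = c' (1 + w^p z)`, `zbar = g₂bar^p - g₂bar`. -/
def Stmt_B2 : Prop :=
  ∀ (p : ℕ), p.Prime → ∀ A : ValuationSubring Qbar, A.LiesOverPrime p →
  ∀ (H : Subgroup GQ) (w : Qbar), w ^ (p - 1) = -(p : Qbar) → Lvl A H w →
  ∀ (N : ℕ) [NeZero N] (c : Qbar) (g : FF N), c ≠ 0 → FixK H c → g ≠ 0 → FixF N H g →
    Cg A w (cst c * (g : LaurentSeries Qbar) ^ p) 1 →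
    ∃ (c' : Qbar) (g₂ : FF N) (z : LaurentSeries Qbar), UnitA A c' ∧ FixK H c' ∧ FixF N H g₂ ∧
      GO A (g₂ : LaurentSeries Qbar) ∧ GO A z ∧
      cst c * (g : LaurentSeries Qbar) ^ p = cst c' * (1 + cst (w ^ p) * z) ∧
      rd A z = rd A (g₂ : LaurentSeries Qbar) ^ p - rd A (g₂ : LaurentSeries Qbar)

/-- (B1) `p`-th powers near `1` over a general level, below the depth `p e'` :
if `c g^p = 1 + π^a z`, `1 ≤ a < p e'`, then `zbar ∈ k` (`p ∤ a`) resp. `zbar ∈ k + κ^p` (`p ∣ a`). -/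
def Stmt_B1 : Prop :=
  ∀ (p : ℕ), p.Prime → ∀ A : ValuationSubring Qbar, A.LiesOverPrime p →
  ∀ (H : Subgroup GQ) (π w : Qbar) (e' : ℕ), w ^ (p - 1) = -(p : Qbar) → Lvl A H π →
    UnitA A (w * (π ^ e')⁻¹) →
  ∀ (N : ℕ) [NeZero N] (c : Qbar) (g : FF N), c ≠ 0 → FixK H c → g ≠ 0 → FixF N H g →
  ∀ (a : ℕ) (z : LaurentSeries Qbar), 1 ≤ a → a < p * e' → GO A z →
    cst c * (g : LaurentSeries Qbar) ^ p = 1 + cst (π ^ a) * z →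
    ∃ (c₀ : kA A) (h : FF N), FixF N H h ∧ GO A (h : LaurentSeries Qbar) ∧
      rd A z = cstk A c₀ + (if p ∣ a then rd A (h : LaurentSeries Qbar) ^ p else 0)

/-! ### 4. the lemmas -/

/-- (D-STEP) one step of Lemma D : depth `a ≤ p` can be improved to `a + 1`. -/
def Stmt_DStep : Prop :=
  ∀ (p : ℕ) [NeZero p], p.Prime → p ≠ 2 → ∀ A : ValuationSubring Qbar, A.LiesOverPrime p →
  ∀ (H : Subgroup GQ) (w : Qbar), w ^ (p - 1) = -(p : Qbar) → Lvl A H w →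
  ∀ (N : ℕ) [NeZero N], ¬ p ∣ N → ∀ ζ : Qbarˣ, IsPrimitiveRoot ζ p →
  ∀ (u : FF N) (a : ℕ), 1 ≤ a → a ≤ p → FixF N H u → Cg A (w ^ a) (u : LaurentSeries Qbar) 1 →
    (∃ g : FF N, formalN p ζ (u : LaurentSeries Qbar) = (g : LaurentSeries Qbar) ^ p) →
    ∃ (c : Qbar) (g : FF N), c ≠ 0 ∧ FixK H c ∧ g ≠ 0 ∧ FixF N H g ∧
      Cg A (w ^ (a + 1)) (cst c * (u : LaurentSeries Qbar) * (g : LaurentSeries Qbar) ^ p) 1

/-- **Lemma D.** -/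
def Stmt_LemmaD : Prop :=
  ∀ (p : ℕ) [NeZero p], p.Prime → p ≠ 2 → ∀ A : ValuationSubring Qbar, A.LiesOverPrime p →
  ∀ (N : ℕ) [NeZero N], ¬ p ∣ N → ∀ ζ : Qbarˣ, IsPrimitiveRoot ζ p →
  ∀ u : FF N, IsDiv N p u →
    (∃ g : FF N, formalN p ζ (u : LaurentSeries Qbar) = (g : LaurentSeries Qbar) ^ p) →
    (∀ s ∈ A.inertiaSubgroupIn ℚ, ∀ c : ℕ, ActsMu p s c → ∃ g : FF N, gal N s u = u ^ c * g ^ p) →
    ∃ g : FF N, u = g ^ p

/-- (D'-STEP) one step of Lemma D' : depth `a < p e'` can be improved to `a + 1`. -/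
def Stmt_D'Step : Prop :=
  ∀ (p : ℕ) [NeZero p], p.Prime → p ≠ 2 → ∀ A : ValuationSubring Qbar, A.LiesOverPrime p →
  ∀ (H : Subgroup GQ) (π w : Qbar) (e' : ℕ), w ^ (p - 1) = -(p : Qbar) → Lvl A H π →
    UnitA A (w * (π ^ e')⁻¹) →
  ∀ (N : ℕ) [NeZero N], ¬ p ∣ N → ∀ ζ : Qbarˣ, IsPrimitiveRoot ζ p →
  ∀ (u : FF N) (a : ℕ), 1 ≤ a → a < p * e' → FixF N H u → Cg A (π ^ a) (u : LaurentSeries Qbar) 1 →
    (∃ (J : ℕ) (g : FF N), 0 < J ∧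
      (formalN p ζ)^[J] (u : LaurentSeries Qbar) = (u : LaurentSeries Qbar) * (g : LaurentSeries Qbar) ^ p) →
    ∃ (c : Qbar) (g : FF N), c ≠ 0 ∧ FixK H c ∧ g ≠ 0 ∧ FixF N H g ∧
      Cg A (π ^ (a + 1)) (cst c * (u : LaurentSeries Qbar) * (g : LaurentSeries Qbar) ^ p) 1

/-- (D'-END) a class with a representative `≡ 1 mod w^p` : `I` acts through `ω`. -/
def Stmt_D'End : Prop :=
  ∀ (p : ℕ), p.Prime → p ≠ 2 → ∀ A : ValuationSubring Qbar, A.LiesOverPrime p →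
  ∀ (N : ℕ) [NeZero N], ¬ p ∣ N → ∀ w : Qbar, w ^ (p - 1) = -(p : Qbar) →
  ∀ u : FF N, IsDiv N p u → Cg A (w ^ p) (u : LaurentSeries Qbar) 1 →
  ∀ s ∈ A.inertiaSubgroupIn ℚ, ∀ c : ℕ, ActsMu p s c → ∃ g : FF N, gal N s u = u ^ c * g ^ p

/-- **Lemma D'.** -/
def Stmt_LemmaD' : Prop :=
  ∀ (p : ℕ) [NeZero p], p.Prime → p ≠ 2 → ∀ A : ValuationSubring Qbar, A.LiesOverPrime p →
  ∀ (N : ℕ) [NeZero N], ¬ p ∣ N → ∀ ζ : Qbarˣ, IsPrimitiveRoot ζ p →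
  ∀ u : FF N, IsDiv N p u → InW A N p u →
    (∃ (J : ℕ) (g : FF N), 0 < J ∧
      (formalN p ζ)^[J] (u : LaurentSeries Qbar) = (u : LaurentSeries Qbar) * (g : LaurentSeries Qbar) ^ p) →
    ∀ s ∈ A.inertiaSubgroupIn ℚ, ∀ c : ℕ, ActsMu p s c → ∃ g : FF N, gal N s u = u ^ c * g ^ p

/-- **First half of Lemma D''** (any level) : iterating `U_p` makes the depth arbitrarily large. -/
def Stmt_Deepen : Prop :=
  ∀ (p : ℕ) [NeZero p], p.Prime → ∀ A : ValuationSubring Qbar, A.LiesOverPrime p →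
  ∀ ζ : Qbarˣ, IsPrimitiveRoot ζ p → ∀ c : Qbar, Sm A c → ∀ x : LaurentSeries Qbar, Cg A c x 1 →
  ∀ d : Qbar, d ≠ 0 → ∃ n₀ : ℕ, ∀ n : ℕ, n₀ ≤ n → Cg A d ((formalU p ζ)^[n] x) 1

end Fermat.Agent.ORD.Dep

end
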