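/-
ORD / Dep, package DF-UNR : the fixed field of (I ⊓ G_L0) is unramified over the number field L0
(Stmt_Unr).  Key: e(P_M / p_0) = 1 for every M ⊆ L1 fixed by the inertia group of P in Gal(L1/L0)
(card of inertia = ramification index, tower formula), lifting of inertia = S14.stmt_DIC.
-/
import Fermat.Agent.ORD.Dep.Interface
import Fermat.Agent.CFT.GN.DictAB
import Fermat.Agent.S14.DIC

set_option autoImplicit false

namespace Fermat.Agent.ORD.Dep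

open IsDedekindDomain NumberField
open Fermat.Agent.S24 (Qbar)
open Fermat.Agent.ES.Mid (GQ)
open Fermat.Agent.CFT.GN (IF Over dictA dictB)
open scoped Pointwise


theorem Unr_ramIdx (K E L : Type) [Field K] [NumberField K] [Field E] [NumberField E] [Field L]
    [NumberField L] [Algebra K E] [Algebra E L] [Algebra K L] [IsScalarTower K E L] [IsGalois K L]
    (P : Ideal (𝓞 L)) [hP : P.IsMaximal]
    (hfix : ∀ σ : L ≃ₐ[K] L, (∀ x : 𝓞 L, σ • x - x ∈ P) →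
      ∀ y : E, σ (algebraMap E L y) = algebraMap E L y) :
    (P.under (𝓞 E)).ramificationIdx (𝓞 K) = 1 := by
  have : IsGalois E L := IsGalois.tower_top_of_isGalois K E L
  have h1 := Ideal.card_inertia_eq_ramificationIdxIn (G := L ≃ₐ[K] L) (P.under (𝓞 K)) P
  rw [Ideal.ramificationIdxIn_eq_ramificationIdx (P.under (𝓞 K)) P (L ≃ₐ[K] L)] at h1
  have h2 := Ideal.card_inertia_eq_ramificationIdxIn (G := L ≃ₐ[E] L) (P.under (𝓞 E)) P
  rw [Ideal.ramificationIdxIn_eq_ramificationIdx (P.under (𝓞 E)) P (L ≃ₐ[E] L)] at h2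
  have h3 := Ideal.ramificationIdx_tower (R := 𝓞 K) (P.under (𝓞 E)) P
  have h4 : Nat.card (P.inertia (L ≃ₐ[K] L)) ≤ Nat.card (P.inertia (L ≃ₐ[E] L)) := by
    refine Nat.card_le_card_of_injective
      (fun σ => ⟨AlgEquiv.ofRingEquiv (f := σ.1.toRingEquiv) (hfix σ.1 σ.2), σ.2⟩) ?_
    intro σ τ hστ
    apply Subtype.ext
    ext x
    have := congrArg (fun ρ : P.inertia (L ≃ₐ[E] L) => ρ.1 x) hστ
    exact this
  have h5 : 0 < P.ramificationIdx (𝓞 E) := Ideal.ramificationIdx_pos P (𝓞 E)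
  have h6 : 0 < P.ramificationIdx (𝓞 K) := Ideal.ramificationIdx_pos P (𝓞 K)
  rw [h1, h2, h3] at h4
  rw [h3] at h6
  have h7 : (P.under (𝓞 E)).ramificationIdx (𝓞 K) ≤ 1 := by
    by_contra hcon
    push Not at hcon
    nlinarith
  have h8 : 0 < (P.under (𝓞 E)).ramificationIdx (𝓞 K) := Nat.pos_of_mul_pos_right h6
  omega

theorem Unr_exists_unif (K E : Type) [Field K] [NumberField K] [Field E] [NumberField E]
    [Algebra K E] (Q : Ideal (𝓞 E)) [hQ : Q.IsPrime] (hQ0 : Q ≠ ⊥)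
    (h : Q.ramificationIdx (𝓞 K) = 1) :
    ∃ ϖ : 𝓞 K, algebraMap (𝓞 K) (𝓞 E) ϖ ∈ Q ∧ algebraMap (𝓞 K) (𝓞 E) ϖ ∉ Q ^ 2 := by
  have hp0 : Q.under (𝓞 K) ≠ ⊥ := Ideal.under_ne_bot _ hQ0
  have h1 := Ideal.ramificationIdx'_eq_ramificationIdx (Q.under (𝓞 K)) Q hp0
  rw [h] at h1
  have h2 : (Q.under (𝓞 K)).map (algebraMap (𝓞 K) (𝓞 E)) ≤ Q := Ideal.map_comap_le
  have h3 : ¬ (Q.under (𝓞 K)).map (algebraMap (𝓞 K) (𝓞 E)) ≤ Q ^ 2 := fun h4 =>
    (Ideal.ramificationIdx'_ne_one_iff h2).2 h4 h1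
  rw [Ideal.map_le_iff_le_comap, SetLike.not_le_iff_exists] at h3
  obtain ⟨ϖ, h5, h6⟩ := h3
  exact ⟨ϖ, h5, h6⟩

/-- lifting of inertia: an element of the inertia group of the prime of `F` under `A` is the
restriction of an element of the inertia group of `A`. -/
theorem Unr_lift (F : IF) [NumberField F] [hG : IsGalois ℚ F] (A : ValuationSubring Qbar)
    (q : ℕ) (hq : q.Prime) (hA : A.LiesOverPrime q)
    (v : HeightOneSpectrum (𝓞 F)) (hv : Over A v) (h : F ≃ₐ[ℚ] F)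
    (hh : ∀ x : 𝓞 F, h • x - x ∈ v.asIdeal) :
    ∃ σ ∈ A.inertiaSubgroupIn ℚ, ∀ x : F, σ (x : Qbar) = ((h x : F) : Qbar) := by
  have : Algebra.IsAlgebraic ℚ Qbar := AlgebraicClosure.isAlgebraic ℚ
  have : IsAlgClosure ℚ Qbar := ⟨inferInstance, inferInstance⟩
  have : Normal ℚ Qbar := IsAlgClosure.normal ℚ Qbar
  have : IsGalois ℚ Qbar := ⟨⟩
  obtain ⟨σ₀, rfl⟩ := AlgEquiv.restrictNormalHom_surjective (F := ℚ) (K₁ := F) Qbar h
  have hσ : ∀ x : F, σ₀ (x : Qbar) = ((AlgEquiv.restrictNormalHom F σ₀) x : Qbar) :=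
    fun x => (AlgEquiv.restrictNormal_commutes σ₀ F x).symm
  have hUo : IsOpen (F.fixingSubgroup : Set GQ) := IntermediateField.fixingSubgroup_isOpen F
  have hUn : F.fixingSubgroup.Normal := (InfiniteGalois.normal_iff_isGalois F).2 hG
  obtain ⟨u, hu, hu2⟩ := Fermat.Agent.S14.stmt_DIC F.fixingSubgroup hUo hUn A q hq hA σ₀ (by
    intro b hb hfix
    have hbF : b ∈ F := by
      rw [← InfiniteGalois.fixedField_fixingSubgroup F, IntermediateField.mem_fixedField_iff]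
      exact hfix
    have hb' : IsIntegral ℤ (⟨b, hbF⟩ : F) :=
      (isIntegral_algebraMap_iff (algebraMap F Qbar).injective).mp hb
    let x : 𝓞 F := ⟨⟨b, hbF⟩, hb'⟩
    have h1 := (hv _).1 (hh x)
    have h2 : ((((AlgEquiv.restrictNormalHom F σ₀) • x - x : 𝓞 F) : F) : Qbar) = σ₀ b - b := by
      have := hσ ⟨b, hbF⟩
      rw [this]
      rfl
    rwa [h2] at h1)
  refine ⟨u * σ₀, hu2, fun x => ?_⟩
  rw [AlgEquiv.mul_apply, hσ x]
  exact (IntermediateField.mem_fixingSubgroup_iff F u).mp hu _ (Subtype.mem _)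

theorem Unr_lt_exp (x : WithZero (Multiplicative ℤ)) (h : x < WithZero.exp (-1 : ℤ)) :
    x ≤ WithZero.exp (-((2 : ℕ) : ℤ)) := by
  rcases eq_or_ne x 0 with rfl | hx
  · exact zero_le
  · obtain ⟨n, rfl⟩ : ∃ n : ℤ, x = WithZero.exp n := ⟨WithZero.log x, (WithZero.exp_log hx).symm⟩
    rw [WithZero.exp_lt_exp] at h
    rw [WithZero.exp_le_exp]
    push_cast
    omega

theorem Unr_unit_iff (M : IF) [NumberField M] (A : ValuationSubring Qbar)
    (v : HeightOneSpectrum (𝓞 M)) (hv : Over A v) (x : M) (hx : x ≠ 0) :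
    UnitA A (x : Qbar) ↔ v.valuation M x = 1 := by
  have hB := dictB M A v hv
  have h0 : v.valuation M x ≠ 0 := (Valuation.ne_zero_iff _).2 hx
  unfold UnitA
  have e : ((x : Qbar))⁻¹ = ((x⁻¹ : M) : Qbar) := rfl
  rw [e, ← hB x, ← hB x⁻¹, map_inv₀, inv_le_one₀ (zero_lt_iff.2 h0)]
  exact le_antisymm_iff.symm

theorem Unr_val (M : IF) [NumberField M] (A : ValuationSubring Qbar)
    (v : HeightOneSpectrum (𝓞 M)) (hv : Over A v) (π : M) (hπ : Sm A (π : Qbar)) (ϖ : 𝓞 M)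
    (h1 : ϖ ∈ v.asIdeal) (h2 : ϖ ∉ v.asIdeal ^ 2) (n : ℤ)
    (hn : UnitA A ((((ϖ : M) : Qbar)) * (π : Qbar) ^ (-n))) (a : M) (ha : a ≠ 0) :
    ∃ m : ℤ, UnitA A ((a : Qbar) * (π : Qbar) ^ (-m)) := by
  have hπ0 : π ≠ 0 := fun h => hπ.1 (by rw [h]; rfl)
  have hϖ0 : (ϖ : M) ≠ 0 := by
    intro h
    have : ϖ = 0 := RingOfIntegers.coe_injective h
    rw [this] at h2
    exact h2 (Ideal.zero_mem _)
  have hwϖ : v.valuation M (ϖ : M) = WithZero.exp (-1 : ℤ) := by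
    rw [HeightOneSpectrum.valuation_of_algebraMap]
    apply le_antisymm
    · have := (v.intValuation_le_pow_iff_mem ϖ 1).2 (by simpa using h1)
      simpa using this
    · by_contra hlt
      rw [not_le] at hlt
      apply h2
      rw [← v.intValuation_le_pow_iff_mem]
      exact Unr_lt_exp _ hlt
  have hwπ0 : v.valuation M π ≠ 0 := (Valuation.ne_zero_iff _).2 hπ0
  have hwπ1 : v.valuation M π < 1 := by
    have hlt : A.valuation (π : Qbar) < 1 := hπ.2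
    refine lt_of_le_of_ne ((dictB M A v hv π).2 ((A.valuation_le_one_iff _).1 hlt.le)) ?_
    intro h
    have h3 := ((Unr_unit_iff M A v hv π hπ0).2 h).2
    have h4 := (A.valuation_le_one_iff _).2 h3
    rw [map_inv₀, inv_le_one₀ (zero_lt_iff.2 ((Valuation.ne_zero_iff _).2 hπ.1))] at h4
    exact absurd hlt (not_lt.2 h4)
  obtain ⟨j, hj⟩ : ∃ j : ℤ, v.valuation M π = WithZero.exp (-j) :=
    ⟨-WithZero.log (v.valuation M π), by rw [neg_neg, WithZero.exp_log hwπ0]⟩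
  have hj1 : 1 ≤ j := by
    rw [hj, ← WithZero.exp_zero, WithZero.exp_lt_exp] at hwπ1
    omega
  have hu : v.valuation M ((ϖ : M) * π ^ (-n)) = 1 :=
    (Unr_unit_iff M A v hv _ (mul_ne_zero hϖ0 (zpow_ne_zero _ hπ0))).1 hn
  rw [map_mul, map_zpow₀, hwϖ, hj, ← WithZero.exp_zsmul, ← WithZero.exp_add, ← WithZero.exp_zero,
    WithZero.exp_inj] at hu
  have hjn : j * n = 1 := by
    simp only [smul_eq_mul] at hu
    linarith
  have hj' : j = 1 := by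
    rcases Int.eq_one_or_neg_one_of_mul_eq_one hjn with h | h
    · exact h
    · omega
  rw [hj'] at hj
  have hwa0 : v.valuation M a ≠ 0 := (Valuation.ne_zero_iff _).2 ha
  obtain ⟨m, hm⟩ : ∃ m : ℤ, v.valuation M a = WithZero.exp (-m) :=
    ⟨-WithZero.log (v.valuation M a), by rw [neg_neg, WithZero.exp_log hwa0]⟩
  refine ⟨m, ?_⟩
  have hx : v.valuation M (a * π ^ (-m)) = 1 := by
    rw [map_mul, map_zpow₀, hm, hj, ← WithZero.exp_zsmul, ← WithZero.exp_add]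
    simp
  exact (Unr_unit_iff M A v hv _ (mul_ne_zero ha (zpow_ne_zero _ hπ0))).2 hx

theorem Unr_core (L₀ M L₁ : IF) [NumberField L₀] [NumberField M] [NumberField L₁]
    [IsGalois ℚ L₁] (h0M : L₀ ≤ M) (hML : M ≤ L₁) (A : ValuationSubring Qbar) (p : ℕ)
    (hp : p.Prime) (hA : A.LiesOverPrime p)
    (hMfix : ∀ y ∈ M, ∀ σ ∈ A.inertiaSubgroupIn ℚ ⊓ L₀.fixingSubgroup, σ y = y) :
    ∃ (v : HeightOneSpectrum (𝓞 M)) (ϖ : 𝓞 M), Over A v ∧ ((ϖ : M) : Qbar) ∈ L₀ ∧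
      ϖ ∈ v.asIdeal ∧ ϖ ∉ v.asIdeal ^ 2 := by
  let a1 : Algebra L₀ M := (IntermediateField.inclusion h0M).toRingHom.toAlgebra
  let a2 : Algebra M L₁ := (IntermediateField.inclusion hML).toRingHom.toAlgebra
  let a3 : Algebra L₀ L₁ := (IntermediateField.inclusion (h0M.trans hML)).toRingHom.toAlgebra
  have t1 : IsScalarTower L₀ M L₁ := IsScalarTower.of_algebraMap_eq fun x => rfl
  have t2 : IsScalarTower ℚ L₀ L₁ := IsScalarTower.of_algebraMap_eq' (Subsingleton.elim _ _)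
  have hG0 : IsGalois L₀ L₁ := IsGalois.tower_top_of_isGalois ℚ L₀ L₁
  obtain ⟨v₁, hv₁⟩ := (dictA L₁).2.1 A p hp hA
  have hPmax : v₁.asIdeal.IsMaximal := v₁.isMaximal
  have hfix : ∀ σ : L₁ ≃ₐ[L₀] L₁, (∀ x : 𝓞 L₁, σ • x - x ∈ v₁.asIdeal) →
      ∀ y : M, σ (algebraMap M L₁ y) = algebraMap M L₁ y := by
    intro σ hσ y
    obtain ⟨τ, hτI, hτ⟩ := Unr_lift L₁ A p hp hA v₁ hv₁ (σ.restrictScalars ℚ) hσ
    have hτ0 : τ ∈ L₀.fixingSubgroup := by
      rw [IntermediateField.mem_fixingSubgroup_iff]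
      intro z hz
      have h1 := hτ (algebraMap L₀ L₁ ⟨z, hz⟩)
      have h2 : (σ.restrictScalars ℚ) (algebraMap L₀ L₁ ⟨z, hz⟩) = algebraMap L₀ L₁ ⟨z, hz⟩ :=
        σ.commutes _
      rw [h2] at h1
      exact h1
    apply Subtype.ext
    have h3 := hτ (algebraMap M L₁ y)
    have h4 : τ (y : Qbar) = (y : Qbar) := hMfix y y.2 τ ⟨hτI, hτ0⟩
    exact h3.symm.trans h4
  have he := Unr_ramIdx L₀ M L₁ v₁.asIdeal hfix
  have hQ0 : v₁.asIdeal.under (𝓞 M) ≠ ⊥ := Ideal.under_ne_bot _ v₁.ne_bot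
  obtain ⟨ϖ₀, h5, h6⟩ := Unr_exists_unif L₀ M (v₁.asIdeal.under (𝓞 M)) hQ0 he
  refine ⟨⟨v₁.asIdeal.under (𝓞 M), inferInstance, hQ0⟩, algebraMap (𝓞 L₀) (𝓞 M) ϖ₀, ?_, ?_, h5, h6⟩
  · intro x
    exact hv₁ (algebraMap (𝓞 M) (𝓞 L₁) x)
  · exact (ϖ₀ : L₀).2

theorem Unr_unif (p : ℕ) (hp : p.Prime) (A : ValuationSubring Qbar) (hA : A.LiesOverPrime p)
    (L₀ : IF) (hfd : FiniteDimensional ℚ L₀) (π : Qbar) (hπL : π ∈ L₀) (hπ : Sm A π)
    (hunif : UnifOn A (fun a => a ∈ L₀) π) (a : Qbar) (ha : a ≠ 0)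
    (hfixa : FixK (A.inertiaSubgroupIn ℚ ⊓ L₀.fixingSubgroup) a) :
    ∃ n : ℤ, UnitA A (a * π ^ (-n)) := by
  have : Algebra.IsAlgebraic ℚ Qbar := AlgebraicClosure.isAlgebraic ℚ
  have : IsAlgClosure ℚ Qbar := ⟨inferInstance, inferInstance⟩
  have : Normal ℚ Qbar := IsAlgClosure.normal ℚ Qbar
  have hfa : FiniteDimensional ℚ (IntermediateField.adjoin ℚ {a}) :=
    IntermediateField.adjoin.finiteDimensional (Algebra.IsIntegral.isIntegral a)
  obtain ⟨M, hM⟩ : ∃ M : IF, M = L₀ ⊔ IntermediateField.adjoin ℚ {a} := ⟨_, rfl⟩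
  have hfM : FiniteDimensional ℚ M := by
    rw [hM]; exact IntermediateField.finiteDimensional_sup _ _
  obtain ⟨L₁, hL₁⟩ : ∃ L₁ : IF, L₁ = IntermediateField.normalClosure ℚ M Qbar := ⟨_, rfl⟩
  have hfL : FiniteDimensional ℚ L₁ := by
    rw [hL₁]; exact normalClosure.is_finiteDimensional ℚ M Qbar
  have hnL : Normal ℚ L₁ := by
    rw [hL₁]; exact normalClosure.normal ℚ M Qbar
  have h0M : L₀ ≤ M := by rw [hM]; exact le_sup_left
  have haM : a ∈ M := by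
    rw [hM]
    exact (le_sup_right : IntermediateField.adjoin ℚ {a} ≤ _)
      (IntermediateField.mem_adjoin_simple_self ℚ a)
  have hML : M ≤ L₁ := by rw [hL₁]; exact IntermediateField.le_normalClosure M
  have hMfix : ∀ y ∈ M, ∀ σ ∈ A.inertiaSubgroupIn ℚ ⊓ L₀.fixingSubgroup, σ y = y := by
    have hle : M ≤ IntermediateField.fixedField (A.inertiaSubgroupIn ℚ ⊓ L₀.fixingSubgroup) := by
      rw [hM]
      refine sup_le ?_ ?_
      · intro z hz
        rw [IntermediateField.mem_fixedField_iff]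
        intro σ hσ
        exact (IntermediateField.mem_fixingSubgroup_iff L₀ σ).mp hσ.2 z hz
      · rw [IntermediateField.adjoin_simple_le_iff, IntermediateField.mem_fixedField_iff]
        exact hfixa
    intro y hy σ hσ
    exact (IntermediateField.mem_fixedField_iff _ _).1 (hle hy) σ hσ
  have hN0 : NumberField L₀ := ⟨⟩
  have hNM : NumberField M := ⟨⟩
  have hNL : NumberField L₁ := ⟨⟩
  have hGL : IsGalois ℚ L₁ := ⟨⟩
  obtain ⟨v, ϖ, hv, hϖL, hϖ1, hϖ2⟩ := Unr_core L₀ M L₁ h0M hML A p hp hA hMfix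
  have hϖ0 : ((ϖ : M) : Qbar) ≠ 0 := by
    intro h
    have h1 : (ϖ : M) = 0 := Subtype.ext h
    have h2 : ϖ = 0 := RingOfIntegers.coe_injective h1
    rw [h2] at hϖ2
    exact hϖ2 (Ideal.zero_mem _)
  obtain ⟨n, hn⟩ := hunif _ hϖ0 hϖL
  exact Unr_val M A v hv ⟨π, h0M hπL⟩ hπ ϖ hϖ1 hϖ2 n hn ⟨a, haM⟩
    (fun h => ha (congrArg Subtype.val h))

theorem stmt_Unr : Stmt_Unr := by
  intro p hp A hA L₀ hfd π hπL hπ hunif
  refine ⟨inf_le_left, ?_, hπ, ?_⟩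
  · intro σ hσ
    exact (IntermediateField.mem_fixingSubgroup_iff L₀ σ).mp hσ.2 π hπL
  · intro a ha hfixa
    exact Unr_unif p hp A hA L₀ hfd π hπL hπ hunif a ha hfixa


end Fermat.Agent.ORD.Dep
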