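import Fermat.Agent.ORD.Dep.Interface

/-!
# ORD / Dep / DISC : a number field is discretely valued
-/

set_option autoImplicit false

namespace Fermat.Agent.ORD.Dep

open Fermat.Agent.S24 (Qbar)

section DiscGen

variable {K : Type*} [Field K]

/-- in a vanishing sum with a nonzero term, two nonzero terms have the same valuation. -/
theorem Disc_two_eq {Γ : Type*} [LinearOrderedCommGroupWithZero Γ] (v : Valuation K Γ)
    {ι : Type*} (s : Finset ι) (f : ι → K) (h0 : ∑ i ∈ s, f i = 0) (hne : ∃ i ∈ s, f i ≠ 0) :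
    ∃ i ∈ s, ∃ j ∈ s, i ≠ j ∧ f i ≠ 0 ∧ f j ≠ 0 ∧ v (f i) = v (f j) := by
  classical
  obtain ⟨i₁, hi₁, hfi₁⟩ := hne
  obtain ⟨i₀, hi₀, hmax⟩ := s.exists_max_image (fun i => v (f i)) ⟨i₁, hi₁⟩
  have hv0 : v (f i₀) ≠ 0 := by
    intro h
    have h1 := hmax i₁ hi₁
    rw [h, le_zero_iff] at h1
    exact hfi₁ ((v.zero_iff).1 h1)
  have hf0 : f i₀ ≠ 0 := (v.ne_zero_iff).1 hv0
  by_contra hcon
  have hlt : ∀ j ∈ s.erase i₀, v (f j) < v (f i₀) := by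
    intro j hj
    rw [Finset.mem_erase] at hj
    refine lt_of_le_of_ne (hmax j hj.2) ?_
    intro heq
    apply hcon
    refine ⟨i₀, hi₀, j, hj.2, hj.1.symm, hf0, ?_, heq.symm⟩
    rw [← v.ne_zero_iff, heq]
    exact hv0
  have hsum : v (∑ j ∈ s.erase i₀, f j) < v (f i₀) := v.map_sum_lt hv0 hlt
  have h2 : ∑ j ∈ s.erase i₀, f j = - f i₀ := by
    have h3 := Finset.add_sum_erase s f hi₀
    rw [h0] at h3
    linear_combination h3
  rw [h2, v.map_neg] at hsum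
  exact lt_irrefl _ hsum

theorem Disc_val_nat_coprime (A : ValuationSubring K) (p : ℕ) (hp : p.Prime)
    (hA : A.valuation (p : K) < 1) (n : ℕ) (hn : ¬ p ∣ n) : A.valuation (n : K) = 1 := by
  have hcop : IsCoprime (p : ℤ) (n : ℤ) :=
    Nat.isCoprime_iff_coprime.2 ((Nat.Prime.coprime_iff_not_dvd hp).2 hn)
  obtain ⟨s, t, hst⟩ := hcop
  have hst' : (s : K) * p + (t : K) * n = 1 := by
    exact_mod_cast congrArg (Int.cast : ℤ → K) hst
  have hs : A.valuation (s : K) ≤ 1 := (A.valuation_le_one_iff _).2 (intCast_mem A s)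
  have ht : A.valuation (t : K) ≤ 1 := (A.valuation_le_one_iff _).2 (intCast_mem A t)
  have hn1 : A.valuation (n : K) ≤ 1 := (A.valuation_le_one_iff _).2 (natCast_mem A n)
  refine le_antisymm hn1 (not_lt.1 fun hlt => ?_)
  have h1 : A.valuation ((s : K) * p) < 1 := by
    rw [map_mul]
    exact mul_lt_one_of_nonneg_of_lt_one_right hs zero_le hA
  have h2 : A.valuation ((t : K) * n) < 1 := by
    rw [map_mul]
    exact mul_lt_one_of_nonneg_of_lt_one_right ht zero_le hlt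
  have h3 := A.valuation.map_add_lt h1 h2
  rw [hst', map_one] at h3
  exact lt_irrefl _ h3

theorem Disc_val_nat (A : ValuationSubring K) (p : ℕ) (hp : p.Prime)
    (hA : A.valuation (p : K) < 1) (n : ℕ) (hn : n ≠ 0) :
    ∃ m : ℕ, A.valuation (n : K) = A.valuation (p : K) ^ m := by
  obtain ⟨m, n', hn', rfl⟩ := Nat.exists_eq_pow_mul_and_not_dvd hn p hp.ne_one
  refine ⟨m, ?_⟩
  rw [Nat.cast_mul, Nat.cast_pow, map_mul, map_pow, Disc_val_nat_coprime A p hp hA n' hn', mul_one]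

theorem Disc_val_rat [CharZero K] (A : ValuationSubring K) (p : ℕ) (hp : p.Prime)
    (hA : A.valuation (p : K) < 1) (c : ℚ) (hc : c ≠ 0) :
    ∃ m : ℤ, A.valuation (c : K) = A.valuation (p : K) ^ m := by
  have hp0 : A.valuation (p : K) ≠ 0 :=
    (A.valuation.ne_zero_iff).2 (Nat.cast_ne_zero.2 hp.ne_zero)
  obtain ⟨m₁, h₁⟩ := Disc_val_nat A p hp hA c.num.natAbs (Int.natAbs_ne_zero.2 (Rat.num_ne_zero.2 hc))
  obtain ⟨m₂, h₂⟩ := Disc_val_nat A p hp hA c.den c.den_ne_zero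
  have h₁' : A.valuation ((c.num : ℤ) : K) = A.valuation (p : K) ^ m₁ := by
    rw [← h₁]
    rcases Int.natAbs_eq c.num with h | h
    · conv_lhs => rw [h]
      rw [Int.cast_natCast]
    · conv_lhs => rw [h]
      rw [Int.cast_neg, Int.cast_natCast, Valuation.map_neg]
  refine ⟨(m₁ : ℤ) - m₂, ?_⟩
  rw [Rat.cast_def, map_div₀, h₁', h₂, zpow_sub₀ hp0, zpow_natCast, zpow_natCast]

theorem Disc_pow_mem [CharZero K] [Algebra ℚ K] (A : ValuationSubring K) (p : ℕ) (hp : p.Prime)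
    (hA : A.valuation (p : K) < 1) (L₀ : IntermediateField ℚ K) [FiniteDimensional ℚ L₀]
    (a : K) (ha : a ∈ L₀) (ha0 : a ≠ 0) :
    ∃ k : ℕ, 1 ≤ k ∧ k ≤ Module.finrank ℚ L₀ ∧
      ∃ m : ℤ, A.valuation a ^ k = A.valuation (p : K) ^ m := by
  have hp0 : A.valuation (p : K) ≠ 0 :=
    (A.valuation.ne_zero_iff).2 (Nat.cast_ne_zero.2 hp.ne_zero)
  have hva : A.valuation a ≠ 0 := (A.valuation.ne_zero_iff).2 ha0
  have hdep : ¬ LinearIndependent ℚ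
      (fun i : Fin (Module.finrank ℚ L₀ + 1) => (⟨a, ha⟩ : L₀) ^ (i : ℕ)) := by
    intro hli
    have h1 := hli.fintype_card_le_finrank
    rw [Fintype.card_fin] at h1
    omega
  rw [Fintype.not_linearIndependent_iff] at hdep
  obtain ⟨c, hs, i₁, hi₁⟩ := hdep
  have hs' : ∑ i : Fin (Module.finrank ℚ L₀ + 1), ((c i : ℚ) : K) * a ^ (i : ℕ) = 0 := by
    have h1 := congrArg (fun z : L₀ => (z : K)) hs
    simp only [AddSubmonoidClass.coe_finsetSum, IntermediateField.coe_smul,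
      IntermediateField.coe_pow, ZeroMemClass.coe_zero] at h1
    rw [← h1]
    refine Finset.sum_congr rfl fun i _ => ?_
    rw [Algebra.smul_def, eq_ratCast]
  have key : ∀ i j : Fin (Module.finrank ℚ L₀ + 1), i < j → ((c i : ℚ) : K) * a ^ (i : ℕ) ≠ 0 →
      ((c j : ℚ) : K) * a ^ (j : ℕ) ≠ 0 →
      A.valuation (((c i : ℚ) : K) * a ^ (i : ℕ)) = A.valuation (((c j : ℚ) : K) * a ^ (j : ℕ)) →
      ∃ k : ℕ, 1 ≤ k ∧ k ≤ Module.finrank ℚ L₀ ∧
        ∃ m : ℤ, A.valuation a ^ k = A.valuation (p : K) ^ m := by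
    intro i j hij hi hj hv
    have hci : c i ≠ 0 := by
      intro h
      apply hi
      rw [h, Rat.cast_zero, zero_mul]
    have hcj : c j ≠ 0 := by
      intro h
      apply hj
      rw [h, Rat.cast_zero, zero_mul]
    obtain ⟨mi, hmi⟩ := Disc_val_rat A p hp hA (c i) hci
    obtain ⟨mj, hmj⟩ := Disc_val_rat A p hp hA (c j) hcj
    have hij' : (i : ℕ) < (j : ℕ) := hij
    have hj' : (j : ℕ) < Module.finrank ℚ L₀ + 1 := j.2
    refine ⟨(j : ℕ) - (i : ℕ), by omega, by omega, mi - mj, ?_⟩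
    rw [map_mul, map_mul, map_pow, map_pow, hmi, hmj] at hv
    have h2 : A.valuation a ^ (j : ℕ) = A.valuation a ^ ((j : ℕ) - (i : ℕ)) * A.valuation a ^ (i : ℕ) := by
      rw [← pow_add, Nat.sub_add_cancel hij'.le]
    rw [h2, ← mul_assoc] at hv
    have h3 := mul_right_cancel₀ (pow_ne_zero _ hva) hv
    rw [zpow_sub₀ hp0, h3, mul_div_cancel_left₀ _ (zpow_ne_zero _ hp0)]
  obtain ⟨i, -, j, -, hij, hi, hj, hv⟩ := Disc_two_eq A.valuation Finset.univ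
    (fun i : Fin (Module.finrank ℚ L₀ + 1) => ((c i : ℚ) : K) * a ^ (i : ℕ)) hs'
    ⟨i₁, Finset.mem_univ _, mul_ne_zero (Rat.cast_ne_zero.2 hi₁) (pow_ne_zero _ ha0)⟩
  rcases lt_or_gt_of_ne hij with h | h
  · exact key i j h hi hj hv
  · exact key j i h hj hi hv.symm

theorem Disc_fact_mem [CharZero K] [Algebra ℚ K] (A : ValuationSubring K) (p : ℕ) (hp : p.Prime)
    (hA : A.valuation (p : K) < 1) (L₀ : IntermediateField ℚ K) [FiniteDimensional ℚ L₀]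
    (a : K) (ha : a ∈ L₀) (ha0 : a ≠ 0) :
    ∃ m : ℤ, A.valuation a ^ (Module.finrank ℚ L₀).factorial = A.valuation (p : K) ^ m := by
  obtain ⟨k, hk1, hk2, m, hm⟩ := Disc_pow_mem A p hp hA L₀ a ha ha0
  obtain ⟨e, he⟩ := Nat.dvd_factorial hk1 hk2
  refine ⟨m * e, ?_⟩
  rw [he, pow_mul, hm, zpow_mul, zpow_natCast]

/-- the general form of `Stmt_Disc`. -/
theorem Disc_main [CharZero K] [Algebra ℚ K] (A : ValuationSubring K) (p : ℕ) (hp : p.Prime)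
    (hA : A.valuation (p : K) < 1) (L₀ : IntermediateField ℚ K) [FiniteDimensional ℚ L₀] :
    ∃ π : K, π ∈ L₀ ∧ π ≠ 0 ∧ A.valuation π < 1 ∧
      ∀ a : K, a ≠ 0 → a ∈ L₀ → ∃ n : ℤ, A.valuation (a * π ^ (-n)) = 1 := by
  have hp0 : A.valuation (p : K) ≠ 0 :=
    (A.valuation.ne_zero_iff).2 (Nat.cast_ne_zero.2 hp.ne_zero)
  have hp0' : 0 < A.valuation (p : K) := zero_lt_iff.2 hp0
  obtain ⟨n, hn⟩ : ∃ n : ℕ, n = (Module.finrank ℚ L₀).factorial := ⟨_, rfl⟩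
  have hn0 : n ≠ 0 := hn ▸ Nat.factorial_ne_zero _
  have hall : ∀ a : K, a ∈ L₀ → a ≠ 0 → ∃ m : ℤ, A.valuation a ^ n = A.valuation (p : K) ^ m := by
    intro a ha ha0
    rw [hn]
    exact Disc_fact_mem A p hp hA L₀ a ha ha0
  let H : AddSubgroup ℤ :=
    { carrier := {m | ∃ a : K, a ∈ L₀ ∧ a ≠ 0 ∧ A.valuation a ^ n = A.valuation (p : K) ^ m}
      zero_mem' := ⟨1, L₀.one_mem, one_ne_zero, by rw [map_one, one_pow, zpow_zero]⟩
      add_mem' := by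
        rintro m₁ m₂ ⟨a, ha, ha0, h1⟩ ⟨b, hb, hb0, h2⟩
        exact ⟨a * b, L₀.mul_mem ha hb, mul_ne_zero ha0 hb0, by
          rw [map_mul, mul_pow, h1, h2, zpow_add₀ hp0]⟩
      neg_mem' := by
        rintro m ⟨a, ha, ha0, h1⟩
        exact ⟨a⁻¹, L₀.inv_mem ha, inv_ne_zero ha0, by
          rw [map_inv₀, inv_pow, h1, zpow_neg]⟩ }
  have hH : ∀ m : ℤ, m ∈ H ↔
      ∃ a : K, a ∈ L₀ ∧ a ≠ 0 ∧ A.valuation a ^ n = A.valuation (p : K) ^ m := fun _ => Iff.rfl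
  obtain ⟨g, hg⟩ := Int.subgroup_cyclic H
  have hnH : (n : ℤ) ∈ H :=
    (hH _).2 ⟨(p : K), natCast_mem L₀ p, Nat.cast_ne_zero.2 hp.ne_zero, by rw [zpow_natCast]⟩
  have hdiv : ∀ m ∈ H, g ∣ m := by
    intro m hm
    rw [hg, AddSubgroup.mem_closure_singleton] at hm
    obtain ⟨j, hj⟩ := hm
    exact ⟨j, by rw [← hj, smul_eq_mul, mul_comm]⟩
  have hg0 : g ≠ 0 := by
    intro h0
    have h1 := hdiv _ hnH
    rw [h0, zero_dvd_iff] at h1
    exact hn0 (by exact_mod_cast h1)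
  have hgH : g ∈ H := by
    rw [hg]
    exact AddSubgroup.subset_closure rfl
  obtain ⟨g', hg'0, hg'H, hg'div⟩ : ∃ g' : ℤ, 0 < g' ∧ g' ∈ H ∧ ∀ m ∈ H, g' ∣ m := by
    rcases lt_or_gt_of_ne hg0 with h | h
    · exact ⟨-g, by omega, H.neg_mem hgH, fun m hm => (neg_dvd).2 (hdiv m hm)⟩
    · exact ⟨g, h, hgH, hdiv⟩
  obtain ⟨π, hπL, hπ0, hπ⟩ := (hH _).1 hg'H
  have hvπ : A.valuation π ≠ 0 := (A.valuation.ne_zero_iff).2 hπ0
  refine ⟨π, hπL, hπ0, ?_, ?_⟩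
  · rw [← pow_lt_one_iff_of_nonneg zero_le hn0, hπ]
    exact zpow_lt_one₀ hp0' hA hg'0
  · intro a ha0 ha
    obtain ⟨m, hm⟩ := hall a ha ha0
    obtain ⟨j, hj⟩ := hg'div m ((hH _).2 ⟨a, ha, ha0, hm⟩)
    refine ⟨j, ?_⟩
    rw [← pow_eq_one_iff_of_nonneg zero_le hn0, map_mul, map_zpow₀, mul_pow, hm, ← zpow_natCast,
      ← zpow_mul, mul_comm (-j) (n : ℤ), zpow_mul, zpow_natCast, hπ, ← zpow_mul, ← zpow_add₀ hp0, hj]
    rw [show g' * j + g' * -j = 0 by ring, zpow_zero]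

end DiscGen

theorem stmt_Disc : Stmt_Disc := by
  intro p hp A hA L₀ hfin
  have hA' : A.valuation ((p : ℕ) : Qbar) < 1 := (A.mem_nonunits_iff).1 hA
  obtain ⟨π, hπL, hπ0, hπ1, hπ⟩ := Disc_main A p hp hA' L₀
  refine ⟨π, hπL, ⟨hπ0, (A.mem_nonunits_iff).2 hπ1⟩, ?_⟩
  intro a ha0 ha
  obtain ⟨n, hn⟩ := hπ a ha0 ha
  refine ⟨n, ?_, ?_⟩
  · rw [← A.valuation_le_one_iff, hn]
  · rw [← A.valuation_le_one_iff, map_inv₀, hn, inv_one]

end Fermat.Agent.ORD.Dep
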