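import Fermat.Agent.ORD.Dep.Interface

/-!
# ORD / Dep / B1 : `p`-th powers near `1` below the depth `p e'` over a general level (helper86)

The proof is done in an abstract setting (`B1_Ctx`) : a valued field `(K, A)`, an extension field
`L` with a "Gauss ring" `O` and a reduction `r : L → M`, subfields `FK ⊆ K`, `Fx ⊆ L`
(the fixed parts) such that `Fx` is discretely valued with uniformiser `π`.
-/

set_option autoImplicit false

noncomputable section

namespace Fermat.Agent.ORD.Dep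

open ModularCurve
open Fermat.Agent.S24 (Qbar FF)
open Fermat.Agent.ES.Mid (GQ gal IsDiv formalN twProd compress tw)
open Fermat.Agent.INJ.Inst (kA)

/-! ### the abstract setting -/

/-- the abstract setting. -/
structure B1_Ctx {K L M : Type*} [Field K] [Field L] [Field M] [Algebra K L]
    (A : ValuationSubring K) [Algebra (IsLocalRing.ResidueField A) M]
    (O : Subring L) (r : L → M) (FK : Subfield K) (Fx : Subfield L) (π : K) (p : ℕ) : Prop where
  r_add : ∀ {x y}, x ∈ O → y ∈ O → r (x + y) = r x + r y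
  r_mul : ∀ {x y}, x ∈ O → y ∈ O → r (x * y) = r x * r y
  oc : ∀ {a}, a ∈ A → algebraMap K L a ∈ O
  r_c : ∀ {a} (h : a ∈ A), r (algebraMap K L a) =
    algebraMap (IsLocalRing.ResidueField A) M (IsLocalRing.residue A ⟨a, h⟩)
  inv : ∀ {x}, x ∈ O → r x ≠ 0 → x⁻¹ ∈ O
  of_c : ∀ {c}, algebraMap K L c ∈ O → c ∈ A
  fx_c : ∀ {c}, c ∈ FK → algebraMap K L c ∈ Fx
  fk_pi : π ∈ FK
  pi_ne : π ≠ 0
  pi_sm : π ∈ A.nonunits
  disc : ∀ u ∈ Fx, u ≠ 0 → ∃ n : ℤ, algebraMap K L (π ^ (-n)) * u ∈ O ∧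
    r (algebraMap K L (π ^ (-n)) * u) ≠ 0
  teich : ∀ a ∈ A, ∃ b ∈ A, b ∈ FK ∧ a - b ∈ A.nonunits
  frob : ∀ (y : M) (d : IsLocalRing.ResidueField A),
    y ^ p = algebraMap (IsLocalRing.ResidueField A) M d →
    ∃ e, y = algebraMap (IsLocalRing.ResidueField A) M e
  prime : p.Prime

namespace B1_Ctx

variable {K L M : Type*} [Field K] [Field L] [Field M] [Algebra K L]
  {A : ValuationSubring K} [Algebra (IsLocalRing.ResidueField A) M]
  {O : Subring L} {r : L → M} {FK : Subfield K} {Fx : Subfield L} {π : K} {p : ℕ}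
  (h : B1_Ctx A O r FK Fx π p)

include h

theorem r_zero : r 0 = 0 := by
  have h1 := h.r_c A.zero_mem
  rw [map_zero] at h1
  rw [h1]
  have : (⟨0, A.zero_mem⟩ : A) = 0 := rfl
  rw [this, map_zero, map_zero]

theorem r_one : r 1 = 1 := by
  have h1 := h.r_c A.one_mem
  rw [map_one] at h1
  rw [h1]
  have : (⟨1, A.one_mem⟩ : A) = 1 := rfl
  rw [this, map_one, map_one]

theorem r_neg {x : L} (hx : x ∈ O) : r (-x) = - r x := by
  have h1 := h.r_add (O.neg_mem hx) hx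
  rw [neg_add_cancel, h.r_zero] at h1
  exact eq_neg_of_add_eq_zero_left h1.symm

theorem r_sub {x y : L} (hx : x ∈ O) (hy : y ∈ O) : r (x - y) = r x - r y := by
  rw [sub_eq_add_neg, h.r_add hx (O.neg_mem hy), h.r_neg hy, sub_eq_add_neg]

theorem r_pow {x : L} (hx : x ∈ O) (n : ℕ) : r (x ^ n) = r x ^ n := by
  induction n with
  | zero => rw [pow_zero, pow_zero]; exact h.r_one
  | succ n ih => rw [pow_succ, h.r_mul (O.pow_mem hx n) hx, ih, pow_succ]

/-- small constants reduce to `0`. -/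
theorem r_small {a : K} (ha : a ∈ A.nonunits) : r (algebraMap K L a) = 0 := by
  obtain ⟨ha', hm⟩ := ValuationSubring.mem_nonunits_iff_exists_mem_maximalIdeal.1 ha
  rw [h.r_c ha', (IsLocalRing.residue_eq_zero_iff _).2 hm, map_zero]

/-- a constant with nonzero reduction is a unit. -/
theorem unit_of_r_ne {a : K} (h0 : r (algebraMap K L a) ≠ 0) : a ≠ 0 ∧ a⁻¹ ∈ A := by
  constructor
  · rintro rfl
    rw [map_zero] at h0
    exact h0 h.r_zero
  · by_contra hc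
    exact h0 (h.r_small ((ValuationSubring.mem_nonunits_iff_or A).2 (Or.inr hc)))

theorem pi_mem : π ∈ A := (ValuationSubring.mem_nonunits_iff_exists_mem_maximalIdeal.1 h.pi_sm).1

theorem pow_pi_mem (n : ℕ) : π ^ n ∈ A := A.pow_mem h.pi_mem n

omit [Field L] [Field M] [Algebra K L] [Algebra (IsLocalRing.ResidueField A) M] h in
theorem mul_small {a b : K} (ha : a ∈ A.nonunits) (hb : b ∈ A) : a * b ∈ A.nonunits := by
  obtain ⟨ha', hm⟩ := ValuationSubring.mem_nonunits_iff_exists_mem_maximalIdeal.1 ha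
  refine ValuationSubring.mem_nonunits_iff_exists_mem_maximalIdeal.2 ⟨mul_mem ha' hb, ?_⟩
  exact Ideal.mul_mem_right (⟨b, hb⟩ : A) _ hm

theorem pow_pi_small {n : ℕ} (hn : 1 ≤ n) : π ^ n ∈ A.nonunits := by
  obtain ⟨m, rfl⟩ := Nat.exists_eq_add_of_le hn
  rw [pow_add, pow_one]
  exact mul_small h.pi_sm (h.pow_pi_mem m)

/-- lifting constants of the residue field to fixed constants. -/
theorem lift (e : IsLocalRing.ResidueField A) :
    ∃ b ∈ A, b ∈ FK ∧ r (algebraMap K L b) = algebraMap (IsLocalRing.ResidueField A) M e := by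
  obtain ⟨⟨a, ha⟩, rfl⟩ := IsLocalRing.residue_surjective e
  obtain ⟨b, hb, hbF, hab⟩ := h.teich a ha
  refine ⟨b, hb, hbF, ?_⟩
  have h1 : algebraMap K L b = algebraMap K L a - algebraMap K L (a - b) := by
    rw [map_sub]; ring
  rw [h1, h.r_sub (h.oc ha) (h.oc (A.sub_mem ha hb)), h.r_small hab, sub_zero, h.r_c ha]

/-- division by the uniformiser. -/
theorem div {x : L} (hx : x ∈ Fx) (hO : x ∈ O) (h0 : r x = 0) :
    ∃ x' ∈ Fx, x' ∈ O ∧ x = algebraMap K L π * x' := by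
  by_cases hx0 : x = 0
  · exact ⟨0, Fx.zero_mem, O.zero_mem, by rw [hx0, mul_zero]⟩
  obtain ⟨n, hn, hr⟩ := h.disc x hx hx0
  have hn1 : 1 ≤ n := by
    by_contra hc
    obtain ⟨m, hm⟩ := Int.eq_ofNat_of_zero_le (show 0 ≤ -n by omega)
    apply hr
    rw [hm, zpow_natCast, h.r_mul (h.oc (h.pow_pi_mem m)) hO, h0, mul_zero]
  obtain ⟨m, hm⟩ := Int.eq_ofNat_of_zero_le (show 0 ≤ n - 1 by omega)
  refine ⟨algebraMap K L (π ^ m) * (algebraMap K L (π ^ (-n)) * x), ?_, ?_, ?_⟩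
  · exact Fx.mul_mem (h.fx_c (FK.pow_mem h.fk_pi m))
      (Fx.mul_mem (h.fx_c (FK.zpow_mem h.fk_pi _)) hx)
  · exact O.mul_mem (h.oc (h.pow_pi_mem m)) hn
  · rw [← mul_assoc, ← mul_assoc, ← map_mul, ← map_mul]
    have : π * π ^ m * π ^ (-n) = 1 := by
      rw [← zpow_natCast, ← hm, ← zpow_one_add₀ h.pi_ne, ← zpow_add₀ h.pi_ne]
      have : (1 + (n - 1) + -n : ℤ) = 0 := by ring
      rw [this, zpow_zero]
    rw [this, map_one, one_mul]

/-- the binomial expansion. -/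
theorem bin {t : K} {x : L} (ht : t ∈ A) (hx : x ∈ O) :
    ∃ N ∈ O, (1 + algebraMap K L t * x) ^ p =
      1 + algebraMap K L (t ^ p) * x ^ p + algebraMap K L ((p : K) * t) * N := by
  obtain ⟨s, hs⟩ := exists_add_pow_prime_eq h.prime (1 : O)
    (⟨algebraMap K L t * x, O.mul_mem (h.oc ht) hx⟩ : O)
  refine ⟨x * s, O.mul_mem hx s.2, ?_⟩
  have h1 := congrArg (Subtype.val) hs
  simp only [Subring.coe_add, Subring.coe_mul, Subring.coe_pow, Subring.coe_one,
    Subring.coe_natCast] at h1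
  rw [h1, map_mul, map_pow, map_natCast]
  ring

/-- the key computation. -/
theorem key {C d : K} {g z : L} {a' b m s : ℕ} (hC : C ∈ A) (hg : g ∈ O) (hz : z ∈ O)
    (hd : d ∈ A) (hpd : (p : K) * π ^ b = π ^ (m + 1) * d) (hm : 1 ≤ m) (hs : p * b = m + s)
    (heq : algebraMap K L C * (1 + algebraMap K L (π ^ b) * g) ^ p =
      1 + algebraMap K L (π ^ (m + a')) * z) :
    ∃ D ∈ A, r (algebraMap K L D) =
      r (algebraMap K L (π ^ a')) * r z - r (algebraMap K L (π ^ s)) * r g ^ p := by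
  obtain ⟨N, hN, hbin⟩ := h.bin (h.pow_pi_mem b) hg
  have hπm : algebraMap K L (π ^ m) ≠ 0 := by
    rw [Ne, map_eq_zero]; exact pow_ne_zero _ h.pi_ne
  set E : L := algebraMap K L (π ^ a') * z -
    algebraMap K L C * (algebraMap K L (π ^ s) * g ^ p + algebraMap K L (π * d) * N) with hE
  have hE1 : algebraMap K L (π ^ s) * g ^ p + algebraMap K L (π * d) * N ∈ O :=
    O.add_mem (O.mul_mem (h.oc (h.pow_pi_mem s)) (O.pow_mem hg p))
      (O.mul_mem (h.oc (mul_mem h.pi_mem hd)) hN)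
  have hEO : E ∈ O :=
    O.sub_mem (O.mul_mem (h.oc (h.pow_pi_mem a')) hz) (O.mul_mem (h.oc hC) hE1)
  have hmul : algebraMap K L (π ^ m) * E = algebraMap K L (C - 1) := by
    rw [hbin, hpd, ← pow_mul, mul_comm b p, hs] at heq
    rw [hE, map_sub, map_one]
    simp only [map_mul, map_pow, pow_add, pow_one] at heq ⊢
    linear_combination -heq
  have hD : algebraMap K L ((C - 1) * (π ^ m)⁻¹) = E := by
    rw [map_mul, ← hmul, map_inv₀]
    field_simp
  have hDA : (C - 1) * (π ^ m)⁻¹ ∈ A := h.of_c (by rw [hD]; exact hEO)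
  refine ⟨_, hDA, ?_⟩
  have hC1 : r (algebraMap K L C) = 1 := by
    have : algebraMap K L C = 1 + algebraMap K L (π ^ m) * E := by
      rw [hmul, map_sub, map_one]; ring
    rw [this, h.r_add O.one_mem (O.mul_mem (h.oc (h.pow_pi_mem m)) hEO),
      h.r_mul (h.oc (h.pow_pi_mem m)) hEO, h.r_small (h.pow_pi_small hm), zero_mul, add_zero,
      h.r_one]
  rw [hD, hE, h.r_sub (O.mul_mem (h.oc (h.pow_pi_mem a')) hz) (O.mul_mem (h.oc hC) hE1),
    h.r_mul (h.oc (h.pow_pi_mem a')) hz, h.r_mul (h.oc hC) hE1, hC1, one_mul,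
    h.r_add (O.mul_mem (h.oc (h.pow_pi_mem s)) (O.pow_mem hg p))
      (O.mul_mem (h.oc (mul_mem h.pi_mem hd)) hN),
    h.r_mul (h.oc (h.pow_pi_mem s)) (O.pow_mem hg p), h.r_pow hg,
    h.r_mul (h.oc (mul_mem h.pi_mem hd)) hN, h.r_small (mul_small h.pi_sm hd), zero_mul,
    add_zero]

/-- `p π^b` is divisible by `π^(m+1)` as long as `m + 1 ≤ (p-1) e' + b`. -/
theorem val {w : K} {e' P : ℕ} (hw : w ^ P = -(p : K)) (hu : w * (π ^ e')⁻¹ ∈ A)
    {b m : ℕ} (hm : m + 1 ≤ P * e' + b) : ∃ d ∈ A, (p : K) * π ^ b = π ^ (m + 1) * d := by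
  obtain ⟨t, ht⟩ := Nat.exists_eq_add_of_le hm
  refine ⟨-(π ^ t * (w * (π ^ e')⁻¹) ^ P),
    neg_mem (mul_mem (h.pow_pi_mem t) (pow_mem hu P)), ?_⟩
  have hπ := h.pi_ne
  have h1 : (p : K) = - w ^ P := by rw [hw, neg_neg]
  have h2 : π ^ (m + 1) * π ^ t = π ^ (e' * P) * π ^ b := by
    rw [← pow_add, ← pow_add, ← ht, mul_comm e' P]
  have h3 : π ^ (e' * P) ≠ 0 := pow_ne_zero _ hπ
  rw [h1, mul_pow, inv_pow, ← pow_mul]
  calc -w ^ P * π ^ b = -((π ^ (e' * P) * π ^ b) * (w ^ P * (π ^ (e' * P))⁻¹)) := by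
        field_simp
    _ = π ^ (m + 1) * -(π ^ t * (w ^ P * (π ^ (e' * P))⁻¹)) := by
        rw [← h2]; ring

/-- the start of the induction. -/
theorem start {c : K} {g z : L} {a : ℕ} (hc : c ∈ FK) (hg0 : g ≠ 0) (hg : g ∈ Fx) (ha : 1 ≤ a)
    (hz : z ∈ O) (heq : algebraMap K L c * g ^ p = 1 + algebraMap K L (π ^ a) * z) :
    ∃ (C : K) (g₁ : L), C ∈ A ∧ C ∈ FK ∧ g₁ ∈ Fx ∧ g₁ ∈ O ∧
      algebraMap K L C * (1 + algebraMap K L (π ^ 1) * g₁) ^ p =
        1 + algebraMap K L (π ^ a) * z := by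
  obtain ⟨n, hGO, hGr⟩ := h.disc g hg hg0
  set G := algebraMap K L (π ^ (-n)) * g with hG
  have hGF : G ∈ Fx := Fx.mul_mem (h.fx_c (FK.zpow_mem h.fk_pi _)) hg
  set R := 1 + algebraMap K L (π ^ a) * z with hR
  have hRO : R ∈ O := O.add_mem O.one_mem (O.mul_mem (h.oc (h.pow_pi_mem a)) hz)
  have hRr : r R = 1 := by
    rw [hR, h.r_add O.one_mem (O.mul_mem (h.oc (h.pow_pi_mem a)) hz),
      h.r_mul (h.oc (h.pow_pi_mem a)) hz, h.r_small (h.pow_pi_small ha), zero_mul, add_zero,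
      h.r_one]
  set c1 := c * (π ^ n) ^ p with hc1
  have hc1F : c1 ∈ FK := FK.mul_mem hc (FK.pow_mem (FK.zpow_mem h.fk_pi _) _)
  have heq1 : algebraMap K L c1 * G ^ p = R := by
    have h1 : algebraMap K L (π ^ n) * algebraMap K L (π ^ (-n)) = 1 := by
      rw [← map_mul, ← zpow_add₀ h.pi_ne, add_neg_cancel, zpow_zero, map_one]
    calc algebraMap K L c1 * G ^ p
        = algebraMap K L c * g ^ p * (algebraMap K L (π ^ n) * algebraMap K L (π ^ (-n))) ^ p := by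
          rw [hc1, hG, map_mul, map_pow]; ring
      _ = R := by rw [h1, one_pow, mul_one, heq]
  have hGp : r (G ^ p) ≠ 0 := by rw [h.r_pow hGO]; exact pow_ne_zero _ hGr
  have hG0 : G ^ p ≠ 0 := by
    intro h0; rw [h0] at hGp; exact hGp h.r_zero
  have hc1A : c1 ∈ A := by
    apply h.of_c
    have : algebraMap K L c1 = R * (G ^ p)⁻¹ := by rw [← heq1]; field_simp
    rw [this]; exact O.mul_mem hRO (h.inv (O.pow_mem hGO p) hGp)
  have h1 : r (algebraMap K L c1) * r G ^ p = 1 := by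
    rw [← h.r_pow hGO, ← h.r_mul (h.oc hc1A) (O.pow_mem hGO p), heq1, hRr]
  obtain ⟨e, he⟩ := h.frob (r G) (IsLocalRing.residue A ⟨c1, hc1A⟩)⁻¹ (by
    rw [map_inv₀, ← h.r_c hc1A]; exact eq_inv_of_mul_eq_one_right h1)
  obtain ⟨γ, hγA, hγF, hγr⟩ := h.lift e
  have hγ := h.unit_of_r_ne (a := γ) (by rw [hγr, ← he]; exact hGr)
  obtain ⟨g', hg'F, hg'O, hg'⟩ := h.div (x := G - algebraMap K L γ)
    (Fx.sub_mem hGF (h.fx_c hγF)) (O.sub_mem hGO (h.oc hγA))
    (by rw [h.r_sub hGO (h.oc hγA), hγr, ← he, sub_self])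
  refine ⟨c1 * γ ^ p, algebraMap K L γ⁻¹ * g', mul_mem hc1A (pow_mem hγA p),
    FK.mul_mem hc1F (FK.pow_mem hγF p), Fx.mul_mem (h.fx_c (FK.inv_mem hγF)) hg'F,
    O.mul_mem (h.oc hγ.2) hg'O, ?_⟩
  rw [← heq1]
  have hγ0 : algebraMap K L γ ≠ 0 := by rw [Ne, map_eq_zero]; exact hγ.1
  have h2 : G = algebraMap K L γ *
      (1 + algebraMap K L (π ^ 1) * (algebraMap K L γ⁻¹ * g')) := by
    rw [pow_one, map_inv₀]
    field_simp
    linear_combination hg'
  conv_rhs => rw [h2]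
  rw [map_mul, map_pow, mul_pow]
  ring

/-- the induction step. -/
theorem step {w : K} {e' P : ℕ} (hP : p = P + 1) (hP1 : 1 ≤ P) (hw : w ^ P = -(p : K))
    (hu : w * (π ^ e')⁻¹ ∈ A) {z : L} {a b : ℕ} (hz : z ∈ O) (hb : 1 ≤ b) (hba : p * b < a)
    (hae : a < p * e')
    (hcl : ∃ (C : K) (g₁ : L), C ∈ A ∧ C ∈ FK ∧ g₁ ∈ Fx ∧ g₁ ∈ O ∧
      algebraMap K L C * (1 + algebraMap K L (π ^ b) * g₁) ^ p =
        1 + algebraMap K L (π ^ a) * z) :
    ∃ (C : K) (g₁ : L), C ∈ A ∧ C ∈ FK ∧ g₁ ∈ Fx ∧ g₁ ∈ O ∧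
      algebraMap K L C * (1 + algebraMap K L (π ^ (b + 1)) * g₁) ^ p =
        1 + algebraMap K L (π ^ a) * z := by
  obtain ⟨C, g, hCA, hCF, hgF, hgO, heq⟩ := hcl
  have hbe : b < e' := Nat.lt_of_mul_lt_mul_left (lt_trans hba hae)
  obtain ⟨a', rfl⟩ := Nat.exists_eq_add_of_lt hba
  obtain ⟨d, hd, hpd⟩ := h.val hw hu (b := b) (m := p * b) (by
    subst hP
    have : P * (b + 1) ≤ P * e' := Nat.mul_le_mul_left P hbe
    nlinarith)
  have hpb : 1 ≤ p * b := Nat.mul_pos h.prime.pos hb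
  obtain ⟨D, hDA, hD⟩ := h.key (a' := a' + 1) (s := 0) hCA hgO hz hd hpd hpb (by rw [add_zero])
    (by rw [← add_assoc]; exact heq)
  rw [h.r_small (h.pow_pi_small (Nat.le_add_left 1 a')), zero_mul, pow_zero, map_one, h.r_one,
    one_mul, zero_sub] at hD
  obtain ⟨e, he⟩ := h.frob (r g) (-(IsLocalRing.residue A ⟨D, hDA⟩))
    (by rw [map_neg, ← h.r_c hDA, hD, neg_neg])
  obtain ⟨c5, hc5A, hc5F, hc5r⟩ := h.lift e
  obtain ⟨g', hg'F, hg'O, hg'⟩ := h.div (x := g - algebraMap K L c5)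
    (Fx.sub_mem hgF (h.fx_c hc5F)) (O.sub_mem hgO (h.oc hc5A))
    (by rw [h.r_sub hgO (h.oc hc5A), hc5r, ← he, sub_self])
  set v := 1 + π ^ b * c5 with hv
  have hvA : v ∈ A := add_mem A.one_mem (mul_mem (h.pow_pi_mem b) hc5A)
  have hvF : v ∈ FK := FK.add_mem FK.one_mem (FK.mul_mem (FK.pow_mem h.fk_pi b) hc5F)
  have hvr : r (algebraMap K L v) = 1 := by
    rw [hv, map_add, map_one, h.r_add O.one_mem (h.oc (mul_mem (h.pow_pi_mem b) hc5A)),
      h.r_small (mul_small (h.pow_pi_small hb) hc5A), add_zero, h.r_one]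
  have hv1 := h.unit_of_r_ne (a := v) (by rw [hvr]; exact one_ne_zero)
  refine ⟨C * v ^ p, algebraMap K L v⁻¹ * g', mul_mem hCA (pow_mem hvA p),
    FK.mul_mem hCF (FK.pow_mem hvF p), Fx.mul_mem (h.fx_c (FK.inv_mem hvF)) hg'F,
    O.mul_mem (h.oc hv1.2) hg'O, ?_⟩
  rw [← heq]
  have hv0 : algebraMap K L v ≠ 0 := by rw [Ne, map_eq_zero]; exact hv1.1
  have h2 : 1 + algebraMap K L (π ^ b) * g = algebraMap K L v *
      (1 + algebraMap K L (π ^ (b + 1)) * (algebraMap K L v⁻¹ * g')) := by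
    rw [map_inv₀]
    field_simp
    rw [hv]
    simp only [map_add, map_mul, map_pow, map_one, pow_succ]
    linear_combination (algebraMap K L π) ^ b * hg'
  rw [h2, map_mul, map_pow, mul_pow]
  ring

/-- the end of the induction. -/
theorem final {w : K} {e' P : ℕ} (hP : p = P + 1) (hP1 : 1 ≤ P) (hw : w ^ P = -(p : K))
    (hu : w * (π ^ e')⁻¹ ∈ A) {z : L} {a j : ℕ} (hz : z ∈ O) (ha : 1 ≤ a) (hja : p * j < a)
    (haj : a ≤ p * (j + 1)) (hae : a < p * e')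
    (hcl : ∃ (C : K) (g₁ : L), C ∈ A ∧ C ∈ FK ∧ g₁ ∈ Fx ∧ g₁ ∈ O ∧
      algebraMap K L C * (1 + algebraMap K L (π ^ (j + 1)) * g₁) ^ p =
        1 + algebraMap K L (π ^ a) * z) :
    ∃ (c₀ : IsLocalRing.ResidueField A) (x : L), x ∈ Fx ∧ x ∈ O ∧
      r z = algebraMap (IsLocalRing.ResidueField A) M c₀ + (if p ∣ a then r x ^ p else 0) := by
  obtain ⟨C, g, hCA, hCF, hgF, hgO, heq⟩ := hcl
  have hje : j < e' := Nat.lt_of_mul_lt_mul_left (lt_trans hja hae)
  obtain ⟨d, hd, hpd⟩ := h.val hw hu (b := j + 1) (m := a) (by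
    subst hP
    rcases Nat.lt_or_ge (j + 1) e' with h1 | h1
    · have : P * (j + 1 + 1) ≤ P * e' := Nat.mul_le_mul_left P h1
      nlinarith
    · have : e' = j + 1 := by omega
      subst this
      nlinarith)
  obtain ⟨s, hs⟩ := Nat.exists_eq_add_of_le haj
  obtain ⟨D, hDA, hD⟩ := h.key (a' := 0) (s := s) hCA hgO hz hd hpd ha hs
    (by rw [add_zero]; exact heq)
  rw [pow_zero, map_one, h.r_one, one_mul] at hD
  rcases Nat.eq_zero_or_pos s with rfl | hs0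
  · refine ⟨IsLocalRing.residue A ⟨D, hDA⟩, g, hgF, hgO, ?_⟩
    rw [pow_zero, map_one, h.r_one, one_mul] at hD
    rw [if_pos ⟨j + 1, by rw [hs, add_zero]⟩, ← h.r_c hDA, hD]
    ring
  · refine ⟨IsLocalRing.residue A ⟨D, hDA⟩, 0, Fx.zero_mem, O.zero_mem, ?_⟩
    rw [h.r_small (h.pow_pi_small hs0), zero_mul, sub_zero] at hD
    rw [← h.r_c hDA, hD, h.r_zero, zero_pow h.prime.ne_zero, ite_self, add_zero]

/-- **the abstract form of (B1).** -/
theorem main {w : K} {e' : ℕ} (hw : w ^ (p - 1) = -(p : K)) (hu : w * (π ^ e')⁻¹ ∈ A)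
    {c : K} {g z : L} {a : ℕ} (hc : c ∈ FK) (hg0 : g ≠ 0) (hg : g ∈ Fx) (ha : 1 ≤ a)
    (hae : a < p * e') (hz : z ∈ O)
    (heq : algebraMap K L c * g ^ p = 1 + algebraMap K L (π ^ a) * z) :
    ∃ (c₀ : IsLocalRing.ResidueField A) (x : L), x ∈ Fx ∧ x ∈ O ∧
      r z = algebraMap (IsLocalRing.ResidueField A) M c₀ + (if p ∣ a then r x ^ p else 0) := by
  obtain ⟨P, hP⟩ : ∃ P, p = P + 1 := ⟨p - 1, by have := h.prime.pos; omega⟩
  have hP1 : 1 ≤ P := by have := h.prime.two_le; omega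
  have hw' : w ^ P = -(p : K) := by
    have : p - 1 = P := by omega
    rw [← this]; exact hw
  have hind : ∀ j : ℕ, p * j < a → ∃ (C : K) (g₁ : L), C ∈ A ∧ C ∈ FK ∧ g₁ ∈ Fx ∧ g₁ ∈ O ∧
      algebraMap K L C * (1 + algebraMap K L (π ^ (j + 1)) * g₁) ^ p =
        1 + algebraMap K L (π ^ a) * z := by
    intro j
    induction j with
    | zero => intro _; exact h.start hc hg0 hg ha hz heq
    | succ j ih =>
      intro hj
      have hj' : p * j < a := lt_of_le_of_lt (Nat.mul_le_mul_left p (Nat.le_succ j)) hj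
      exact h.step hP hP1 hw' hu hz (Nat.le_add_left 1 j) hj hae (ih hj')
  have hp := h.prime.pos
  have h1 : p * ((a - 1) / p) < a := by
    have := Nat.mul_div_le (a - 1) p
    omega
  have h2 : a ≤ p * ((a - 1) / p + 1) := by
    have := Nat.lt_mul_div_succ (a - 1) hp
    omega
  exact h.final hP hP1 hw' hu hz ha h1 h2 hae (hind _ h1)

end B1_Ctx

/-! ### the concrete setting -/

/-- the ring of Gauss-integral series. -/
def B1_O (hApi : Stmt_GOApi) (A : ValuationSubring Qbar) : Subring (LaurentSeries Qbar) where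
  carrier := {x | GO A x}
  mul_mem' := fun {x y} hx hy => ((hApi A).1 x y hx hy).2.1
  one_mem' := by
    have := ((hApi A).2.1 1 A.one_mem).1
    rwa [cst, map_one] at this
  add_mem' := fun {x y} hx hy => ((hApi A).1 x y hx hy).1
  zero_mem' := by
    have := ((hApi A).2.1 0 A.zero_mem).1
    rwa [cst, map_zero] at this
  neg_mem' := fun {x} hx => ((hApi A).1 x x hx hx).2.2.1

/-- the fixed field `ℚ̄^H`. -/
def B1_FK (H : Subgroup GQ) : Subfield Qbar where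
  carrier := {a | FixK H a}
  mul_mem' := fun {x y} hx hy σ hσ => by rw [map_mul, hx σ hσ, hy σ hσ]
  one_mem' := fun σ _ => map_one σ
  add_mem' := fun {x y} hx hy σ hσ => by rw [map_add, hx σ hσ, hy σ hσ]
  zero_mem' := fun σ _ => map_zero σ
  neg_mem' := fun {x} hx σ hσ => by rw [map_neg, hx σ hσ]
  inv_mem' := fun x hx σ hσ => by rw [map_inv₀, hx σ hσ]

/-- the fixed field `F_N^H`. -/
def B1_FF (N : ℕ) (H : Subgroup GQ) : Subfield (FF N) where
  carrier := {u | FixF N H u}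
  mul_mem' := fun {x y} hx hy σ hσ => by rw [map_mul, hx σ hσ, hy σ hσ]
  one_mem' := fun σ _ => map_one (gal N σ)
  add_mem' := fun {x y} hx hy σ hσ => by rw [map_add, hx σ hσ, hy σ hσ]
  zero_mem' := fun σ _ => map_zero (gal N σ)
  neg_mem' := fun {x} hx σ hσ => by rw [map_neg, hx σ hσ]
  inv_mem' := fun x hx σ hσ => by rw [map_inv₀, hx σ hσ]

/-- the fixed field `F_N^H` inside `ℚ̄((q))`. -/
def B1_Fx (N : ℕ) (H : Subgroup GQ) : Subfield (LaurentSeries Qbar) :=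
  (B1_FF N H).map (algebraMap (FF N) (LaurentSeries Qbar))

theorem B1_mem_Fx {N : ℕ} {H : Subgroup GQ} {x : LaurentSeries Qbar} :
    x ∈ B1_Fx N H ↔ ∃ u : FF N, FixF N H u ∧ (u : LaurentSeries Qbar) = x := Iff.rfl

/-- the residue field is perfect of characteristic `p`. -/
theorem B1_frob (p : ℕ) (hp : p.Prime) (A : ValuationSubring Qbar) (hA : A.LiesOverPrime p)
    (y : LaurentSeries (kA A)) (d : kA A) (hy : y ^ p = cstk A d) : ∃ e, y = cstk A e := by
  have hchar : CharP (kA A) p := by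
    rw [CharP.charP_iff_prime_eq_zero hp]
    have h1 : ((p : A) : Qbar) ∈ A.nonunits := by
      have h0 : (p : Qbar) ∈ A.nonunits := hA
      simpa using h0
    rw [ValuationSubring.coe_mem_nonunits_iff] at h1
    have h2 := (IsLocalRing.residue_eq_zero_iff (p : A)).mpr h1
    simpa using h2
  have : Fact p.Prime := ⟨hp⟩
  have hchar' : CharP (LaurentSeries (kA A)) p :=
    charP_of_injective_algebraMap (algebraMap (kA A) (LaurentSeries (kA A))).injective p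
  obtain ⟨⟨a, ha⟩, rfl⟩ := IsLocalRing.residue_surjective d
  obtain ⟨b, hb⟩ := IsAlgClosed.exists_pow_nat_eq a hp.pos
  have hbA : b ∈ A := by
    rcases A.mem_or_inv_mem b with h1 | h1
    · exact h1
    · by_cases hb0 : b = 0
      · rw [hb0]; exact A.zero_mem
      have : b = b ^ p * b⁻¹ ^ (p - 1) := by
        obtain ⟨P, rfl⟩ : ∃ P, p = P + 1 := ⟨p - 1, by have := hp.pos; omega⟩
        rw [Nat.add_sub_cancel, pow_succ, inv_pow, mul_right_comm,
          mul_inv_cancel₀ (pow_ne_zero P hb0), one_mul]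
      rw [this, hb]
      exact mul_mem ha (pow_mem h1 _)
  refine ⟨IsLocalRing.residue A ⟨b, hbA⟩, ?_⟩
  have h3 : (y - cstk A (IsLocalRing.residue A ⟨b, hbA⟩)) ^ p = 0 := by
    rw [sub_pow_char, hy, ← map_pow, ← map_pow]
    have : (⟨b, hbA⟩ : A) ^ p = ⟨a, ha⟩ := Subtype.ext hb
    rw [this, sub_self]
  exact sub_eq_zero.1 (pow_eq_zero_iff hp.ne_zero |>.1 h3)

theorem B1_ctx (hApi : Stmt_GOApi) (hGD : Stmt_GaussDisc) (hT : Stmt_Teich)
    (p : ℕ) (hp : p.Prime) (A : ValuationSubring Qbar) (hA : A.LiesOverPrime p)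
    (H : Subgroup GQ) (π : Qbar) (hL : Lvl A H π) (N : ℕ) [NeZero N] :
    B1_Ctx (M := LaurentSeries (kA A)) A (B1_O hApi A) (rd A) (B1_FK H) (B1_Fx N H) π p where
  r_add := fun {x y} hx hy => ((hApi A).1 x y hx hy).2.2.2.1
  r_mul := fun {x y} hx hy => ((hApi A).1 x y hx hy).2.2.2.2.1
  oc := fun {a} ha => ((hApi A).2.1 a ha).1
  r_c := fun {a} ha => ((hApi A).2.1 a ha).2 ha
  inv := fun {x} hx h0 => ((hApi A).2.2.1 x hx h0).1
  of_c := fun {c} hc => (hApi A).2.2.2.2.2.1 c hc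
  fx_c := fun {c} hc => ⟨algebraMap Qbar (FF N) c, fun σ hσ => by
    show gal N σ _ = _
    have := ModularCurve.arithmeticRingAut_algebraMap (ModularCurve.modularFunctionFieldFull N) σ c
    rw [hc σ hσ] at this
    exact this, rfl⟩
  fk_pi := hL.fix
  pi_ne := hL.sm.1
  pi_sm := hL.sm.2
  disc := by
    rintro _ ⟨u, hu, rfl⟩ hu0
    exact hGD A H π hL N u (fun h => hu0 (by rw [h, map_zero])) hu
  teich := fun a ha => by
    obtain ⟨b, hb, hbF, hab⟩ := hT p hp A hA a ha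
    exact ⟨b, hb, fun σ hσ => hbF σ (hL.le hσ), hab⟩
  frob := B1_frob p hp A hA
  prime := hp

/-- **(B1)** -/
theorem stmt_B1 (hApi : Stmt_GOApi) (hGD : Stmt_GaussDisc) (hT : Stmt_Teich) : Stmt_B1 := by
  intro p hp A hA H π w e' hw hL hu N _ c g _ hc hg0 hg a z ha hae hz heq
  obtain ⟨c₀, _, ⟨x, hx, rfl⟩, hxO, hr⟩ :=
    (B1_ctx hApi hGD hT p hp A hA H π hL N).main hw hu.1 (c := c)
      (g := (g : LaurentSeries Qbar)) (z := z) (a := a) hc
      (fun h => hg0 (Subtype.ext h)) ⟨g, hg, rfl⟩ ha hae hz heq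
  exact ⟨c₀, x, hx, hxO, hr⟩

end Fermat.Agent.ORD.Dep

end
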