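import Fermat.Agent.ORD.Dep.Interface
import Fermat.Agent.INJ.Deep.Binom

/-!
# ORD / Dep / B2 : `p`-th powers near `1` over a level with uniformiser `w`
-/

set_option autoImplicit false

noncomputable section

namespace Fermat.Agent.ORD.Dep

open ModularCurve
open Fermat.Agent.S24 (Qbar FF)
open Fermat.Agent.ES.Mid (GQ gal IsDiv formalN twProd compress tw)
open Fermat.Agent.INJ.Inst (kA)

/-! ### the valuation ring -/

section Val

variable (A : ValuationSubring Qbar)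

theorem B2_res_eq_zero {a : Qbar} (ha : a ∈ A) :
    IsLocalRing.residue A ⟨a, ha⟩ = 0 ↔ a ∈ A.nonunits := by
  rw [IsLocalRing.residue_eq_zero_iff]
  exact (A.coe_mem_nonunits_iff (a := ⟨a, ha⟩)).symm

theorem B2_inv_mem {a : Qbar} (ha : a ∈ A) (h : IsLocalRing.residue A ⟨a, ha⟩ ≠ 0) : a⁻¹ ∈ A := by
  by_contra h1
  exact h ((B2_res_eq_zero A ha).2 (A.mem_nonunits_iff_or.2 (Or.inr h1)))

theorem B2_res_ne_zero {a : Qbar} (ha : a ∈ A) (h0 : a ≠ 0) (h : a⁻¹ ∈ A) :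
    IsLocalRing.residue A ⟨a, ha⟩ ≠ 0 := by
  intro h1
  rcases A.mem_nonunits_iff_or.1 ((B2_res_eq_zero A ha).1 h1) with h2 | h2
  · exact h0 h2
  · exact h2 h

theorem B2_mem_of_pow_mem {x : Qbar} {n : ℕ} (hn : n ≠ 0) (h : x ^ n ∈ A) : x ∈ A := by
  rcases A.mem_or_inv_mem x with h1 | h1
  · exact h1
  · rcases eq_or_ne x 0 with rfl | hx
    · exact A.zero_mem
    have e : x = x ^ n * (x⁻¹) ^ (n - 1) := by
      obtain ⟨m, rfl⟩ := Nat.exists_eq_succ_of_ne_zero hn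
      rw [Nat.succ_sub_one, pow_succ, inv_pow]
      field_simp
    rw [e]
    exact mul_mem h (pow_mem h1 _)

theorem B2_zpow_mem {x : Qbar} (hx : x ∈ A) {n : ℤ} (hn : 0 ≤ n) : x ^ n ∈ A := by
  obtain ⟨m, rfl⟩ := Int.eq_ofNat_of_zero_le hn
  rw [zpow_natCast]
  exact pow_mem hx m

theorem B2_charP {p : ℕ} (hp : p.Prime) (hA : A.LiesOverPrime p) : CharP (kA A) p := by
  rw [CharP.charP_iff_prime_eq_zero hp]
  have h1 : (p : Qbar) ∈ A := A.nonunits_subset hA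
  have h2 := (B2_res_eq_zero A h1).2 hA
  rw [← h2, ← map_natCast (IsLocalRing.residue A) p]
  rfl

end Val

/-! ### fixed elements -/

section Fix

variable {H : Subgroup GQ}

theorem FixK.B2_mul {a b : Qbar} (ha : FixK H a) (hb : FixK H b) : FixK H (a * b) :=
  fun σ hσ => by rw [map_mul, ha σ hσ, hb σ hσ]

theorem FixK.B2_pow {a : Qbar} (ha : FixK H a) (n : ℕ) : FixK H (a ^ n) :=
  fun σ hσ => by rw [map_pow, ha σ hσ]

theorem FixK.B2_zpow {a : Qbar} (ha : FixK H a) (n : ℤ) : FixK H (a ^ n) :=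
  fun σ hσ => by rw [map_zpow₀, ha σ hσ]

theorem FixK.B2_inv {a : Qbar} (ha : FixK H a) : FixK H a⁻¹ :=
  fun σ hσ => by rw [map_inv₀, ha σ hσ]

theorem B2_coe_const (N : ℕ) (a : Qbar) :
    ((algebraMap Qbar (FF N) a : FF N) : LaurentSeries Qbar) = cst a :=
  IntermediateField.coe_algebraMap_apply _ a

theorem B2_coe_smul (N : ℕ) (a : Qbar) (u : FF N) :
    ((algebraMap Qbar (FF N) a * u : FF N) : LaurentSeries Qbar)
      = cst a * (u : LaurentSeries Qbar) := by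
  rw [IntermediateField.coe_mul, B2_coe_const]

theorem B2_gal_const (N : ℕ) (σ : GQ) (a : Qbar) :
    gal N σ (algebraMap Qbar (FF N) a) = algebraMap Qbar (FF N) (σ a) := by
  apply Subtype.ext
  rw [Fermat.Agent.ES.Mid.coe_gal, B2_coe_const, B2_coe_const]
  exact coeffMap_algebraMap _ a

theorem B2_fix_smul {N : ℕ} {a : Qbar} {u : FF N} (ha : FixK H a) (hu : FixF N H u) :
    FixF N H (algebraMap Qbar (FF N) a * u) :=
  fun σ hσ => by rw [map_mul, B2_gal_const, ha σ hσ, hu σ hσ]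

theorem B2_fix_sub_one {N : ℕ} {u : FF N} (hu : FixF N H u) : FixF N H (u - 1) :=
  fun σ hσ => by rw [map_sub, map_one, hu σ hσ]

end Fix

/-! ### the API of `GO`, `rd` -/

section Api

variable (h : Stmt_GOApi) (A : ValuationSubring Qbar)
include h

theorem B2_go_add {x y : LaurentSeries Qbar} (hx : GO A x) (hy : GO A y) : GO A (x + y) :=
  ((h A).1 x y hx hy).1

theorem B2_go_mul {x y : LaurentSeries Qbar} (hx : GO A x) (hy : GO A y) : GO A (x * y) :=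
  ((h A).1 x y hx hy).2.1

theorem B2_go_neg {x : LaurentSeries Qbar} (hx : GO A x) : GO A (-x) :=
  ((h A).1 x x hx hx).2.2.1

theorem B2_rd_add {x y : LaurentSeries Qbar} (hx : GO A x) (hy : GO A y) :
    rd A (x + y) = rd A x + rd A y := ((h A).1 x y hx hy).2.2.2.1

theorem B2_rd_mul {x y : LaurentSeries Qbar} (hx : GO A x) (hy : GO A y) :
    rd A (x * y) = rd A x * rd A y := ((h A).1 x y hx hy).2.2.2.2.1

theorem B2_rd_neg {x : LaurentSeries Qbar} (hx : GO A x) : rd A (-x) = - rd A x :=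
  ((h A).1 x x hx hx).2.2.2.2.2

theorem B2_go_sub {x y : LaurentSeries Qbar} (hx : GO A x) (hy : GO A y) : GO A (x - y) := by
  rw [sub_eq_add_neg]; exact B2_go_add h A hx (B2_go_neg h A hy)

theorem B2_rd_sub {x y : LaurentSeries Qbar} (hx : GO A x) (hy : GO A y) :
    rd A (x - y) = rd A x - rd A y := by
  rw [sub_eq_add_neg, B2_rd_add h A hx (B2_go_neg h A hy), B2_rd_neg h A hy, sub_eq_add_neg]

theorem B2_go_cst {a : Qbar} (ha : a ∈ A) : GO A (cst a) := ((h A).2.1 a ha).1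

theorem B2_rd_cst {a : Qbar} (ha : a ∈ A) :
    rd A (cst a) = cstk A (IsLocalRing.residue A ⟨a, ha⟩) := ((h A).2.1 a ha).2 ha

theorem B2_rd_cst_small {a : Qbar} (ha : a ∈ A.nonunits) : rd A (cst a) = 0 := by
  rw [B2_rd_cst h A (A.nonunits_subset ha), (B2_res_eq_zero A _).2 ha, cstk, map_zero]

theorem B2_go_one : GO A 1 := by
  have := B2_go_cst h A A.one_mem
  rwa [cst, map_one] at this

theorem B2_rd_one : rd A 1 = 1 := by
  have := B2_rd_cst h A A.one_mem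
  rw [cst, map_one] at this
  rw [this]
  exact (congrArg (cstk A) (map_one (IsLocalRing.residue A))).trans (map_one _)

theorem B2_go_zero : GO A 0 := by
  have := B2_go_cst h A A.zero_mem
  rwa [cst, map_zero] at this

theorem B2_rd_zero : rd A 0 = 0 := by
  have := B2_rd_cst_small h A A.nonunits.zero_mem
  rwa [cst, map_zero] at this

theorem B2_go_pow {x : LaurentSeries Qbar} (hx : GO A x) (n : ℕ) : GO A (x ^ n) := by
  induction n with
  | zero => rw [pow_zero]; exact B2_go_one h A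
  | succ n ih => rw [pow_succ]; exact B2_go_mul h A ih hx

theorem B2_rd_pow {x : LaurentSeries Qbar} (hx : GO A x) (n : ℕ) : rd A (x ^ n) = rd A x ^ n := by
  induction n with
  | zero => rw [pow_zero, pow_zero]; exact B2_rd_one h A
  | succ n ih => rw [pow_succ, pow_succ, B2_rd_mul h A (B2_go_pow h A hx n) hx, ih]

theorem B2_go_inv {x : LaurentSeries Qbar} (hx : GO A x) (h0 : rd A x ≠ 0) : GO A x⁻¹ :=
  ((h A).2.2.1 x hx h0).1

theorem B2_rd_inv {x : LaurentSeries Qbar} (hx : GO A x) (h0 : rd A x ≠ 0) :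
    rd A x⁻¹ = (rd A x)⁻¹ := ((h A).2.2.1 x hx h0).2

theorem B2_mem_of_go {c : Qbar} (hc : GO A (cst c)) : c ∈ A := (h A).2.2.2.2.2.1 c hc

/-- the ring of Gauss-integral series. -/
def B2_ring : Subring (LaurentSeries Qbar) where
  carrier := {x | GO A x}
  mul_mem' hx hy := B2_go_mul h A hx hy
  one_mem' := B2_go_one h A
  add_mem' hx hy := B2_go_add h A hx hy
  zero_mem' := B2_go_zero h A
  neg_mem' hx := B2_go_neg h A hx

/-- the binomial expansion of `(1 + w x) ^ p`. -/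
theorem B2_binom {p : ℕ} (hp : p.Prime) {w : Qbar} (hw : w ^ (p - 1) = -(p : Qbar))
    (hwA : w ∈ A.nonunits) {x : LaurentSeries Qbar} (hx : GO A x) :
    ∃ z : LaurentSeries Qbar, GO A z ∧ (1 + cst w * x) ^ p = 1 + cst (w ^ p) * z ∧
      rd A z = rd A x ^ p - rd A x := by
  have hW : GO A (cst w) := B2_go_cst h A (A.nonunits_subset hwA)
  obtain ⟨r, hr, e⟩ := INJ.Deep.stmt_Binom (LaurentSeries Qbar) (B2_ring h A) p hp 1
    (B2_go_one h A) (cst w * x) (B2_go_mul h A hW hx)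
  have hr' : GO A r := hr
  have hx2 : GO A (x ^ 2 * r) := B2_go_mul h A (B2_go_pow h A hx 2) hr'
  refine ⟨x ^ p - x - cst w * (x ^ 2 * r), B2_go_sub h A (B2_go_sub h A (B2_go_pow h A hx p) hx)
    (B2_go_mul h A hW hx2), ?_, ?_⟩
  · rw [e]
    have hk : (p : LaurentSeries Qbar) * cst w = - cst w ^ p := by
      have := congrArg cst (INJ.Deep.D0_key hp hw)
      simpa [cst] using this
    have hc : cst (w ^ p) = cst w ^ p := map_pow _ _ _
    rw [hc]
    simp only [one_pow, one_mul, mul_pow]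
    linear_combination (x + cst w * x ^ 2 * r) * hk
  · rw [B2_rd_sub h A (B2_go_sub h A (B2_go_pow h A hx p) hx) (B2_go_mul h A hW hx2),
      B2_rd_sub h A (B2_go_pow h A hx p) hx, B2_rd_pow h A hx, B2_rd_mul h A hW hx2,
      B2_rd_cst_small h A hwA, zero_mul, sub_zero]

end Api

/-! ### the main argument -/

/-- an `H`-fixed Gauss-integral element with reduction `0` is divisible by the uniformiser. -/
theorem B2_div (h : Stmt_GOApi) (hD : Stmt_GaussDisc) (A : ValuationSubring Qbar)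
    {H : Subgroup GQ} {w : Qbar} (hL : Lvl A H w) (N : ℕ) [NeZero N] (u : FF N)
    (hfix : FixF N H u) (hgo : GO A (u : LaurentSeries Qbar))
    (hrd : rd A (u : LaurentSeries Qbar) = 0) : GO A (cst w⁻¹ * (u : LaurentSeries Qbar)) := by
  rcases eq_or_ne u 0 with rfl | hu
  · rw [ZeroMemClass.coe_zero, mul_zero]; exact B2_go_zero h A
  obtain ⟨m, hm1, hm2⟩ := hD A H w hL N u hu hfix
  have hw0 : w ≠ 0 := hL.sm.1
  have hwA : w ∈ A := A.nonunits_subset hL.sm.2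
  have hm : 1 ≤ m := by
    by_contra hlt
    have h0 : 0 ≤ -m := by omega
    apply hm2
    rw [B2_rd_mul h A (B2_go_cst h A (B2_zpow_mem A hwA h0)) hgo, hrd, mul_zero]
  have e : cst w⁻¹ * (u : LaurentSeries Qbar)
      = cst (w ^ (m - 1)) * (cst (w ^ (-m)) * (u : LaurentSeries Qbar)) := by
    rw [← mul_assoc, ← map_mul, ← zpow_add₀ hw0, show m - 1 + -m = -1 by ring, zpow_neg_one]
  rw [e]
  exact B2_go_mul h A (B2_go_cst h A (B2_zpow_mem A hwA (by omega))) hm1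

/-- product of residues of constants. -/
theorem B2_cstk_mul_eq_one (A : ValuationSubring Qbar) {a b : Qbar} (ha : a ∈ A) (hb : b ∈ A)
    (hab : a * b = 1) :
    cstk A (IsLocalRing.residue A ⟨a, ha⟩) * cstk A (IsLocalRing.residue A ⟨b, hb⟩) = 1 := by
  rw [cstk, cstk, ← map_mul, ← map_mul]
  have e : (⟨a, ha⟩ * ⟨b, hb⟩ : A) = 1 := Subtype.ext hab
  rw [e, map_one, map_one]

theorem B2_cstk_pow (A : ValuationSubring Qbar) {a : Qbar} (ha : a ∈ A) (n : ℕ) :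
    cstk A (IsLocalRing.residue A ⟨a, ha⟩) ^ n
      = cstk A (IsLocalRing.residue A ⟨a ^ n, pow_mem ha n⟩) := by
  rw [cstk, cstk, ← map_pow, ← map_pow]
  rfl

/-- (B2). -/
theorem stmt_B2 (h : Stmt_GOApi) (hD : Stmt_GaussDisc) (hT : Stmt_Teich) : Stmt_B2 := by
  intro p hp A hA H w hw hL N _ c g hc hcfix hg hgfix hcg
  obtain ⟨z₀, hz₀, hX⟩ := hcg
  have hw0 : w ≠ 0 := hL.sm.1
  have hwS : w ∈ A.nonunits := hL.sm.2
  have hwA : w ∈ A := A.nonunits_subset hwS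
  have hp0 : p ≠ 0 := hp.ne_zero
  -- normalisation of `g`
  obtain ⟨n, hn1, hn2⟩ := hD A H w hL N g hg hgfix
  obtain ⟨g', hg'⟩ : ∃ g' : FF N, g' = algebraMap Qbar (FF N) (w ^ (-n)) * g := ⟨_, rfl⟩
  have hg'fix : FixF N H g' := hg' ▸ B2_fix_smul (hL.fix.B2_zpow _) hgfix
  have hg'coe : (g' : LaurentSeries Qbar) = cst (w ^ (-n)) * (g : LaurentSeries Qbar) := by
    rw [hg', B2_coe_smul]
  rw [← hg'coe] at hn1 hn2
  -- `X = c g ^ p`
  have hXgo : GO A (cst c * (g : LaurentSeries Qbar) ^ p) := by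
    rw [hX]; exact B2_go_add h A (B2_go_one h A) (B2_go_mul h A (B2_go_cst h A hwA) hz₀)
  have hXrd : rd A (cst c * (g : LaurentSeries Qbar) ^ p) = 1 := by
    rw [hX, B2_rd_add h A (B2_go_one h A) (B2_go_mul h A (B2_go_cst h A hwA) hz₀), B2_rd_one h A,
      B2_rd_mul h A (B2_go_cst h A hwA) hz₀, B2_rd_cst_small h A hwS, zero_mul, add_zero]
  -- the constant `c₁`
  obtain ⟨c₁, hc₁⟩ : ∃ c₁ : Qbar, c₁ = c * (w ^ n) ^ p := ⟨_, rfl⟩
  have hXc : cst c * (g : LaurentSeries Qbar) ^ p = cst c₁ * (g' : LaurentSeries Qbar) ^ p := by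
    rw [hg'coe, mul_pow, ← mul_assoc, ← map_pow, ← map_mul, hc₁, mul_assoc, ← mul_pow,
      ← zpow_add₀ hw0, add_neg_cancel, zpow_zero, one_pow, mul_one]
  have hGp : GO A ((g' : LaurentSeries Qbar) ^ p) := B2_go_pow h A hn1 p
  have hGprd : rd A ((g' : LaurentSeries Qbar) ^ p) = rd A (g' : LaurentSeries Qbar) ^ p :=
    B2_rd_pow h A hn1 p
  have hGp0 : rd A ((g' : LaurentSeries Qbar) ^ p) ≠ 0 := by rw [hGprd]; exact pow_ne_zero _ hn2
  have hG'0 : (g' : LaurentSeries Qbar) ^ p ≠ 0 := by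
    intro h0; rw [h0] at hGp0; exact hGp0 (B2_rd_zero h A)
  have hc₁eq : cst c₁ = (cst c * (g : LaurentSeries Qbar) ^ p) * ((g' : LaurentSeries Qbar) ^ p)⁻¹ := by
    rw [hXc, mul_assoc, mul_inv_cancel₀ hG'0, mul_one]
  have hc₁go : GO A (cst c₁) := by
    rw [hc₁eq]; exact B2_go_mul h A hXgo (B2_go_inv h A hGp hGp0)
  have hc₁A : c₁ ∈ A := B2_mem_of_go h A hc₁go
  have hc₁rd : cstk A (IsLocalRing.residue A ⟨c₁, hc₁A⟩) * rd A (g' : LaurentSeries Qbar) ^ p = 1 := by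
    rw [← B2_rd_cst h A hc₁A, ← hGprd, ← B2_rd_mul h A hc₁go hGp, ← hXc, hXrd]
  have hc₁res : IsLocalRing.residue A ⟨c₁, hc₁A⟩ ≠ 0 := by
    intro h0; rw [h0, cstk, map_zero, zero_mul] at hc₁rd; exact zero_ne_one hc₁rd
  have hc₁inv : c₁⁻¹ ∈ A := B2_inv_mem A hc₁A hc₁res
  have hc₁0 : c₁ ≠ 0 := hc₁ ▸ mul_ne_zero hc (pow_ne_zero _ (zpow_ne_zero _ hw0))
  -- the constant `γ`
  obtain ⟨γ₀, hγ₀⟩ := IsAlgClosed.exists_pow_nat_eq c₁⁻¹ hp.pos
  have hγ₀A : γ₀ ∈ A := B2_mem_of_pow_mem A hp0 (hγ₀ ▸ hc₁inv)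
  have hγ₀0 : γ₀ ≠ 0 := by
    rintro rfl; rw [zero_pow hp0] at hγ₀; exact inv_ne_zero hc₁0 hγ₀.symm
  have hγ₀inv : γ₀⁻¹ ∈ A := B2_mem_of_pow_mem A hp0 (by rw [inv_pow, hγ₀, inv_inv]; exact hc₁A)
  obtain ⟨γ, hγA, hγfix, hγγ⟩ := hT p hp A hA γ₀ hγ₀A
  have hres : IsLocalRing.residue A ⟨γ, hγA⟩ = IsLocalRing.residue A ⟨γ₀, hγ₀A⟩ := by
    have h1 : IsLocalRing.residue A (⟨γ₀, hγ₀A⟩ - ⟨γ, hγA⟩) = 0 :=
      (B2_res_eq_zero A (sub_mem hγ₀A hγA)).2 hγγ
    rw [map_sub, sub_eq_zero] at h1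
    exact h1.symm
  have hγres : IsLocalRing.residue A ⟨γ, hγA⟩ ≠ 0 := by
    rw [hres]; exact B2_res_ne_zero A hγ₀A hγ₀0 hγ₀inv
  have hγinv : γ⁻¹ ∈ A := B2_inv_mem A hγA hγres
  have hγ0 : γ ≠ 0 := by
    rintro rfl; exact hγres (map_zero _)
  have hγfixH : FixK H γ := fun σ hσ => hγfix σ (hL.le hσ)
  -- the reduction of `g'` is the constant `γ`
  have hrdG' : rd A (g' : LaurentSeries Qbar) = cstk A (IsLocalRing.residue A ⟨γ, hγA⟩) := by
    have : Fact p.Prime := ⟨hp⟩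
    have : CharP (kA A) p := B2_charP A hp hA
    have : CharP (LaurentSeries (kA A)) p :=
      charP_of_injective_algebraMap (algebraMap (kA A) (LaurentSeries (kA A))).injective p
    apply frobenius_inj (LaurentSeries (kA A)) p
    show rd A (g' : LaurentSeries Qbar) ^ p = cstk A _ ^ p
    have h1 : cstk A (IsLocalRing.residue A ⟨c₁, hc₁A⟩)
        * cstk A (IsLocalRing.residue A ⟨γ₀, hγ₀A⟩) ^ p = 1 := by
      rw [B2_cstk_pow]
      exact B2_cstk_mul_eq_one A _ _ (by rw [hγ₀, mul_inv_cancel₀ hc₁0])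
    have hne : cstk A (IsLocalRing.residue A ⟨c₁, hc₁A⟩) ≠ 0 := left_ne_zero_of_mul_eq_one h1
    rw [hres]
    exact mul_left_cancel₀ hne (hc₁rd.trans h1.symm)
  -- `g' / γ - 1`
  obtain ⟨hh, hhh⟩ : ∃ hh : FF N, hh = algebraMap Qbar (FF N) γ⁻¹ * g' - 1 := ⟨_, rfl⟩
  have hhcoe : (hh : LaurentSeries Qbar) = cst γ⁻¹ * (g' : LaurentSeries Qbar) - 1 := by
    rw [hhh, AddSubgroupClass.coe_sub, B2_coe_smul, IntermediateField.coe_one]
  have hhfix : FixF N H hh := hhh ▸ B2_fix_sub_one (B2_fix_smul hγfixH.B2_inv hg'fix)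
  have hγg : GO A (cst γ⁻¹ * (g' : LaurentSeries Qbar)) := B2_go_mul h A (B2_go_cst h A hγinv) hn1
  have hhgo : GO A (hh : LaurentSeries Qbar) := by
    rw [hhcoe]; exact B2_go_sub h A hγg (B2_go_one h A)
  have hhrd : rd A (hh : LaurentSeries Qbar) = 0 := by
    rw [hhcoe, B2_rd_sub h A hγg (B2_go_one h A), B2_rd_mul h A (B2_go_cst h A hγinv) hn1,
      B2_rd_one h A, B2_rd_cst h A hγinv, hrdG',
      B2_cstk_mul_eq_one A hγinv hγA (inv_mul_cancel₀ hγ0), sub_self]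
  -- `g₂`
  obtain ⟨g₂, hg₂⟩ : ∃ g₂ : FF N, g₂ = algebraMap Qbar (FF N) w⁻¹ * hh := ⟨_, rfl⟩
  have hg₂coe : (g₂ : LaurentSeries Qbar) = cst w⁻¹ * (hh : LaurentSeries Qbar) := by
    rw [hg₂, B2_coe_smul]
  have hg₂fix : FixF N H g₂ := hg₂ ▸ B2_fix_smul hL.fix.B2_inv hhfix
  have hg₂go : GO A (g₂ : LaurentSeries Qbar) := by
    rw [hg₂coe]; exact B2_div h hD A hL N hh hhfix hhgo hhrd
  obtain ⟨z, hz, hze, hzrd⟩ := B2_binom h A hp hw hwS hg₂go
  refine ⟨c₁ * γ ^ p, g₂, z, ⟨mul_mem hc₁A (pow_mem hγA p), ?_⟩, ?_, hg₂fix, hg₂go, hz, ?_, hzrd⟩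
  · rw [mul_inv, ← inv_pow]; exact mul_mem hc₁inv (pow_mem hγinv p)
  · rw [hc₁]
    exact (hcfix.B2_mul ((hL.fix.B2_zpow n).B2_pow p)).B2_mul (hγfixH.B2_pow p)
  · rw [← hze, hXc]
    have e : (g' : LaurentSeries Qbar) = cst γ * (1 + cst w * (g₂ : LaurentSeries Qbar)) := by
      rw [hg₂coe, hhcoe, ← mul_assoc (cst w), ← map_mul, mul_inv_cancel₀ hw0, map_one, one_mul,
        add_sub_cancel, ← mul_assoc, ← map_mul, mul_inv_cancel₀ hγ0, map_one, one_mul]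
    have e2 : cst (c₁ * γ ^ p) = cst c₁ * cst γ ^ p := by
      unfold cst
      rw [map_mul, map_pow]
    rw [e, mul_pow, ← mul_assoc, e2]

end Fermat.Agent.ORD.Dep

end
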