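import Fermat.Agent.ORD.Dep.Interface
import Fermat.Agent.INJ.Deep.Binom

/-!
# ORD / Dep : (D-STEP) one step of Lemma D
-/

set_option autoImplicit false

noncomputable section

namespace Fermat.Agent.ORD.Dep

open ModularCurve
open Fermat.Agent.S24 (Qbar FF)
open Fermat.Agent.ES.Mid (GQ gal IsDiv formalN twProd compress tw)
open Fermat.Agent.INJ.Inst (kA)

/-! ### constants -/

theorem DS_cst_one : cst 1 = 1 := map_one _
theorem DS_cst_zero : cst 0 = 0 := map_zero _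
theorem DS_cst_mul (a b : Qbar) : cst (a * b) = cst a * cst b := map_mul _ _ _
theorem DS_cst_add (a b : Qbar) : cst (a + b) = cst a + cst b := map_add _ _ _
theorem DS_cst_sub (a b : Qbar) : cst (a - b) = cst a - cst b := map_sub _ _ _
theorem DS_cst_pow (a : Qbar) (n : ℕ) : cst (a ^ n) = cst a ^ n := map_pow _ _ _
theorem DS_cst_inv (a : Qbar) : cst a⁻¹ = (cst a)⁻¹ := map_inv₀ _ _
theorem DS_cst_natCast (n : ℕ) : cst (n : Qbar) = (n : LaurentSeries Qbar) := map_natCast _ _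
theorem DS_cst_ne_zero {a : Qbar} (h : a ≠ 0) : cst a ≠ 0 := (_root_.map_ne_zero _).2 h
theorem DS_cstk_one (A : ValuationSubring Qbar) : cstk A 1 = 1 := map_one _
theorem DS_cstk_zero (A : ValuationSubring Qbar) : cstk A 0 = 0 := map_zero _
theorem DS_cstk_pow (A : ValuationSubring Qbar) (a : kA A) (n : ℕ) :
    cstk A (a ^ n) = cstk A a ^ n := map_pow _ _ _

/-! ### `GO` with prescribed reduction -/

/-- `x` is Gauss-integral with reduction `y`. -/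
def DS_GR (A : ValuationSubring Qbar) (x : LaurentSeries Qbar) (y : LaurentSeries (kA A)) : Prop :=
  GO A x ∧ rd A x = y

theorem DS_GR_self {A : ValuationSubring Qbar} {x : LaurentSeries Qbar} (h : GO A x) :
    DS_GR A x (rd A x) := ⟨h, rfl⟩

section GR

variable (hG : Stmt_GOApi) {A : ValuationSubring Qbar}
include hG

theorem DS_add {x x' : LaurentSeries Qbar} {y y' : LaurentSeries (kA A)} (h : DS_GR A x y)
    (h' : DS_GR A x' y') : DS_GR A (x + x') (y + y') := by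
  obtain ⟨h1, -, -, h2, -, -⟩ := (hG A).1 x x' h.1 h'.1
  exact ⟨h1, by rw [h2, h.2, h'.2]⟩

theorem DS_mul {x x' : LaurentSeries Qbar} {y y' : LaurentSeries (kA A)} (h : DS_GR A x y)
    (h' : DS_GR A x' y') : DS_GR A (x * x') (y * y') := by
  obtain ⟨-, h1, -, -, h2, -⟩ := (hG A).1 x x' h.1 h'.1
  exact ⟨h1, by rw [h2, h.2, h'.2]⟩

theorem DS_neg {x : LaurentSeries Qbar} {y : LaurentSeries (kA A)} (h : DS_GR A x y) :
    DS_GR A (-x) (-y) := by
  obtain ⟨-, -, h1, -, -, h2⟩ := (hG A).1 x x h.1 h.1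
  exact ⟨h1, by rw [h2, h.2]⟩

theorem DS_sub {x x' : LaurentSeries Qbar} {y y' : LaurentSeries (kA A)} (h : DS_GR A x y)
    (h' : DS_GR A x' y') : DS_GR A (x - x') (y - y') := by
  rw [sub_eq_add_neg, sub_eq_add_neg]
  exact DS_add hG h (DS_neg hG h')

theorem DS_cst {a : Qbar} (ha : a ∈ A) :
    DS_GR A (cst a) (cstk A (IsLocalRing.residue A ⟨a, ha⟩)) :=
  ⟨((hG A).2.1 a ha).1, ((hG A).2.1 a ha).2 ha⟩

theorem DS_one : DS_GR A 1 1 := by
  have h := DS_cst hG A.one_mem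
  have e : (⟨1, A.one_mem⟩ : A) = 1 := rfl
  rwa [e, map_one, DS_cst_one, DS_cstk_one] at h

theorem DS_zero : DS_GR A 0 0 := by
  have h := DS_cst hG A.zero_mem
  have e : (⟨0, A.zero_mem⟩ : A) = 0 := rfl
  rwa [e, map_zero, DS_cst_zero, DS_cstk_zero] at h

theorem DS_small {a : Qbar} (ha : a ∈ A.nonunits) : DS_GR A (cst a) 0 := by
  obtain ⟨ha', hm⟩ := ValuationSubring.mem_nonunits_iff_exists_mem_maximalIdeal.1 ha
  have h := DS_cst hG ha'
  rwa [(IsLocalRing.residue_eq_zero_iff _).2 hm, DS_cstk_zero] at h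

theorem DS_pow {x : LaurentSeries Qbar} {y : LaurentSeries (kA A)} (h : DS_GR A x y) (n : ℕ) :
    DS_GR A (x ^ n) (y ^ n) := by
  induction n with
  | zero => rw [pow_zero, pow_zero]; exact DS_one hG
  | succ n ih => rw [pow_succ, pow_succ]; exact DS_mul hG ih h

theorem DS_inv {x : LaurentSeries Qbar} {y : LaurentSeries (kA A)} (h : DS_GR A x y)
    (hy : y ≠ 0) : DS_GR A x⁻¹ y⁻¹ := by
  obtain ⟨h1, h2⟩ := (hG A).2.2.1 x h.1 (by rw [h.2]; exact hy)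
  exact ⟨h1, by rw [h2, h.2]⟩

theorem DS_ne_zero {x : LaurentSeries Qbar} {y : LaurentSeries (kA A)} (h : DS_GR A x y)
    (hy : y ≠ 0) : x ≠ 0 := by
  rintro rfl
  exact hy (by rw [← h.2, (DS_zero hG).2])

theorem DS_mem_of_cst {c : Qbar} (h : GO A (cst c)) : c ∈ A := (hG A).2.2.2.2.2.1 c h

/-- `1 + (small) * x` reduces to `1`. -/
theorem DS_one_add {a : Qbar} (ha : a ∈ A.nonunits) {x : LaurentSeries Qbar} (hx : GO A x) :
    DS_GR A (1 + cst a * x) 1 := by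
  have h := DS_add hG (DS_one hG) (DS_mul hG (DS_small hG ha) (DS_GR_self hx))
  rwa [zero_mul, add_zero] at h

/-- the subring of Gauss-integral series. -/
def DS_ring (A : ValuationSubring Qbar) : Subring (LaurentSeries Qbar) where
  carrier := {x | GO A x}
  mul_mem' := fun hx hy => (DS_mul hG (DS_GR_self hx) (DS_GR_self hy)).1
  one_mem' := (DS_one hG).1
  add_mem' := fun hx hy => (DS_add hG (DS_GR_self hx) (DS_GR_self hy)).1
  zero_mem' := (DS_zero hG).1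
  neg_mem' := fun hx => (DS_neg hG (DS_GR_self hx)).1

end GR

/-! ### the maximal ideal -/

theorem DS_nonunits_mul {A : ValuationSubring Qbar} {a b : Qbar} (ha : a ∈ A)
    (hb : b ∈ A.nonunits) : a * b ∈ A.nonunits := by
  rw [ValuationSubring.mem_nonunits_iff_exists_mem_maximalIdeal] at hb ⊢
  obtain ⟨hb', hb''⟩ := hb
  exact ⟨mul_mem ha hb', Ideal.mul_mem_left _ ⟨a, ha⟩ hb''⟩

theorem DS_nonunits_mem {A : ValuationSubring Qbar} {b : Qbar} (hb : b ∈ A.nonunits) : b ∈ A :=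
  (ValuationSubring.mem_nonunits_iff_exists_mem_maximalIdeal.1 hb).1

theorem DS_nonunits_pow {A : ValuationSubring Qbar} {b : Qbar} (hb : b ∈ A.nonunits) {n : ℕ}
    (hn : 1 ≤ n) : b ^ n ∈ A.nonunits := by
  obtain ⟨m, rfl⟩ : ∃ m, n = m + 1 := ⟨n - 1, by omega⟩
  rw [pow_succ]
  exact DS_nonunits_mul (pow_mem (DS_nonunits_mem hb) m) hb

/-- congruent constants have the same residue. -/
theorem DS_residue_eq {A : ValuationSubring Qbar} {a b : Qbar} (ha : a ∈ A) (hb : b ∈ A)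
    (h : a - b ∈ A.nonunits) :
    IsLocalRing.residue A ⟨b, hb⟩ = IsLocalRing.residue A ⟨a, ha⟩ := by
  obtain ⟨h', hm⟩ := ValuationSubring.mem_nonunits_iff_exists_mem_maximalIdeal.1 h
  have e : (⟨a - b, h'⟩ : A) = ⟨a, ha⟩ - ⟨b, hb⟩ := rfl
  rw [e] at hm
  have := (IsLocalRing.residue_eq_zero_iff _).2 hm
  rw [map_sub, sub_eq_zero] at this
  exact this.symm

/-! ### fixed elements -/

theorem DS_gal_algebraMap (N : ℕ) (σ : GQ) (c : Qbar) :
    gal N σ (algebraMap Qbar (FF N) c) = algebraMap Qbar (FF N) (σ c) := by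
  apply Subtype.ext
  rw [ES.Mid.coe_gal]
  show coeffMap (σ : Qbar →+* Qbar) (algebraMap Qbar (LaurentSeries Qbar) c)
    = algebraMap Qbar (LaurentSeries Qbar) (σ c)
  rw [algebraMap_laurentSeries_eq_single, algebraMap_laurentSeries_eq_single, coeffMap_single]
  rfl

section Fix

variable {N : ℕ} {H : Subgroup GQ}

theorem DS_fixF_cst {c : Qbar} (h : FixK H c) : FixF N H (algebraMap Qbar (FF N) c) :=
  fun σ hσ => by rw [DS_gal_algebraMap, h σ hσ]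

theorem DS_fixF_one : FixF N H 1 := fun _ _ => map_one _

theorem DS_fixF_add {x y : FF N} (hx : FixF N H x) (hy : FixF N H y) : FixF N H (x + y) :=
  fun σ hσ => by rw [map_add, hx σ hσ, hy σ hσ]

theorem DS_fixF_sub {x y : FF N} (hx : FixF N H x) (hy : FixF N H y) : FixF N H (x - y) :=
  fun σ hσ => by rw [map_sub, hx σ hσ, hy σ hσ]

theorem DS_fixF_mul {x y : FF N} (hx : FixF N H x) (hy : FixF N H y) : FixF N H (x * y) :=
  fun σ hσ => by rw [map_mul, hx σ hσ, hy σ hσ]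

theorem DS_fixF_pow {x : FF N} (hx : FixF N H x) (n : ℕ) : FixF N H (x ^ n) :=
  fun σ hσ => by rw [map_pow, hx σ hσ]

theorem DS_fixF_inv {x : FF N} (hx : FixF N H x) : FixF N H x⁻¹ :=
  fun σ hσ => by rw [map_inv₀, hx σ hσ]

theorem DS_fixF_le {H' : Subgroup GQ} (h : H ≤ H') {x : FF N} (hx : FixF N H' x) : FixF N H x :=
  fun σ hσ => hx σ (h hσ)

theorem DS_fixK_le {H' : Subgroup GQ} (h : H ≤ H') {x : Qbar} (hx : FixK H' x) : FixK H x :=
  fun σ hσ => hx σ (h hσ)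

theorem DS_fixK_one : FixK H 1 := fun _ _ => map_one _

theorem DS_fixK_add {x y : Qbar} (hx : FixK H x) (hy : FixK H y) : FixK H (x + y) :=
  fun σ hσ => by rw [map_add, hx σ hσ, hy σ hσ]

theorem DS_fixK_mul {x y : Qbar} (hx : FixK H x) (hy : FixK H y) : FixK H (x * y) :=
  fun σ hσ => by rw [map_mul, hx σ hσ, hy σ hσ]

theorem DS_fixK_pow {x : Qbar} (hx : FixK H x) (n : ℕ) : FixK H (x ^ n) :=
  fun σ hσ => by rw [map_pow, hx σ hσ]

theorem DS_fixK_inv {x : Qbar} (hx : FixK H x) : FixK H x⁻¹ :=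
  fun σ hσ => by rw [map_inv₀, hx σ hσ]

end Fix

/-! ### divisibility by the uniformiser -/

theorem DS_div (hG : Stmt_GOApi) (hD : Stmt_GaussDisc) {A : ValuationSubring Qbar}
    {H : Subgroup GQ} {w : Qbar} (hL : Lvl A H w) {N : ℕ} [NeZero N] (x : FF N)
    (hx : FixF N H x) (h0 : DS_GR A (x : LaurentSeries Qbar) 0) :
    ∃ y : LaurentSeries Qbar, GO A y ∧ (x : LaurentSeries Qbar) = cst w * y := by
  by_cases hx0 : x = 0
  · exact ⟨0, (DS_zero hG).1, by rw [hx0, mul_zero]; rfl⟩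
  have hw0 : w ≠ 0 := hL.sm.1
  have hwA : w ∈ A := DS_nonunits_mem hL.sm.2
  obtain ⟨n, h1, h2⟩ := hD A H w hL N x hx0 hx
  have hn : 1 ≤ n := by
    by_contra hn
    obtain ⟨m, hm⟩ : ∃ m : ℕ, -n = m := ⟨(-n).toNat, by omega⟩
    rw [hm, zpow_natCast] at h2
    have := DS_mul hG (DS_cst hG (pow_mem hwA m)) h0
    exact h2 (by rw [this.2, mul_zero])
  obtain ⟨m, hm⟩ : ∃ m : ℕ, n = m + 1 := ⟨(n - 1).toNat, by omega⟩
  refine ⟨cst (w ^ m) * (cst (w ^ (-n)) * (x : LaurentSeries Qbar)),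
    (DS_mul hG (DS_cst hG (pow_mem hwA m)) (DS_GR_self h1)).1, ?_⟩
  rw [← mul_assoc, ← mul_assoc, ← DS_cst_mul, ← DS_cst_mul]
  have e : w * w ^ m * w ^ (-n) = 1 := by
    rw [hm, zpow_neg, ← pow_succ', ← zpow_natCast]
    push_cast
    exact mul_inv_cancel₀ (zpow_ne_zero _ hw0)
  rw [e, DS_cst_one, one_mul]

/-! ### reductions -/

theorem DS_V_cstk (A : ValuationSubring Qbar) (p : ℕ) [NeZero p] (c : kA A) :
    qExpand (kA A) p (cstk A c) = cstk A c := by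
  unfold cstk
  rw [algebraMap_laurentSeries_eq_single, qExpand_single, mul_zero]

theorem DS_charP (A : ValuationSubring Qbar) {p : ℕ} (hp : p.Prime) (hA : A.LiesOverPrime p) :
    CharP (LaurentSeries (kA A)) p := by
  have h0 : CharP (kA A) p := by
    rw [CharP.charP_iff_prime_eq_zero hp]
    have h1 : ((p : A) : Qbar) ∈ A.nonunits := by
      have h0 : (p : Qbar) ∈ A.nonunits := hA
      simpa using h0
    rw [ValuationSubring.coe_mem_nonunits_iff] at h1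
    have h2 := (IsLocalRing.residue_eq_zero_iff (p : A)).mpr h1
    simpa using h2
  exact charP_of_injective_algebraMap (algebraMap (kA A) (LaurentSeries (kA A))).injective p

/-! ### the common part -/

theorem DS_common (hG : Stmt_GOApi) (hKD : Stmt_KD) (hC1 : Stmt_C1) (hB2 : Stmt_B2)
    (hNM : Stmt_NMem) {p : ℕ} [NeZero p] (hp : p.Prime) {A : ValuationSubring Qbar}
    (hA : A.LiesOverPrime p) {H : Subgroup GQ} {w : Qbar} (hw : w ^ (p - 1) = -(p : Qbar))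
    (hL : Lvl A H w) {N : ℕ} [NeZero N] (hpN : ¬ p ∣ N) {ζ : Qbarˣ} (hζ : IsPrimitiveRoot ζ p)
    (u f : FF N) (a : ℕ) (ha1 : 1 ≤ a) (hu : FixF N H u) (hf : GO A (f : LaurentSeries Qbar))
    (huf : (u : LaurentSeries Qbar) = 1 + cst (w ^ a) * (f : LaurentSeries Qbar)) (g : FF N)
    (hg : formalN p ζ (u : LaurentSeries Qbar) = (g : LaurentSeries Qbar) ^ p) :
    ∃ (c' : Qbar) (g₂ : FF N) (z z' : LaurentSeries Qbar), UnitA A c' ∧
      GO A (g₂ : LaurentSeries Qbar) ∧ GO A z ∧ GO A z' ∧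
      1 + cst (w ^ a) * z' = cst c' * (1 + cst (w ^ p) * z) ∧
      rd A z' = qExpand (kA A) p (rd A (f : LaurentSeries Qbar)) ∧
      rd A z = rd A (g₂ : LaurentSeries Qbar) ^ p - rd A (g₂ : LaurentSeries Qbar) := by
  have hw0 : w ≠ 0 := hL.sm.1
  have hwn : w ∈ A.nonunits := hL.sm.2
  have hwA : w ∈ A := DS_nonunits_mem hwn
  have hsm : Sm A (w ^ a) := ⟨pow_ne_zero _ hw0, DS_nonunits_pow hwn ha1⟩
  obtain ⟨z', hz', hN, hrz'⟩ := hC1 p hp A hA ζ hζ (w ^ a) hsm _ hf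
  rw [← huf] at hN
  obtain ⟨v, hv, -, hvH⟩ := hNM N p hp hpN ζ hζ u
  have hv1 : DS_GR A (v : LaurentSeries Qbar) 1 := by
    rw [hv, hN]; exact DS_one_add hG hsm.2 hz'
  have hv0 : v ≠ 0 := by
    intro h0
    exact DS_ne_zero hG hv1 one_ne_zero (by rw [h0]; rfl)
  have hvg : v = g ^ p := Subtype.ext (by rw [hv, hg]; rfl)
  have hg0 : g ≠ 0 := by
    rintro rfl
    rw [zero_pow hp.ne_zero] at hvg
    exact hv0 hvg
  obtain ⟨c₁, g₀, hc₁, hc₁H, hg₀, hg₀H, hvc⟩ := hKD N p H v g hp.pos hg0 (hvH H hu) hvg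
  have hvc' : cst c₁ * (g₀ : LaurentSeries Qbar) ^ p = 1 + cst (w ^ a) * z' := by
    rw [← hN, ← hv, hvc]; rfl
  have hcg : Cg A w (cst c₁ * (g₀ : LaurentSeries Qbar) ^ p) 1 := by
    refine ⟨cst (w ^ (a - 1)) * z',
      (DS_mul hG (DS_cst hG (pow_mem hwA (a - 1))) (DS_GR_self hz')).1, ?_⟩
    rw [hvc', ← mul_assoc, ← DS_cst_mul, ← pow_succ', Nat.sub_add_cancel ha1]
  obtain ⟨c', g₂, z, hc', -, -, hg₂, hz, he, hrz⟩ := hB2 p hp A hA H w hw hL N c₁ g₀ hc₁ hc₁H hg₀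
    hg₀H hcg
  exact ⟨c', g₂, z, z', hc', hg₂, hz, hz', by rw [← hvc', he], hrz', hrz⟩

/-! ### the case `a < p` -/

theorem DS_case1 (hG : Stmt_GOApi) (hD : Stmt_GaussDisc) (hT : Stmt_Teich) {p : ℕ} [NeZero p]
    (hp : p.Prime) {A : ValuationSubring Qbar} (hA : A.LiesOverPrime p) {H : Subgroup GQ}
    {w : Qbar} (hL : Lvl A H w) {N : ℕ} [NeZero N] (u f : FF N) (a : ℕ) (ha1 : 1 ≤ a)
    (hap : a < p) (hfH : FixF N H f) (hf : GO A (f : LaurentSeries Qbar))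
    (huf : (u : LaurentSeries Qbar) = 1 + cst (w ^ a) * (f : LaurentSeries Qbar))
    (c' : Qbar) (z z' : LaurentSeries Qbar) (hc' : UnitA A c') (hz : GO A z) (hz' : GO A z')
    (hE : 1 + cst (w ^ a) * z' = cst c' * (1 + cst (w ^ p) * z))
    (hrz' : rd A z' = qExpand (kA A) p (rd A (f : LaurentSeries Qbar))) :
    ∃ (c : Qbar) (g : FF N), c ≠ 0 ∧ FixK H c ∧ g ≠ 0 ∧ FixF N H g ∧
      Cg A (w ^ (a + 1)) (cst c * (u : LaurentSeries Qbar) * (g : LaurentSeries Qbar) ^ p) 1 := by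
  have hw0 : w ≠ 0 := hL.sm.1
  have hwn : w ∈ A.nonunits := hL.sm.2
  have hW0 : cst w ≠ 0 := DS_cst_ne_zero hw0
  have hsmall : c' * w ^ (p - a) ∈ A.nonunits :=
    DS_nonunits_mul hc'.1 (DS_nonunits_pow hwn (by omega))
  have e1 : cst ((c' - 1) * (w ^ a)⁻¹) = z' - cst (c' * w ^ (p - a)) * z := by
    have hWp : cst w ^ p = cst w ^ a * cst w ^ (p - a) := by
      rw [← pow_add]; congr 1; omega
    simp only [DS_cst_mul, DS_cst_sub, DS_cst_one, DS_cst_inv, DS_cst_pow] at hE ⊢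
    have hWa : cst w ^ a ≠ 0 := pow_ne_zero _ hW0
    field_simp
    linear_combination (-1 : LaurentSeries Qbar) * hE - cst c' * z * hWp
  have h2 : DS_GR A (cst ((c' - 1) * (w ^ a)⁻¹)) (qExpand (kA A) p (rd A (f : LaurentSeries Qbar))) := by
    rw [e1]
    have := DS_sub hG (DS_GR_self hz') (DS_mul hG (DS_small hG hsmall) (DS_GR_self hz))
    rwa [zero_mul, sub_zero, hrz'] at this
  have hκ : (c' - 1) * (w ^ a)⁻¹ ∈ A := DS_mem_of_cst hG h2.1
  have h3 : rd A (f : LaurentSeries Qbar) = cstk A (IsLocalRing.residue A ⟨_, hκ⟩) := by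
    apply (qExpand (kA A) p).injective
    rw [DS_V_cstk, ← h2.2, (DS_cst hG hκ).2]
  obtain ⟨b, hbA, hbI, hb⟩ := hT p hp A hA _ hκ
  have hbH : FixK H b := DS_fixK_le hL.le hbI
  have h4 : DS_GR A ((f - algebraMap Qbar (FF N) b : FF N) : LaurentSeries Qbar) 0 := by
    have := DS_sub hG (DS_GR_self hf) (DS_cst hG hbA)
    rw [h3, DS_residue_eq hκ hbA hb, sub_self] at this
    exact this
  obtain ⟨y, hy, hxy⟩ := DS_div hG hD hL _ (DS_fixF_sub hfH (DS_fixF_cst hbH)) h4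
  have hxy' : (f : LaurentSeries Qbar) = cst b + cst w * y := by
    rw [← hxy]
    show (f : LaurentSeries Qbar) = cst b + ((f : LaurentSeries Qbar) - cst b)
    ring
  have h5 : DS_GR A (cst (1 + w ^ a * b)) 1 := by
    have := DS_one_add hG (DS_nonunits_pow hwn ha1) (DS_cst hG hbA).1
    rwa [← DS_cst_mul, ← DS_cst_one, ← DS_cst_add] at this
  have h50 : cst (1 + w ^ a * b) ≠ 0 := DS_ne_zero hG h5 one_ne_zero
  have h6 : 1 + w ^ a * b ≠ 0 := by
    intro h0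
    rw [h0, DS_cst_zero] at h50
    exact h50 rfl
  have h7 := DS_inv hG h5 one_ne_zero
  rw [← DS_cst_inv] at h7
  refine ⟨(1 + w ^ a * b)⁻¹, 1, inv_ne_zero h6,
    DS_fixK_inv (DS_fixK_add DS_fixK_one (DS_fixK_mul (DS_fixK_pow hL.fix a) hbH)), one_ne_zero,
    DS_fixF_one, cst (1 + w ^ a * b)⁻¹ * y, (DS_mul hG h7 (DS_GR_self hy)).1, ?_⟩
  show cst (1 + w ^ a * b)⁻¹ * (u : LaurentSeries Qbar) * (1 : LaurentSeries Qbar) ^ p = _
  rw [huf, hxy', one_pow, mul_one, DS_cst_inv]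
  simp only [DS_cst_mul, DS_cst_add, DS_cst_one, DS_cst_pow] at h50 ⊢
  field_simp
  ring

/-! ### the case `a = p` -/

/-- the computation in characteristic `p`. -/
theorem DS_alg {R : Type*} [CommRing R] (p : ℕ) [Fact p.Prime] [CharP R p] (hodd : Odd p)
    (V : R →+* R) (F G h Y Kc : R) (hK : V Kc = Kc) (R1 : Kc = V F - (G ^ p - G))
    (hh : h ^ p = V F) (hY : V Y = (h - G) ^ p) : V F = V ((-Y) ^ p - (-Y) + Kc ^ p) := by
  have h1 : V Y = Kc - G := by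
    rw [hY, sub_pow_char, hh, R1]; ring
  rw [map_add, map_sub, map_pow, map_pow, map_neg, hK, hodd.neg_pow, h1, sub_pow_char]
  linear_combination (-1 : R) * R1

theorem DS_case2 (hG : Stmt_GOApi) (hD : Stmt_GaussDisc) (hT : Stmt_Teich) (hLF : Stmt_LiftFix)
    (hFR : Stmt_FrobRoot) {p : ℕ} [NeZero p] (hp : p.Prime) (hp2 : p ≠ 2)
    {A : ValuationSubring Qbar} (hA : A.LiesOverPrime p) {H : Subgroup GQ}
    {w : Qbar} (hw : w ^ (p - 1) = -(p : Qbar)) (hL : Lvl A H w) {N : ℕ} [NeZero N]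
    (hpN : ¬ p ∣ N) (u f : FF N) (huH : FixF N H u) (hf : GO A (f : LaurentSeries Qbar))
    (huf : (u : LaurentSeries Qbar) = 1 + cst (w ^ p) * (f : LaurentSeries Qbar))
    (c' : Qbar) (g₂ : FF N) (z z' : LaurentSeries Qbar)
    (hg₂ : GO A (g₂ : LaurentSeries Qbar)) (hz : GO A z) (hz' : GO A z')
    (hE : 1 + cst (w ^ p) * z' = cst c' * (1 + cst (w ^ p) * z))
    (hc'A : c' ∈ A)
    (hrz' : rd A z' = qExpand (kA A) p (rd A (f : LaurentSeries Qbar)))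
    (hrz : rd A z = rd A (g₂ : LaurentSeries Qbar) ^ p - rd A (g₂ : LaurentSeries Qbar)) :
    ∃ (c : Qbar) (g : FF N), c ≠ 0 ∧ FixK H c ∧ g ≠ 0 ∧ FixF N H g ∧
      Cg A (w ^ (p + 1)) (cst c * (u : LaurentSeries Qbar) * (g : LaurentSeries Qbar) ^ p) 1 := by
  have hw0 : w ≠ 0 := hL.sm.1
  have hwn : w ∈ A.nonunits := hL.sm.2
  have hW0 : cst w ≠ 0 := DS_cst_ne_zero hw0
  have hwp : w ^ p ∈ A.nonunits := DS_nonunits_pow hwn hp.one_le
  have hWp0 : cst w ^ p ≠ 0 := pow_ne_zero _ hW0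
  have : Fact p.Prime := ⟨hp⟩
  have := DS_charP A hp hA
  have hodd : Odd p := hp.odd_of_ne_two hp2
  -- the constant `κ`
  have e1 : cst ((c' - 1) * (w ^ p)⁻¹) = z' - cst c' * z := by
    simp only [DS_cst_mul, DS_cst_sub, DS_cst_one, DS_cst_inv, DS_cst_pow] at hE ⊢
    field_simp
    linear_combination (-1 : LaurentSeries Qbar) * hE
  have hκ : (c' - 1) * (w ^ p)⁻¹ ∈ A := by
    apply DS_mem_of_cst hG
    rw [e1]
    exact (DS_sub hG (DS_GR_self hz') (DS_mul hG (DS_cst hG hc'A) (DS_GR_self hz))).1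
  have hc'1 : DS_GR A (cst c') 1 := by
    have h1 : c' = 1 + w ^ p * ((c' - 1) * (w ^ p)⁻¹) := by
      have : w ^ p ≠ 0 := pow_ne_zero _ hw0
      field_simp
      ring
    have := DS_one_add hG hwp (DS_cst hG hκ).1
    rwa [← DS_cst_mul, ← DS_cst_one, ← DS_cst_add, ← h1] at this
  have R1 : cstk A (IsLocalRing.residue A ⟨_, hκ⟩)
      = qExpand (kA A) p (rd A (f : LaurentSeries Qbar))
        - (rd A (g₂ : LaurentSeries Qbar) ^ p - rd A (g₂ : LaurentSeries Qbar)) := by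
    rw [← (DS_cst hG hκ).2, e1, (DS_sub hG (DS_GR_self hz') (DS_mul hG hc'1 (DS_GR_self hz))).2,
      hrz', hrz, one_mul]
  -- roots
  obtain ⟨⟨y, hy, hyp⟩, -⟩ := hFR p hp A hA N hpN f hf
  have hx1 : DS_GR A ((y - g₂ : FF N) : LaurentSeries Qbar)
      (rd A (y : LaurentSeries Qbar) - rd A (g₂ : LaurentSeries Qbar)) :=
    DS_sub hG (DS_GR_self hy) (DS_GR_self hg₂)
  obtain ⟨-, y', hy', hy'p⟩ := hFR p hp A hA N hpN (y - g₂) hx1.1
  rw [hx1.2] at hy'p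
  have hF : rd A (f : LaurentSeries Qbar) = (-rd A (y' : LaurentSeries Qbar)) ^ p
      - (-rd A (y' : LaurentSeries Qbar)) + cstk A (IsLocalRing.residue A ⟨_, hκ⟩) ^ p :=
    (qExpand (kA A) p).injective
      (DS_alg p hodd (qExpand (kA A) p) _ _ _ _ _ (DS_V_cstk A p _) R1 hyp hy'p)
  have hny' : DS_GR A ((-y' : FF N) : LaurentSeries Qbar) (-rd A (y' : LaurentSeries Qbar)) :=
    DS_neg hG (DS_GR_self hy')
  obtain ⟨z₀, hz₀I, hz₀, hz₀r⟩ := hLF p hp A hA N hpN (-y') hny'.1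
  rw [hny'.2] at hz₀r
  have hz₀H : FixF N H z₀ := DS_fixF_le hL.le hz₀I
  obtain ⟨c₄, hc₄A, hc₄I, hc₄⟩ := hT p hp A hA _ (pow_mem hκ p)
  have hc₄H : FixK H c₄ := DS_fixK_le hL.le hc₄I
  have hc₄r : DS_GR A (cst c₄) (cstk A (IsLocalRing.residue A ⟨_, hκ⟩) ^ p) := by
    have := DS_cst hG hc₄A
    rw [DS_residue_eq (pow_mem hκ p) hc₄A hc₄] at this
    have e : (⟨((c' - 1) * (w ^ p)⁻¹) ^ p, pow_mem hκ p⟩ : A) = ⟨_, hκ⟩ ^ p := rfl
    rwa [e, map_pow, DS_cstk_pow] at this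
  -- the binomial formula
  obtain ⟨R, hR, hbin⟩ := INJ.Deep.stmt_Binom (LaurentSeries Qbar) (DS_ring hG A) p hp 1
    (DS_ring hG A).one_mem (cst w * (z₀ : LaurentSeries Qbar))
    (DS_mul hG (DS_small hG hwn) (DS_GR_self hz₀)).1
  have hR' : GO A R := hR
  have key : (p : LaurentSeries Qbar) * cst w = - cst w ^ p := by
    have := congrArg cst (INJ.Deep.D0_key hp hw)
    rw [DS_cst_mul, DS_cst_natCast] at this
    rw [this, ← DS_cst_pow]
    exact map_neg _ _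
  obtain ⟨T, hTdef⟩ : ∃ T : LaurentSeries Qbar, T = (z₀ : LaurentSeries Qbar) ^ p
      - (z₀ : LaurentSeries Qbar) - cst w * ((z₀ : LaurentSeries Qbar) ^ 2 * R) := ⟨_, rfl⟩
  have hbin' : (1 + cst w * (z₀ : LaurentSeries Qbar)) ^ p = 1 + cst w ^ p * T := by
    rw [one_pow, one_pow, one_mul] at hbin
    rw [hbin, hTdef]
    linear_combination ((z₀ : LaurentSeries Qbar) + cst w * (z₀ : LaurentSeries Qbar) ^ 2 * R) * key
  have hTr : DS_GR A T ((-rd A (y' : LaurentSeries Qbar)) ^ p - (-rd A (y' : LaurentSeries Qbar))) := by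
    have hz₀' : DS_GR A (z₀ : LaurentSeries Qbar) (-rd A (y' : LaurentSeries Qbar)) := ⟨hz₀, hz₀r⟩
    have := DS_sub hG (DS_sub hG (DS_pow hG hz₀' p) hz₀')
      (DS_mul hG (DS_small hG hwn) (DS_mul hG (DS_pow hG hz₀' 2) (DS_GR_self hR')))
    rwa [zero_mul, sub_zero, ← hTdef] at this
  -- units
  have hD1 : DS_GR A (1 + cst (w ^ p) * cst c₄) 1 := DS_one_add hG hwp hc₄r.1
  have hD2 : DS_GR A (1 + cst (w ^ p) * T) 1 := DS_one_add hG hwp hTr.1
  have hD3 : DS_GR A (1 + cst w * (z₀ : LaurentSeries Qbar)) 1 := DS_one_add hG hwn hz₀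
  have hD10 := DS_ne_zero hG hD1 one_ne_zero
  have hD20 := DS_ne_zero hG hD2 one_ne_zero
  have hD30 := DS_ne_zero hG hD3 one_ne_zero
  have hc0 : 1 + w ^ p * c₄ ≠ 0 := by
    intro h0
    apply hD10
    rw [← DS_cst_mul, ← DS_cst_one, ← DS_cst_add, h0, DS_cst_zero]
  have hg0 : (1 + algebraMap Qbar (FF N) w * z₀ : FF N) ≠ 0 := by
    intro h0
    apply hD30
    have := congrArg (Subtype.val) h0
    exact this
  have hcH : FixK H (1 + w ^ p * c₄)⁻¹ :=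
    DS_fixK_inv (DS_fixK_add DS_fixK_one (DS_fixK_mul (DS_fixK_pow hL.fix p) hc₄H))
  have hgH : FixF N H (1 + algebraMap Qbar (FF N) w * z₀)⁻¹ :=
    DS_fixF_inv (DS_fixF_add DS_fixF_one (DS_fixF_mul (DS_fixF_cst hL.fix) hz₀H))
  -- the bracket
  obtain ⟨Bx, hBx⟩ : ∃ Bx : FF N, Bx = algebraMap Qbar (FF N) (w ^ p)⁻¹ *
      (algebraMap Qbar (FF N) (1 + w ^ p * c₄)⁻¹ * u *
        ((1 + algebraMap Qbar (FF N) w * z₀)⁻¹) ^ p - 1) := ⟨_, rfl⟩
  have hBxH : FixF N H Bx := by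
    rw [hBx]
    exact DS_fixF_mul (DS_fixF_cst (DS_fixK_inv (DS_fixK_pow hL.fix p)))
      (DS_fixF_sub (DS_fixF_mul (DS_fixF_mul (DS_fixF_cst hcH) huH) (DS_fixF_pow hgH p))
        DS_fixF_one)
  have hBxc : (Bx : LaurentSeries Qbar) = cst (w ^ p)⁻¹ *
      (cst (1 + w ^ p * c₄)⁻¹ * (u : LaurentSeries Qbar) *
        ((1 + cst w * (z₀ : LaurentSeries Qbar))⁻¹) ^ p - 1) := by
    rw [hBx]; rfl
  have hBxe : (Bx : LaurentSeries Qbar) = ((f : LaurentSeries Qbar) - cst c₄ - T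
      - cst (w ^ p) * (cst c₄ * T)) * ((1 + cst (w ^ p) * cst c₄) * (1 + cst (w ^ p) * T))⁻¹ := by
    rw [hBxc, inv_pow, hbin', huf]
    simp only [DS_cst_mul, DS_cst_add, DS_cst_one, DS_cst_pow, DS_cst_inv] at hD10 hD20 ⊢
    field_simp
    ring
  have hBx0 : DS_GR A (Bx : LaurentSeries Qbar) 0 := by
    rw [hBxe]
    have := DS_mul hG (DS_sub hG (DS_sub hG (DS_sub hG (DS_GR_self hf) hc₄r) hTr)
      (DS_mul hG (DS_small hG hwp) (DS_mul hG hc₄r hTr)))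
      (DS_inv hG (DS_mul hG hD1 hD2) (by rw [one_mul]; exact one_ne_zero))
    have e0 : (rd A (f : LaurentSeries Qbar) - cstk A (IsLocalRing.residue A ⟨_, hκ⟩) ^ p
        - ((-rd A (y' : LaurentSeries Qbar)) ^ p - (-rd A (y' : LaurentSeries Qbar)))
        - 0 * (cstk A (IsLocalRing.residue A ⟨_, hκ⟩) ^ p
          * ((-rd A (y' : LaurentSeries Qbar)) ^ p - (-rd A (y' : LaurentSeries Qbar)))))
        * ((1 : LaurentSeries (kA A)) * 1)⁻¹ = 0 := by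
      rw [hF]; ring
    rwa [e0] at this
  obtain ⟨y₁, hy₁, hBy⟩ := DS_div hG hD hL Bx hBxH hBx0
  refine ⟨(1 + w ^ p * c₄)⁻¹, (1 + algebraMap Qbar (FF N) w * z₀)⁻¹, inv_ne_zero hc0, hcH,
    inv_ne_zero hg0, hgH, y₁, hy₁, ?_⟩
  show cst (1 + w ^ p * c₄)⁻¹ * (u : LaurentSeries Qbar) *
        ((1 + cst w * (z₀ : LaurentSeries Qbar))⁻¹) ^ p = _
  rw [hBxc] at hBy
  obtain ⟨X, hX⟩ : ∃ X : LaurentSeries Qbar, X = cst (1 + w ^ p * c₄)⁻¹ *
      (u : LaurentSeries Qbar) * ((1 + cst w * (z₀ : LaurentSeries Qbar))⁻¹) ^ p := ⟨_, rfl⟩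
  rw [← hX] at hBy ⊢
  rw [DS_cst_inv, DS_cst_pow] at hBy
  rw [DS_cst_pow, pow_succ]
  have h9 : X - 1 = cst w ^ p * (cst w * y₁) := by rw [← hBy, mul_inv_cancel_left₀ hWp0]
  linear_combination h9

/-! ### the statement -/

/-- **(D-STEP)** one step of Lemma D. -/
theorem stmt_DStep (hG : Stmt_GOApi) (hD : Stmt_GaussDisc) (hT : Stmt_Teich) (hLF : Stmt_LiftFix)
    (hFR : Stmt_FrobRoot) (hKD : Stmt_KD) (hC1 : Stmt_C1) (hB2 : Stmt_B2) (hNM : Stmt_NMem) :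
    Stmt_DStep := by
  intro p _ hp hp2 A hA H w hw hL N _ hpN ζ hζ u a ha1 hap hu hcg hTu
  obtain ⟨z₀, hz₀, huz⟩ := hcg
  obtain ⟨g, hg⟩ := hTu
  have hw0 : w ≠ 0 := hL.sm.1
  have hWa : cst (w ^ a) ≠ 0 := DS_cst_ne_zero (pow_ne_zero _ hw0)
  obtain ⟨f, hfdef⟩ : ∃ f : FF N, f = algebraMap Qbar (FF N) (w ^ a)⁻¹ * (u - 1) := ⟨_, rfl⟩
  have hfz : (f : LaurentSeries Qbar) = z₀ := by
    rw [hfdef]
    show cst (w ^ a)⁻¹ * ((u : LaurentSeries Qbar) - 1) = z₀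
    rw [huz, add_sub_cancel_left, DS_cst_inv, inv_mul_cancel_left₀ hWa]
  have hfH : FixF N H f := by
    rw [hfdef]
    exact DS_fixF_mul (DS_fixF_cst (DS_fixK_inv (DS_fixK_pow hL.fix a)))
      (DS_fixF_sub hu DS_fixF_one)
  have hf : GO A (f : LaurentSeries Qbar) := by rw [hfz]; exact hz₀
  have huf : (u : LaurentSeries Qbar) = 1 + cst (w ^ a) * (f : LaurentSeries Qbar) := by
    rw [hfz]; exact huz
  obtain ⟨c', g₂, z, z', hc', hg₂, hz, hz', hE, hrz', hrz⟩ :=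
    DS_common hG hKD hC1 hB2 hNM hp hA hw hL hpN hζ u f a ha1 hu hf huf g hg
  rcases Nat.lt_or_ge a p with hlt | hge
  · exact DS_case1 hG hD hT hp hA hL u f a ha1 hlt hfH hf huf c' z z' hc' hz hz' hE hrz'
  · obtain rfl : a = p := le_antisymm hap hge
    exact DS_case2 hG hD hT hLF hFR hp hp2 hA hw hL hpN u f hu hf huf c' g₂ z z' hg₂ hz hz' hE
      hc'.1 hrz' hrz

end Fermat.Agent.ORD.Dep

end
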