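import Fermat.Agent.ORD.Dep.Interface

/-!
# ORD / Dep : (D'-END) a class with a representative `≡ 1 mod w^p` : `I` acts through `ω`
(helper59)
-/

set_option autoImplicit false

noncomputable section

namespace Fermat.Agent.ORD.Dep

open ModularCurve AlgebraicCurve
open Fermat.Agent.S24 (Qbar FF)
open Fermat.Agent.ES.Mid (GQ gal IsDiv)
open Fermat.Agent.INJ.Inst (kA)

/-! ### nonunits of `A` -/

theorem dpe_nu_add {A : ValuationSubring Qbar} {a b : Qbar} (ha : a ∈ A.nonunits)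
    (hb : b ∈ A.nonunits) : a + b ∈ A.nonunits := by
  rw [ValuationSubring.mem_nonunits_iff] at *
  exact Valuation.map_add_lt _ ha hb

theorem dpe_nu_mul {A : ValuationSubring Qbar} {a b : Qbar} (ha : a ∈ A)
    (hb : b ∈ A.nonunits) : a * b ∈ A.nonunits := by
  rw [ValuationSubring.mem_nonunits_iff] at *
  rw [map_mul]
  exact lt_of_le_of_lt (mul_le_of_le_one_left' ((A.valuation_le_one_iff a).2 ha)) hb

theorem dpe_nu_mem {A : ValuationSubring Qbar} {a : Qbar} (ha : a ∈ A.nonunits) : a ∈ A :=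
  A.nonunits_subset ha

theorem dpe_w_nu {A : ValuationSubring Qbar} {p : ℕ} (hA : A.LiesOverPrime p) {w : Qbar}
    (hw : w ^ (p - 1) = -(p : Qbar)) : w ∈ A.nonunits := by
  rw [ValuationSubring.mem_nonunits_iff]
  have h1 : A.valuation (w ^ (p - 1)) < 1 := by
    rw [hw, Valuation.map_neg]
    exact (ValuationSubring.mem_nonunits_iff A).1 hA
  rw [map_pow] at h1
  by_contra h
  exact absurd (one_le_pow₀ (not_lt.1 h)) (not_le.2 h1)

theorem dpe_w_ne {p : ℕ} (hp : p.Prime) {w : Qbar} (hw : w ^ (p - 1) = -(p : Qbar)) : w ≠ 0 := by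
  rintro rfl
  have h1 : p - 1 ≠ 0 := by have := hp.two_le; omega
  rw [zero_pow h1] at hw
  have : (p : Qbar) = 0 := by linear_combination hw
  exact hp.ne_zero (by exact_mod_cast this)

theorem dpe_fermat {A : ValuationSubring Qbar} {p : ℕ} (hp : p.Prime) (hA : A.LiesOverPrime p)
    (c : ℕ) {μ : Qbar} (hμ : μ ∈ A.nonunits) : ((c : Qbar) + μ) ^ p - c ∈ A.nonunits := by
  have hcA : (c : Qbar) ∈ A := natCast_mem A c
  have h1 : ∀ n : ℕ, ∃ t ∈ A, ((c : Qbar) + μ) ^ n = (c : Qbar) ^ n + t * μ := by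
    intro n
    induction n with
    | zero => exact ⟨0, A.zero_mem, by simp⟩
    | succ n ih =>
      obtain ⟨t, ht, e⟩ := ih
      refine ⟨(c : Qbar) ^ n + t * (c + μ),
        add_mem (pow_mem hcA n) (mul_mem ht (add_mem hcA (dpe_nu_mem hμ))), ?_⟩
      rw [pow_succ, e]
      ring
  obtain ⟨t, ht, e⟩ := h1 p
  have h2 : ((p : ℕ) : ℤ) ∣ (c : ℤ) ^ p - c := by
    have := Fact.mk hp
    rw [← ZMod.intCast_zmod_eq_zero_iff_dvd]
    push_cast
    rw [ZMod.pow_card, sub_self]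
  obtain ⟨t', ht'⟩ := h2
  have h3 : (c : Qbar) ^ p - c = (t' : Qbar) * p := by
    have := congrArg (Int.cast : ℤ → Qbar) ht'
    push_cast at this
    rw [this]
    ring
  have h4 : ((c : Qbar) + μ) ^ p - c = t * μ + (t' : Qbar) * p := by
    rw [e, ← h3]
    ring
  rw [h4]
  exact dpe_nu_add (dpe_nu_mul ht hμ) (dpe_nu_mul (intCast_mem A t') hA)

/-! ### API of `GO`, `rd` -/

theorem dpe_cst_zero : cst 0 = 0 := map_zero _

theorem dpe_cst_one : cst 1 = 1 := map_one _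

theorem dpe_cst_add (a b : Qbar) : cst (a + b) = cst a + cst b := map_add _ _ _

theorem dpe_cst_mul (a b : Qbar) : cst (a * b) = cst a * cst b := map_mul _ _ _

theorem dpe_cstk_zero (A : ValuationSubring Qbar) : cstk A 0 = 0 := map_zero _

theorem dpe_cstk_one (A : ValuationSubring Qbar) : cstk A 1 = 1 := map_one _

section api

variable (hG : Stmt_GOApi) (A : ValuationSubring Qbar)
include hG

theorem dpe_add {x y : LaurentSeries Qbar} (hx : GO A x) (hy : GO A y) : GO A (x + y) :=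
  ((hG A).1 x y hx hy).1

theorem dpe_mul {x y : LaurentSeries Qbar} (hx : GO A x) (hy : GO A y) : GO A (x * y) :=
  ((hG A).1 x y hx hy).2.1

theorem dpe_neg {x : LaurentSeries Qbar} (hx : GO A x) : GO A (-x) :=
  ((hG A).1 x x hx hx).2.2.1

theorem dpe_sub {x y : LaurentSeries Qbar} (hx : GO A x) (hy : GO A y) : GO A (x - y) := by
  rw [sub_eq_add_neg]
  exact dpe_add hG A hx (dpe_neg hG A hy)

theorem dpe_rd_add {x y : LaurentSeries Qbar} (hx : GO A x) (hy : GO A y) :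
    rd A (x + y) = rd A x + rd A y :=
  ((hG A).1 x y hx hy).2.2.2.1

theorem dpe_rd_mul {x y : LaurentSeries Qbar} (hx : GO A x) (hy : GO A y) :
    rd A (x * y) = rd A x * rd A y :=
  ((hG A).1 x y hx hy).2.2.2.2.1

theorem dpe_rd_neg {x : LaurentSeries Qbar} (hx : GO A x) : rd A (-x) = - rd A x :=
  ((hG A).1 x x hx hx).2.2.2.2.2

theorem dpe_rd_sub {x y : LaurentSeries Qbar} (hx : GO A x) (hy : GO A y) :
    rd A (x - y) = rd A x - rd A y := by
  rw [sub_eq_add_neg, dpe_rd_add hG A hx (dpe_neg hG A hy), dpe_rd_neg hG A hy, sub_eq_add_neg]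

theorem dpe_cst {a : Qbar} (ha : a ∈ A) : GO A (cst a) := ((hG A).2.1 a ha).1

theorem dpe_rd_cst {a : Qbar} (ha : a ∈ A) :
    rd A (cst a) = cstk A (IsLocalRing.residue A ⟨a, ha⟩) := ((hG A).2.1 a ha).2 ha

theorem dpe_rd_nu {a : Qbar} (ha : a ∈ A.nonunits) : rd A (cst a) = 0 := by
  obtain ⟨h, hm⟩ := ValuationSubring.mem_nonunits_iff_exists_mem_maximalIdeal.1 ha
  rw [dpe_rd_cst hG A h, (IsLocalRing.residue_eq_zero_iff _).2 hm, dpe_cstk_zero]

theorem dpe_one : GO A 1 := by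
  have := dpe_cst hG A A.one_mem
  rwa [dpe_cst_one] at this

theorem dpe_rd_one : rd A 1 = 1 := by
  have := dpe_rd_cst hG A A.one_mem
  rw [dpe_cst_one] at this
  rw [this]
  have h1 : (⟨1, A.one_mem⟩ : A) = 1 := rfl
  rw [h1, map_one, dpe_cstk_one]

theorem dpe_rd_zero : rd A 0 = 0 := by
  have h0 : (0 : Qbar) ∈ A.nonunits := by
    rw [ValuationSubring.mem_nonunits_iff, map_zero]
    exact zero_lt_one
  have := dpe_rd_nu hG A h0
  rwa [dpe_cst_zero] at this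

theorem dpe_pow {x : LaurentSeries Qbar} (hx : GO A x) (n : ℕ) :
    GO A (x ^ n) ∧ rd A (x ^ n) = rd A x ^ n := by
  induction n with
  | zero => rw [pow_zero, pow_zero]; exact ⟨dpe_one hG A, dpe_rd_one hG A⟩
  | succ n ih =>
    rw [pow_succ, pow_succ]
    exact ⟨dpe_mul hG A ih.1 hx, by rw [dpe_rd_mul hG A ih.1 hx, ih.2]⟩

/-- `(1 + x) ^ c = 1 + c x + x ^ 2 G`. -/
theorem dpe_binom {x : LaurentSeries Qbar} (hx : GO A x) (c : ℕ) :
    ∃ G : LaurentSeries Qbar, GO A G ∧ (1 + x) ^ c = 1 + cst (c : Qbar) * x + x ^ 2 * G := by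
  induction c with
  | zero =>
    refine ⟨0, ?_, by simp⟩
    have := dpe_cst hG A A.zero_mem
    rwa [dpe_cst_zero] at this
  | succ c ih =>
    obtain ⟨G, hGG, e⟩ := ih
    refine ⟨cst (c : Qbar) + G * (1 + x), dpe_add hG A (dpe_cst hG A (natCast_mem A c))
      (dpe_mul hG A hGG (dpe_add hG A (dpe_one hG A) hx)), ?_⟩
    rw [pow_succ, e, Nat.cast_succ, dpe_cst_add, dpe_cst_one]
    ring

/-- the key computation. -/
theorem dpe_key {W μ' : Qbar} (hW : W ∈ A.nonunits) (hμ' : μ' ∈ A.nonunits) (c : ℕ)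
    {f sf : LaurentSeries Qbar} (hf : GO A f) (hsf : GO A sf) (hrd : rd A sf = rd A f) :
    ∃ E' : LaurentSeries Qbar, GO A E' ∧ rd A E' = 0 ∧
      (1 + cst (W * ((c : Qbar) + μ')) * sf) * ((1 + cst W * f) ^ c)⁻¹ = 1 + cst W * E' := by
  have hWG : GO A (cst W) := dpe_cst hG A (dpe_nu_mem hW)
  have hWf : GO A (cst W * f) := dpe_mul hG A hWG hf
  obtain ⟨G, hGG, hbin⟩ := dpe_binom hG A hWf c
  have hU : GO A (1 + cst W * f) := dpe_add hG A (dpe_one hG A) hWf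
  have hrdU : rd A (1 + cst W * f) = 1 := by
    rw [dpe_rd_add hG A (dpe_one hG A) hWf, dpe_rd_mul hG A hWG hf, dpe_rd_nu hG A hW,
      dpe_rd_one hG A, zero_mul, add_zero]
  obtain ⟨hUc, hrdUc⟩ := dpe_pow hG A hU c
  rw [hrdU, one_pow] at hrdUc
  have hne : (1 + cst W * f) ^ c ≠ 0 := by
    intro h0
    rw [h0, dpe_rd_zero hG A] at hrdUc
    exact zero_ne_one hrdUc
  obtain ⟨hinv, hrdinv⟩ := (hG A).2.2.1 _ hUc (by rw [hrdUc]; exact one_ne_zero)
  have hcG : GO A (cst (c : Qbar)) := dpe_cst hG A (natCast_mem A c)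
  have hμG : GO A (cst μ') := dpe_cst hG A (dpe_nu_mem hμ')
  have h1 : GO A ((cst (c : Qbar) + cst μ') * sf) := dpe_mul hG A (dpe_add hG A hcG hμG) hsf
  have h2 : GO A (cst (c : Qbar) * f) := dpe_mul hG A hcG hf
  have h3' : GO A (f ^ 2 * G) := dpe_mul hG A (dpe_pow hG A hf 2).1 hGG
  have h3 : GO A (cst W * (f ^ 2 * G)) := dpe_mul hG A hWG h3'
  have hE : GO A ((cst (c : Qbar) + cst μ') * sf - cst (c : Qbar) * f - cst W * (f ^ 2 * G)) :=
    dpe_sub hG A (dpe_sub hG A h1 h2) h3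
  have hrdE : rd A ((cst (c : Qbar) + cst μ') * sf - cst (c : Qbar) * f - cst W * (f ^ 2 * G))
      = 0 := by
    rw [dpe_rd_sub hG A (dpe_sub hG A h1 h2) h3, dpe_rd_sub hG A h1 h2,
      dpe_rd_mul hG A (dpe_add hG A hcG hμG) hsf, dpe_rd_add hG A hcG hμG, dpe_rd_mul hG A hcG hf,
      dpe_rd_mul hG A hWG h3', dpe_rd_nu hG A hW, dpe_rd_nu hG A hμ', hrd]
    ring
  refine ⟨_, dpe_mul hG A hE hinv, ?_, ?_⟩
  · rw [dpe_rd_mul hG A hE hinv, hrdE, zero_mul]
  · have h5 : (1 : LaurentSeries Qbar) = (1 + cst W * f) ^ c * ((1 + cst W * f) ^ c)⁻¹ :=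
      (mul_inv_cancel₀ hne).symm
    have h6 : 1 + cst (W * ((c : Qbar) + μ')) * sf = (1 + cst W * f) ^ c + cst W *
        ((cst (c : Qbar) + cst μ') * sf - cst (c : Qbar) * f - cst W * (f ^ 2 * G)) := by
      rw [hbin, dpe_cst_mul, dpe_cst_add]
      ring
    rw [h6, add_mul, ← h5]
    ring

end api

/-! ### closure properties of `IsDiv` -/

theorem dpe_isDiv_mul {N m : ℕ} {u v : FF N} (hu : IsDiv N m u) (hv : IsDiv N m v) :
    IsDiv N m (u * v) :=
  ⟨mul_ne_zero hu.1 hv.1, fun P => by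
    rw [Place.ord_mul P hu.1 hv.1]; exact dvd_add (hu.2 P) (hv.2 P)⟩

theorem dpe_isDiv_inv {N m : ℕ} {u : FF N} (hu : IsDiv N m u) : IsDiv N m u⁻¹ :=
  ⟨inv_ne_zero hu.1, fun P => by
    rw [Place.ord_inv]; exact (dvd_neg).2 (hu.2 P)⟩

theorem dpe_isDiv_pow {N m : ℕ} {u : FF N} (hu : IsDiv N m u) (n : ℕ) : IsDiv N m (u ^ n) := by
  induction n with
  | zero =>
    rw [pow_zero]
    exact ⟨one_ne_zero, fun P => by rw [Place.ord_one]; exact dvd_zero _⟩
  | succ n ih => rw [pow_succ]; exact dpe_isDiv_mul ih hu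

theorem dpe_isDiv_gal {N m : ℕ} {u : FF N} (hu : IsDiv N m u) (σ : GQ) :
    IsDiv N m (gal N σ u) :=
  ⟨(map_ne_zero_iff _ (gal N σ).injective).2 hu.1, fun P => by
    set g := ModularCurve.arithmeticGalois (ModularCurve.modularFunctionFieldFull N) σ with hg
    have h1 : P = g • (g⁻¹ • P) := by rw [smul_inv_smul]
    have h2 : gal N σ u = g • u := rfl
    rw [h1, h2, SemilinearAut.ord_smul]
    exact hu.2 _⟩

/-! ### the statement -/

theorem stmt_D'End (hAFF : Stmt_AFF) (hT : Stmt_Tame) (hG : Stmt_GOApi) : Stmt_D'End := by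
  intro p hp hp2 A hA N _ hN w hw u hu hcg s hs c hc
  obtain ⟨f, hf, huf⟩ := hcg
  have hw0 : w ≠ 0 := dpe_w_ne hp hw
  have hwnu : w ∈ A.nonunits := dpe_w_nu hA hw
  have hWnu : w ^ p ∈ A.nonunits := by
    obtain ⟨k, rfl⟩ : ∃ k, p = k + 1 := ⟨p - 1, by have := hp.two_le; omega⟩
    rw [pow_succ]
    exact dpe_nu_mul (pow_mem (dpe_nu_mem hwnu) k) hwnu
  have hW0 : w ^ p ≠ 0 := pow_ne_zero _ hw0
  have hμnu : s w * w⁻¹ - (c : Qbar) ∈ A.nonunits := hT p hp A hA w hw s hs c hc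
  have hμ'nu := dpe_fermat hp hA c hμnu
  have hswp : s w ^ p = w ^ p * ((c : Qbar) + (((c : Qbar) + (s w * w⁻¹ - (c : Qbar))) ^ p - c)) := by
    have : (c : Qbar) + (s w * w⁻¹ - (c : Qbar)) = s w * w⁻¹ := by ring
    rw [this, mul_pow, inv_pow]
    field_simp
    ring
  obtain ⟨hsf, hrd⟩ := (hG A).2.2.2.2.2.2 s hs f hf
  obtain ⟨E', hE', hrdE', heq⟩ := dpe_key hG A hWnu hμ'nu c hf hsf hrd
  rw [← hswp] at heq
  have hycoe : ((gal N s u * (u ^ c)⁻¹ : FF N) : LaurentSeries Qbar) = 1 + cst (w ^ p) * E' := by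
    rw [← heq, IntermediateField.coe_mul, IntermediateField.coe_inv, IntermediateField.coe_pow,
      Fermat.Agent.ES.Mid.coe_gal, huf, map_add, map_one, map_mul, coeffMap_algebraMap]
    simp
  have hydiv : IsDiv N p (gal N s u * (u ^ c)⁻¹) :=
    dpe_isDiv_mul (dpe_isDiv_gal hu s) (dpe_isDiv_inv (dpe_isDiv_pow hu c))
  have huc : u ^ c ≠ 0 := pow_ne_zero _ hu.1
  have hcW : cst (w ^ p) ≠ 0 := by
    rw [Ne, map_eq_zero]
    exact hW0
  have hecoe : (((gal N s u * (u ^ c)⁻¹ - 1) * (algebraMap Qbar (FF N) (w ^ p))⁻¹ : FF N) :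
      LaurentSeries Qbar) = E' := by
    rw [IntermediateField.coe_mul, AddSubgroupClass.coe_sub, hycoe, IntermediateField.coe_inv,
      IntermediateField.coe_one]
    have : ((algebraMap Qbar (FF N) (w ^ p) : FF N) : LaurentSeries Qbar) = cst (w ^ p) := rfl
    rw [this]
    field_simp
    ring
  by_cases he : (gal N s u * (u ^ c)⁻¹ - 1) * (algebraMap Qbar (FF N) (w ^ p))⁻¹ = 0
  · refine ⟨1, ?_⟩
    have h1 : gal N s u * (u ^ c)⁻¹ - 1 = 0 := by
      rcases mul_eq_zero.1 he with h | h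
      · exact h
      · exfalso
        rw [inv_eq_zero, map_eq_zero] at h
        exact hW0 h
    rw [one_pow, mul_one]
    have h2 : gal N s u * (u ^ c)⁻¹ = 1 := by linear_combination h1
    rw [← mul_one (u ^ c), ← h2]
    field_simp
  · obtain ⟨π', hπ', z, hz, hez⟩ := (hG A).2.2.2.2.1 N _ he (by rw [hecoe]; exact hE')
      (by rw [hecoe]; exact hrdE')
    rw [hecoe, zero_add] at hez
    obtain ⟨g, hg⟩ := hAFF p hp hp2 A hA N hN w π' hw hπ' _ hydiv
      ⟨z, hz, by rw [hycoe, hez, dpe_cst_mul]; ring⟩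
    refine ⟨g, ?_⟩
    rw [hg]
    field_simp

end Fermat.Agent.ORD.Dep

end
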