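import Fermat.Agent.ORD.Dep.Interface
import Fermat.Agent.ES.Mid.HF3

/-!
# ORD / Dep : one step of Lemma D' (`Stmt_D'Step`)

`u = 1 + π^a f`, `1 ≤ a < p e'`, `T_p^J u = u g^p`.  Then `c u g^p ≡ 1 mod π^(a+1)` for suitable
`c`, `g` over the same level.
-/

set_option autoImplicit false

noncomputable section

namespace Fermat.Agent.ORD.Dep.DpStep

open ModularCurve
open Fermat.Agent.S24 (Qbar FF)
open Fermat.Agent.ES.Mid (GQ gal IsDiv formalN twProd compress tw)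
open Fermat.Agent.INJ.Inst (kA)

local notation "LS" => LaurentSeries Qbar

/-! ### constants -/

theorem cst_zero : cst 0 = 0 := map_zero _
theorem cst_one : cst 1 = 1 := map_one _
theorem cst_mul (a b : Qbar) : cst (a * b) = cst a * cst b := map_mul _ _ _
theorem cst_add (a b : Qbar) : cst (a + b) = cst a + cst b := map_add _ _ _
theorem cst_neg (a : Qbar) : cst (-a) = -cst a := map_neg _ _
theorem cst_pow (a : Qbar) (n : ℕ) : cst (a ^ n) = cst a ^ n := map_pow _ _ _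
theorem cst_inv (a : Qbar) : cst a⁻¹ = (cst a)⁻¹ := map_inv₀ _ _
theorem cst_natCast (n : ℕ) : cst (n : Qbar) = (n : LS) := map_natCast _ _
theorem cst_ne_zero {a : Qbar} (ha : a ≠ 0) : cst a ≠ 0 :=
  (map_ne_zero_iff _ (algebraMap Qbar LS).injective).2 ha

theorem cstk_zero (A : ValuationSubring Qbar) : cstk A 0 = 0 := map_zero _
theorem cstk_one (A : ValuationSubring Qbar) : cstk A 1 = 1 := map_one _
theorem cstk_neg (A : ValuationSubring Qbar) (a : kA A) : cstk A (-a) = -cstk A a := map_neg _ _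

/-! ### the calculus of reductions -/

/-- `x` is Gauss-integral with reduction `X`. -/
def Red (A : ValuationSubring Qbar) (x : LS) (X : LaurentSeries (kA A)) : Prop :=
  GO A x ∧ rd A x = X

section Api

variable (hG : Stmt_GOApi) {A : ValuationSubring Qbar}

include hG

theorem Red.add {x y : LS} {X Y : LaurentSeries (kA A)} (hx : Red A x X) (hy : Red A y Y) :
    Red A (x + y) (X + Y) := by
  obtain ⟨h1, -, -, h4, -, -⟩ := (hG A).1 x y hx.1 hy.1
  exact ⟨h1, by rw [h4, hx.2, hy.2]⟩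

theorem Red.mul {x y : LS} {X Y : LaurentSeries (kA A)} (hx : Red A x X) (hy : Red A y Y) :
    Red A (x * y) (X * Y) := by
  obtain ⟨-, h2, -, -, h5, -⟩ := (hG A).1 x y hx.1 hy.1
  exact ⟨h2, by rw [h5, hx.2, hy.2]⟩

theorem Red.neg {x : LS} {X : LaurentSeries (kA A)} (hx : Red A x X) : Red A (-x) (-X) := by
  obtain ⟨-, -, h3, -, -, h6⟩ := (hG A).1 x x hx.1 hx.1
  exact ⟨h3, by rw [h6, hx.2]⟩

theorem Red.sub {x y : LS} {X Y : LaurentSeries (kA A)} (hx : Red A x X) (hy : Red A y Y) :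
    Red A (x - y) (X - Y) := by
  rw [sub_eq_add_neg, sub_eq_add_neg]
  exact Red.add hG hx (Red.neg hG hy)

theorem red_cst {a : Qbar} (ha : a ∈ A) :
    Red A (cst a) (cstk A (IsLocalRing.residue A ⟨a, ha⟩)) :=
  ⟨((hG A).2.1 a ha).1, ((hG A).2.1 a ha).2 ha⟩

theorem red_one : Red A 1 1 := by
  have h := red_cst hG (A := A) A.one_mem
  have e1 : (⟨1, A.one_mem⟩ : A) = 1 := rfl
  rw [e1, map_one, cst_one, cstk_one] at h
  exact h

theorem red_zero : Red A 0 0 := by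
  have h := red_cst hG (A := A) A.zero_mem
  have e1 : (⟨0, A.zero_mem⟩ : A) = 0 := rfl
  rw [e1, map_zero, cst_zero, cstk_zero] at h
  exact h

theorem red_small {a : Qbar} (ha : a ∈ A.nonunits) : Red A (cst a) 0 := by
  obtain ⟨ha', hm⟩ := ValuationSubring.mem_nonunits_iff_exists_mem_maximalIdeal.1 ha
  have h := red_cst hG ha'
  rw [(IsLocalRing.residue_eq_zero_iff _).2 hm, cstk_zero] at h
  exact h

theorem Red.pow {x : LS} {X : LaurentSeries (kA A)} (hx : Red A x X) (n : ℕ) :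
    Red A (x ^ n) (X ^ n) := by
  induction n with
  | zero => rw [pow_zero, pow_zero]; exact red_one hG
  | succ n ih => rw [pow_succ, pow_succ]; exact Red.mul hG ih hx

theorem Red.inv {x : LS} {X : LaurentSeries (kA A)} (hx : Red A x X) (hX : X ≠ 0) :
    Red A x⁻¹ X⁻¹ := by
  obtain ⟨h1, h2⟩ := (hG A).2.2.1 x hx.1 (by rw [hx.2]; exact hX)
  exact ⟨h1, by rw [h2, hx.2]⟩

theorem Red.ne_zero {x : LS} {X : LaurentSeries (kA A)} (hx : Red A x X) (hX : X ≠ 0) :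
    x ≠ 0 := by
  rintro rfl
  exact hX (hx.2.symm.trans (red_zero hG).2)

/-- `1 + c z ≡ 1`. -/
theorem red_one_add {c : Qbar} (hc : c ∈ A.nonunits) {z : LS} (hz : GO A z) :
    Red A (1 + cst c * z) 1 := by
  have h := Red.add hG (red_one hG) (Red.mul hG (red_small hG hc) ⟨hz, rfl⟩)
  rwa [zero_mul, add_zero] at h

end Api

theorem Red.congr {A : ValuationSubring Qbar} {x : LS} {X Y : LaurentSeries (kA A)}
    (hx : Red A x X) (h : X = Y) : Red A x Y := h ▸ hx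

/-! ### fixed elements -/

section Fix

variable {H : Subgroup GQ} {N : ℕ}

theorem fixK_one : FixK H 1 := fun σ _ => map_one σ

theorem fixK_mul {a b : Qbar} (ha : FixK H a) (hb : FixK H b) : FixK H (a * b) := fun σ hσ => by
  rw [map_mul, ha σ hσ, hb σ hσ]

theorem fixK_add {a b : Qbar} (ha : FixK H a) (hb : FixK H b) : FixK H (a + b) := fun σ hσ => by
  rw [map_add, ha σ hσ, hb σ hσ]

theorem fixK_pow {a : Qbar} (ha : FixK H a) (n : ℕ) : FixK H (a ^ n) := fun σ hσ => by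
  rw [map_pow, ha σ hσ]

theorem fixK_inv {a : Qbar} (ha : FixK H a) : FixK H a⁻¹ := fun σ hσ => by
  rw [map_inv₀, ha σ hσ]

theorem fixK_mono {H' : Subgroup GQ} (h : H ≤ H') {a : Qbar} (ha : FixK H' a) : FixK H a :=
  fun σ hσ => ha σ (h hσ)

theorem fixF_one : FixF N H 1 := fun σ _ => map_one (gal N σ)

theorem fixF_mul {x y : FF N} (hx : FixF N H x) (hy : FixF N H y) : FixF N H (x * y) :=
  fun σ hσ => by rw [map_mul, hx σ hσ, hy σ hσ]

theorem fixF_add {x y : FF N} (hx : FixF N H x) (hy : FixF N H y) : FixF N H (x + y) :=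
  fun σ hσ => by rw [map_add, hx σ hσ, hy σ hσ]

theorem fixF_sub {x y : FF N} (hx : FixF N H x) (hy : FixF N H y) : FixF N H (x - y) :=
  fun σ hσ => by rw [map_sub, hx σ hσ, hy σ hσ]

theorem fixF_pow {x : FF N} (hx : FixF N H x) (n : ℕ) : FixF N H (x ^ n) :=
  fun σ hσ => by rw [map_pow, hx σ hσ]

theorem fixF_inv {x : FF N} (hx : FixF N H x) : FixF N H x⁻¹ :=
  fun σ hσ => by rw [map_inv₀, hx σ hσ]

theorem fixF_mono {H' : Subgroup GQ} (h : H ≤ H') {x : FF N} (hx : FixF N H' x) : FixF N H x :=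
  fun σ hσ => hx σ (h hσ)

theorem fixF_const {c : Qbar} (hc : FixK H c) : FixF N H (algebraMap Qbar (FF N) c) :=
  fun σ hσ => by
    have h : gal N σ (algebraMap Qbar (FF N) c) = algebraMap Qbar (FF N) (σ c) :=
      ModularCurve.arithmeticRingAut_algebraMap (ModularCurve.modularFunctionFieldFull N) σ c
    rw [h, hc σ hσ]

theorem coe_const (c : Qbar) : ((algebraMap Qbar (FF N) c : FF N) : LS) = cst c := rfl

/-- if `v = 1 + c z` with `v ∈ F_N` then `z ∈ F_N`. -/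
theorem exists_FF (v : FF N) {c : Qbar} (hc : c ≠ 0) {z : LS} (h : (v : LS) = 1 + cst c * z) :
    ∃ zF : FF N, (zF : LS) = z ∧ (FixK H c → FixF N H v → FixF N H zF) := by
  refine ⟨(v - 1) * algebraMap Qbar (FF N) c⁻¹, ?_, fun h1 h2 =>
    fixF_mul (fixF_sub h2 fixF_one) (fixF_const (fixK_inv h1))⟩
  have hc' : cst c ≠ 0 := cst_ne_zero hc
  show ((v : LS) - 1) * cst c⁻¹ = z
  rw [h, cst_inv]
  field_simp
  ring

end Fix

/-! ### series with `x(q^Q) - x(q)` constant -/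

section Expand

variable {k : Type*} [Field k]

theorem algebraMap_eq_C (c : k) : algebraMap k (LaurentSeries k) c = HahnSeries.C c := by
  have h1 : algebraMap k (PowerSeries k) c = PowerSeries.C c := by simp
  rw [HahnSeries.algebraMap_apply', h1, HahnSeries.ofPowerSeries_C]

theorem coeff_algebraMap_of_ne (c : k) {m : ℤ} (hm : m ≠ 0) :
    (algebraMap k (LaurentSeries k) c).coeff m = 0 := by
  rw [algebraMap_eq_C, HahnSeries.C_apply, HahnSeries.coeff_single_of_ne hm]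

theorem coeff_algebraMap_zero (c : k) : (algebraMap k (LaurentSeries k) c).coeff 0 = c := by
  rw [algebraMap_eq_C, HahnSeries.C_apply, HahnSeries.coeff_single_same]

theorem const_of_expand (Q : ℕ) [NeZero Q] (hQ : 2 ≤ Q) (F : LaurentSeries k) (c₀ : k)
    (h : qExpand k Q F - F = algebraMap k (LaurentSeries k) c₀) :
    F = algebraMap k (LaurentSeries k) (F.coeff 0) := by
  have key : ∀ (n : ℕ) (m : ℤ), m.natAbs = n → m ≠ 0 → F.coeff m = 0 := by
    intro n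
    induction n using Nat.strong_induction_on with
    | _ n ih =>
      intro m hmn hm
      have h1 : (qExpand k Q F).coeff m - F.coeff m = 0 := by
        have h2 := congrArg (fun x => HahnSeries.coeff x m) h
        simp only [HahnSeries.coeff_sub] at h2
        rw [h2, coeff_algebraMap_of_ne c₀ hm]
      by_cases hd : (Q : ℤ) ∣ m
      · obtain ⟨m', rfl⟩ := hd
        rw [qExpand_coeff_mul] at h1
        have hm' : m' ≠ 0 := by rintro rfl; exact hm (mul_zero _)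
        have hlt : m'.natAbs < n := by
          rw [← hmn, Int.natAbs_mul, Int.natAbs_natCast]
          have : 0 < m'.natAbs := Int.natAbs_pos.2 hm'
          nlinarith
        rw [ih _ hlt m' rfl hm'] at h1
        linear_combination -h1
      · rw [qExpand_coeff_of_not_dvd Q F hd] at h1
        linear_combination -h1
  ext m
  by_cases hm : m = 0
  · subst hm; rw [coeff_algebraMap_zero]
  · rw [key _ m rfl hm, coeff_algebraMap_of_ne _ hm]

end Expand

/-! ### the binomial formula inside the Gauss-integral series -/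

/-- the ring of Gauss-integral series. -/
def goSub (hG : Stmt_GOApi) (A : ValuationSubring Qbar) : Subring LS where
  carrier := {x | GO A x}
  mul_mem' hx hy := ((hG A).1 _ _ hx hy).2.1
  one_mem' := (red_one hG).1
  add_mem' hx hy := ((hG A).1 _ _ hx hy).1
  zero_mem' := (red_zero hG).1
  neg_mem' hx := ((hG A).1 _ _ hx hx).2.2.1

theorem binom (hG : Stmt_GOApi) {A : ValuationSubring Qbar} {p : ℕ} (hp : p.Prime) {x : LS}
    (hx : GO A x) : ∃ r : LS, GO A r ∧ (1 + x) ^ p = 1 + x ^ p + (p : LS) * x * r := by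
  obtain ⟨r, hr⟩ := exists_add_pow_prime_eq hp (1 : goSub hG A) ⟨x, hx⟩
  refine ⟨r, r.2, ?_⟩
  have h := congrArg Subtype.val hr
  simpa using h

/-! ### divisibility by the uniformiser -/

theorem div_pi (hG : Stmt_GOApi) (hGD : Stmt_GaussDisc) {A : ValuationSubring Qbar}
    {H : Subgroup GQ} {π : Qbar} (hL : Lvl A H π) {N : ℕ} [NeZero N] (b : FF N)
    (hfix : FixF N H b) (hb : Red A (b : LS) 0) : ∃ z : LS, GO A z ∧ (b : LS) = cst π * z := by
  by_cases hb0 : b = 0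
  · exact ⟨0, (red_zero hG).1, by rw [hb0, mul_zero]; rfl⟩
  obtain ⟨n, h1, h2⟩ := hGD A H π hL N b hb0 hfix
  have hπ0 : π ≠ 0 := hL.sm.1
  have hπA : π ∈ A := A.nonunits_subset hL.sm.2
  have hn : 1 ≤ n := by
    by_contra hn
    push Not at hn
    obtain ⟨k, hk⟩ : ∃ k : ℕ, -n = k := ⟨(-n).toNat, by omega⟩
    rw [hk, zpow_natCast] at h2
    exact h2 ((Red.mul hG (red_cst hG (A.pow_mem hπA k)) hb).2.trans (mul_zero _))
  obtain ⟨k, hk⟩ : ∃ k : ℕ, n = k + 1 := ⟨(n - 1).toNat, by omega⟩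
  refine ⟨cst (π ^ k) * (cst (π ^ (-n)) * b),
    (Red.mul hG (red_cst hG (A.pow_mem hπA k)) ⟨h1, rfl⟩).1, ?_⟩
  rw [← mul_assoc, ← mul_assoc, ← cst_mul, ← cst_mul]
  have h3 : π * π ^ k * π ^ (-n) = 1 := by
    rw [hk, zpow_neg, ← pow_succ', ← zpow_natCast]
    push_cast
    exact mul_inv_cancel₀ (zpow_ne_zero _ hπ0)
  rw [h3, cst_one, one_mul]

/-! ### Teichmüller lifts -/

theorem teich (hG : Stmt_GOApi) (hTe : Stmt_Teich) {p : ℕ} (hp : p.Prime)
    {A : ValuationSubring Qbar} (hA : A.LiesOverPrime p) (κ : kA A) :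
    ∃ b ∈ A, FixK (A.inertiaSubgroupIn ℚ) b ∧ Red A (cst b) (cstk A κ) := by
  obtain ⟨a₀, rfl⟩ := IsLocalRing.residue_surjective κ
  obtain ⟨b, hb, hfix, hd⟩ := hTe p hp A hA a₀ a₀.2
  refine ⟨b, hb, hfix, ?_⟩
  have h := red_cst hG hb
  obtain ⟨hd', hm⟩ := ValuationSubring.mem_nonunits_iff_exists_mem_maximalIdeal.1 hd
  have e : IsLocalRing.residue A ⟨b, hb⟩ = IsLocalRing.residue A a₀ := by
    have h0 := (IsLocalRing.residue_eq_zero_iff _).2 hm
    have e1 : (⟨(a₀ : Qbar) - b, hd'⟩ : A) = a₀ - ⟨b, hb⟩ := rfl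
    rw [e1, map_sub, sub_eq_zero] at h0
    exact h0.symm
  rwa [e] at h

theorem pow_mem_nonunits {A : ValuationSubring Qbar} {x : Qbar} (hx : x ∈ A.nonunits) {n : ℕ}
    (hn : 1 ≤ n) : x ^ n ∈ A.nonunits := by
  rw [ValuationSubring.mem_nonunits_iff, map_pow]
  exact pow_lt_one₀ zero_le ((ValuationSubring.mem_nonunits_iff A).1 hx) (by omega)

/-! ### the last step : dividing by a constant and a `p`-th power -/

theorem finish (hG : Stmt_GOApi) (hGD : Stmt_GaussDisc) {A : ValuationSubring Qbar}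
    {H : Subgroup GQ} {π : Qbar} (hL : Lvl A H π) {N : ℕ} [NeZero N] (u : FF N) (a : ℕ)
    (ha1 : 1 ≤ a) (hfu : FixF N H u) {f : LS} (hf : GO A f) (huf : (u : LS) = 1 + cst (π ^ a) * f)
    (p : ℕ) (hp0 : p ≠ 0) (G : FF N) (hGfix : FixF N H G) {t : LS} (ht : GO A t)
    (hGt : (G : LS) ^ p = 1 + cst (π ^ a) * t) {c6 : Qbar} (hc6 : c6 ∈ A) (hc6fix : FixK H c6)
    (hrd : rd A f = rd A (cst c6) + rd A t) :
    ∃ (c : Qbar) (g : FF N), c ≠ 0 ∧ FixK H c ∧ g ≠ 0 ∧ FixF N H g ∧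
      Cg A (π ^ (a + 1)) (cst c * (u : LS) * (g : LS) ^ p) 1 := by
  have hπ0 : π ≠ 0 := hL.sm.1
  have hπa : π ^ a ∈ A.nonunits := pow_mem_nonunits hL.sm.2 ha1
  have hEr : Red A (cst (π ^ a)) 0 := red_small hG hπa
  have hc6r : Red A (cst c6) (rd A (cst c6)) := ⟨(red_cst hG hc6).1, rfl⟩
  have htr : Red A t (rd A t) := ⟨ht, rfl⟩
  have hfr : Red A f (rd A f) := ⟨hf, rfl⟩
  have hC : cst (1 + π ^ a * c6) = 1 + cst (π ^ a) * cst c6 := by rw [cst_add, cst_one, cst_mul]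
  have hCr : Red A (1 + cst (π ^ a) * cst c6) 1 := red_one_add hG hπa hc6r.1
  have hC0' : 1 + cst (π ^ a) * cst c6 ≠ 0 := Red.ne_zero hG hCr one_ne_zero
  have hC0 : 1 + π ^ a * c6 ≠ 0 := by
    intro h0
    rw [← hC, h0, cst_zero] at hC0'
    exact hC0' rfl
  have hGr : Red A (1 + cst (π ^ a) * t) 1 := red_one_add hG hπa ht
  have hGp0 : 1 + cst (π ^ a) * t ≠ 0 := Red.ne_zero hG hGr one_ne_zero
  have hG0 : G ≠ 0 := by
    rintro rfl
    apply hGp0
    rw [← hGt]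
    exact zero_pow hp0
  have hDr : Red A ((1 + cst (π ^ a) * cst c6) * (1 + cst (π ^ a) * t)) 1 :=
    (Red.mul hG hCr hGr).congr (one_mul 1)
  have hbr : Red A ((f - cst c6 - t - cst (π ^ a) * cst c6 * t)
      * ((1 + cst (π ^ a) * cst c6) * (1 + cst (π ^ a) * t))⁻¹) 0 := by
    have h1 := Red.mul hG (Red.sub hG (Red.sub hG (Red.sub hG hfr hc6r) htr)
      (Red.mul hG (Red.mul hG hEr hc6r) htr)) (Red.inv hG hDr one_ne_zero)
    refine h1.congr ?_
    rw [hrd]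
    ring
  have hXc : ((algebraMap Qbar (FF N) (1 + π ^ a * c6)⁻¹ * u * G⁻¹ ^ p : FF N) : LS)
      = cst (1 + π ^ a * c6)⁻¹ * (u : LS) * ((G⁻¹ : FF N) : LS) ^ p := rfl
  have hGinv : ((G⁻¹ : FF N) : LS) = (G : LS)⁻¹ := rfl
  have hX : ((algebraMap Qbar (FF N) (1 + π ^ a * c6)⁻¹ * u * G⁻¹ ^ p : FF N) : LS)
      = 1 + cst (π ^ a) * ((f - cst c6 - t - cst (π ^ a) * cst c6 * t)
      * ((1 + cst (π ^ a) * cst c6) * (1 + cst (π ^ a) * t))⁻¹) := by
    rw [hXc, hGinv, cst_inv, inv_pow, huf, hC, hGt]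
    field_simp
    ring
  have hcfix : FixK H (1 + π ^ a * c6)⁻¹ :=
    fixK_inv (fixK_add fixK_one (fixK_mul (fixK_pow hL.fix a) hc6fix))
  obtain ⟨bF, hbF, hbfix⟩ := exists_FF (H := H) _ (pow_ne_zero a hπ0) hX
  have hXfix : FixF N H (algebraMap Qbar (FF N) (1 + π ^ a * c6)⁻¹ * u * G⁻¹ ^ p) :=
    fixF_mul (fixF_mul (fixF_const hcfix) hfu) (fixF_pow (fixF_inv hGfix) p)
  obtain ⟨z, hz, hbz⟩ := div_pi hG hGD hL bF (hbfix (fixK_pow hL.fix a) hXfix)
    (by rw [hbF]; exact hbr)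
  refine ⟨(1 + π ^ a * c6)⁻¹, G⁻¹, inv_ne_zero hC0, hcfix, inv_ne_zero hG0, fixF_inv hGfix,
    z, hz, ?_⟩
  rw [← hXc, hX, ← hbF, hbz, pow_succ, cst_mul, mul_assoc]

/-! ### iterating `T_p` -/

theorem iter (hC1 : Stmt_C1) (hNM : Stmt_NMem) {p : ℕ} [NeZero p] (hp : p.Prime)
    {A : ValuationSubring Qbar} (hA : A.LiesOverPrime p) {H : Subgroup GQ} {c : Qbar}
    (hc : Sm A c) {N : ℕ} [NeZero N] (hpN : ¬ p ∣ N) {ζ : Qbarˣ}
    (hζ : IsPrimitiveRoot ζ p) (u : FF N) (hu0 : u ≠ 0) (hfu : FixF N H u) {f : LS} (hf : GO A f)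
    (huf : (u : LS) = 1 + cst c * f) (n : ℕ) :
    ∃ v fn : FF N, (v : LS) = (formalN p ζ)^[n] (u : LS) ∧ v ≠ 0 ∧ FixF N H v ∧ GO A (fn : LS) ∧
      (v : LS) = 1 + cst c * (fn : LS) ∧ rd A (fn : LS) = qExpand (kA A) (p ^ n) (rd A f) := by
  induction n with
  | zero =>
    obtain ⟨f0, hf0, -⟩ := exists_FF (H := H) u hc.1 huf
    refine ⟨u, f0, rfl, hu0, hfu, hf0 ▸ hf, by rw [hf0]; exact huf, ?_⟩
    rw [hf0, qExpand_congr (pow_zero p), qExpand_one_apply]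
  | succ n ih =>
    obtain ⟨v, fn, h1, h2, h3, h4, h5, h6⟩ := ih
    obtain ⟨v', hv', hv'0, hv'fix⟩ := hNM N p hp hpN ζ hζ v
    obtain ⟨z', hz', hz'eq, hz'rd⟩ := hC1 p hp A hA ζ hζ c hc fn h4
    have e : (v' : LS) = 1 + cst c * z' := by rw [hv', h5, hz'eq]
    obtain ⟨fn', hfn', -⟩ := exists_FF (H := H) v' hc.1 e
    refine ⟨v', fn', ?_, hv'0 h2, hv'fix H h3, hfn' ▸ hz', by rw [hfn']; exact e, ?_⟩
    · rw [hv', h1, Function.iterate_succ_apply']
    · rw [hfn', hz'rd, h6, qExpand_qExpand]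
      exact qExpand_congr (pow_succ' p n).symm _

theorem ineq (p a' e' : ℕ) (hp : 2 ≤ p) (h : a' < e') : p * a' + 1 ≤ e' * (p - 1) + a' := by
  obtain ⟨q, rfl⟩ : ∃ q, p = q + 2 := ⟨p - 2, by omega⟩
  obtain ⟨k, rfl⟩ : ∃ k, e' = a' + 1 + k := ⟨e' - a' - 1, by omega⟩
  have h1 : q + 2 - 1 = q + 1 := rfl
  rw [h1]
  nlinarith [Nat.zero_le (k * q)]

end Fermat.Agent.ORD.Dep.DpStep

namespace Fermat.Agent.ORD.Dep

open ModularCurve
open Fermat.Agent.S24 (Qbar FF)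
open Fermat.Agent.ES.Mid (GQ gal IsDiv formalN twProd compress tw)
open Fermat.Agent.INJ.Inst (kA)
open DpStep

local notation "LS" => LaurentSeries Qbar

/-- **(D'-STEP)** one step of Lemma D'. -/
theorem stmt_D'Step (hG : Stmt_GOApi) (hGD : Stmt_GaussDisc) (hTe : Stmt_Teich)
    (hLF : Stmt_LiftFix) (hFR : Stmt_FrobRoot) (hKD : Stmt_KD) (hC1 : Stmt_C1) (hB1 : Stmt_B1)
    (hNM : Stmt_NMem) : Stmt_D'Step := by
  intro p _ hp _ A hA H π w e' hw hL hU N _ hpN ζ hζ u a ha1 ha2 hfu hcg hJ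
  obtain ⟨f, hf, huf⟩ := hcg
  obtain ⟨J, g, hJ0, hJg⟩ := hJ
  have hπ0 : π ≠ 0 := hL.sm.1
  have hπA : π ∈ A := A.nonunits_subset hL.sm.2
  have hπa : π ^ a ∈ A.nonunits := pow_mem_nonunits hL.sm.2 ha1
  have hSm : Sm A (π ^ a) := ⟨pow_ne_zero _ hπ0, hπa⟩
  have hur : Red A (u : LS) 1 := by rw [huf]; exact red_one_add hG hπa hf
  have hu0' : (u : LS) ≠ 0 := Red.ne_zero hG hur one_ne_zero
  have hu0 : u ≠ 0 := fun h => hu0' (by rw [h]; rfl)
  obtain ⟨J', rfl⟩ : ∃ J', J = J' + 1 := ⟨J - 1, by omega⟩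
  obtain ⟨v₁, f₁, -, -, -, hf₁, -, hrd₁⟩ := iter hC1 hNM hp hA hSm hpN hζ u hu0 hfu hf huf J'
  obtain ⟨v, fJ, hv, hv0, hvfix, hfJ, hvf, hrdJ⟩ :=
    iter hC1 hNM hp hA hSm hpN hζ u hu0 hfu hf huf (J' + 1)
  -- `T^J u / u = g ^ p` descends
  have hvg : v = u * g ^ p := Subtype.ext (by rw [hv, hJg]; rfl)
  have hg0 : g ≠ 0 := by
    rintro rfl
    rw [zero_pow hp.ne_zero, mul_zero] at hvg
    exact hv0 hvg
  have hyfix : FixF N H (g ^ p) := by
    intro σ hσ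
    have h1 := hvfix σ hσ
    rw [hvg, map_mul, hfu σ hσ] at h1
    exact mul_left_cancel₀ hu0 h1
  obtain ⟨c1, g0, hc1, hc1fix, hg00, hg0fix, hy⟩ := hKD N p H (g ^ p) g hp.pos hg0 hyfix rfl
  have hzr : Red A (((fJ : LS) - f) * (u : LS)⁻¹)
      (qExpand (kA A) (p ^ (J' + 1)) (rd A f) - rd A f) := by
    have h1 := Red.mul hG (Red.sub hG ⟨hfJ, hrdJ⟩ ⟨hf, rfl⟩) (Red.inv hG hur one_ne_zero)
    exact h1.congr (by rw [inv_one, mul_one])
  have hzeq : cst c1 * (g0 : LS) ^ p = 1 + cst (π ^ a) * (((fJ : LS) - f) * (u : LS)⁻¹) := by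
    have h1 : (g : LS) ^ p = cst c1 * (g0 : LS) ^ p := congrArg Subtype.val hy
    have h2 : (v : LS) = (u : LS) * (g : LS) ^ p := congrArg Subtype.val hvg
    have h3 : (g : LS) ^ p = (v : LS) * (u : LS)⁻¹ := by
      rw [h2]
      field_simp
    have h4 : 1 + cst (π ^ a) * (((fJ : LS) - f) * (u : LS)⁻¹)
        = ((u : LS) + cst (π ^ a) * ((fJ : LS) - f)) * (u : LS)⁻¹ := by
      field_simp
    rw [← h1, h3, h4, hvf]
    congr 1
    rw [huf]
    ring
  obtain ⟨c₀, h, -, hh, hrz⟩ := hB1 p hp A hA H π w e' hw hL hU N c1 g0 hc1 hc1fix hg00 hg0fix a _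
    ha1 ha2 hzr.1 hzeq
  rw [hzr.2] at hrz
  by_cases hpa : p ∣ a
  · rw [if_pos hpa] at hrz
    obtain ⟨a', rfl⟩ := hpa
    have ha'e : a' < e' := Nat.lt_of_mul_lt_mul_left ha2
    obtain ⟨⟨y, hy1, hy2⟩, -⟩ := hFR p hp A hA N hpN f₁ hf₁
    have hV : qExpand (kA A) (p ^ (J' + 1)) (rd A f) = rd A (y : LS) ^ p := by
      rw [hy2, hrd₁, qExpand_qExpand]
      exact qExpand_congr (pow_succ' p J') _
    have hyh : Red A ((y - h : FF N) : LS) (rd A (y : LS) - rd A (h : LS)) :=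
      Red.sub hG ⟨hy1, rfl⟩ ⟨hh, rfl⟩
    obtain ⟨g1, hg1fix, hg1, hg1rd⟩ := hLF p hp A hA N hpN (y - h) hyh.1
    rw [hyh.2] at hg1rd
    obtain ⟨c6, hc6, hc6fix, hc6r⟩ := teich hG hTe hp hA (-c₀)
    have : Fact p.Prime := ⟨hp⟩
    have : CharP (kA A) p := ES.Mid.HF3.charP_residue A p hA
    have : CharP (LaurentSeries (kA A)) p :=
      charP_of_injective_algebraMap (algebraMap (kA A) (LaurentSeries (kA A))).injective p
    have hFeq : rd A f = cstk A (-c₀) + rd A (g1 : LS) ^ p := by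
      rw [hg1rd, sub_pow_char, ← hV, cstk_neg]
      linear_combination -hrz
    have hPA : π ^ a' ∈ A := A.pow_mem hπA a'
    have hGc : ((1 + algebraMap Qbar (FF N) (π ^ a') * g1 : FF N) : LS)
        = 1 + cst (π ^ a') * (g1 : LS) := rfl
    have hGfix : FixF N H (1 + algebraMap Qbar (FF N) (π ^ a') * g1) :=
      fixF_add fixF_one (fixF_mul (fixF_const (fixK_pow hL.fix a')) (fixF_mono hL.le hg1fix))
    obtain ⟨r, hr, hbin⟩ := binom hG hp (x := cst (π ^ a') * (g1 : LS))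
      (Red.mul hG (red_cst hG hPA) ⟨hg1, rfl⟩).1
    obtain ⟨δ, hδ⟩ : ∃ δ, e' * (p - 1) + a' = p * a' + 1 + δ :=
      Nat.exists_eq_add_of_le (ineq p a' e' hp.two_le ha'e)
    have hμA : -((w * (π ^ e')⁻¹) ^ (p - 1) * π ^ δ) ∈ A :=
      A.neg_mem _ (A.mul_mem _ _ (A.pow_mem hU.1 _) (A.pow_mem hπA _))
    have hμ : (p : Qbar) * π ^ a' = π ^ (p * a') * π * -((w * (π ^ e')⁻¹) ^ (p - 1) * π ^ δ) := by
      have h1 : π ^ (p * a') * π * π ^ δ = (π ^ e') ^ (p - 1) * π ^ a' := by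
        rw [← pow_succ, ← pow_add, ← hδ, pow_add, pow_mul]
      have h2 : (w * (π ^ e')⁻¹) ^ (p - 1) * (π ^ e') ^ (p - 1) = -(p : Qbar) := by
        rw [← mul_pow, inv_mul_cancel_right₀ (pow_ne_zero _ hπ0), hw]
      linear_combination ((w * (π ^ e')⁻¹) ^ (p - 1)) * h1 + π ^ a' * h2
    have htr : Red A ((g1 : LS) ^ p
        + cst π * (cst (-((w * (π ^ e')⁻¹) ^ (p - 1) * π ^ δ)) * (g1 : LS) * r))
        (rd A (g1 : LS) ^ p) := by
      have h1 := Red.add hG (Red.pow hG (⟨hg1, rfl⟩ : Red A (g1 : LS) _) p)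
        (Red.mul hG (red_small hG hL.sm.2)
          (Red.mul hG (Red.mul hG (red_cst hG hμA) ⟨hg1, rfl⟩) ⟨hr, rfl⟩))
      exact h1.congr (by rw [zero_mul, add_zero])
    have hGt : ((1 + algebraMap Qbar (FF N) (π ^ a') * g1 : FF N) : LS) ^ p
        = 1 + cst (π ^ (p * a')) * ((g1 : LS) ^ p
        + cst π * (cst (-((w * (π ^ e')⁻¹) ^ (p - 1) * π ^ δ)) * (g1 : LS) * r)) := by
      have h3 : (p : LS) * cst (π ^ a')
          = cst (π ^ (p * a')) * cst π * cst (-((w * (π ^ e')⁻¹) ^ (p - 1) * π ^ δ)) := by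
        rw [← cst_natCast, ← cst_mul, ← cst_mul, ← cst_mul, hμ]
      have h4 : cst (π ^ a') ^ p = cst (π ^ (p * a')) := by
        rw [← cst_pow, ← pow_mul, mul_comm a' p]
      rw [hGc, hbin, mul_pow, h4]
      linear_combination ((g1 : LS) * r) * h3
    exact finish hG hGD hL u (p * a') ha1 hfu hf huf p hp.ne_zero _ hGfix htr.1 hGt hc6
      (fixK_mono hL.le hc6fix) (by rw [hc6r.2, htr.2]; exact hFeq)
  · rw [if_neg hpa, add_zero] at hrz
    have hQ : 2 ≤ p ^ (J' + 1) := by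
      calc 2 ≤ p := hp.two_le
        _ = p ^ 1 := (pow_one p).symm
        _ ≤ p ^ (J' + 1) := Nat.pow_le_pow_right hp.pos (by omega)
    have hFc := const_of_expand (p ^ (J' + 1)) hQ (rd A f) c₀ hrz
    obtain ⟨c5, hc5, hc5fix, hc5r⟩ := teich hG hTe hp hA ((rd A f).coeff 0)
    refine finish hG hGD hL u a ha1 hfu hf huf p hp.ne_zero 1 fixF_one (red_zero hG).1
      (by rw [mul_zero, add_zero]; exact one_pow p) hc5 (fixK_mono hL.le hc5fix) ?_
    rw [hc5r.2, (red_zero hG).2, add_zero]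
    exact hFc

end Fermat.Agent.ORD.Dep

end
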