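import Fermat.Agent.ORD.Dep.Interface
import Fermat.Agent.ES.Mid.IntRep

/-!
# ORD / Dep : (FL-DISC) the Gauss valuation of `F_N^H` is discrete with uniformiser `π`

Instead of averaging over a finite Galois orbit we use Artin's minimal support argument : an
`H`-fixed `u ∈ F_N` is a quotient `Y₁ / Y₂` of two `H`-fixed elements of `ℚ̄[j_d : d ∣ N]`.  The
content of an `H`-fixed element of `ℚ̄[j_d]` is (one of its coefficients, hence) an element of
`ℚ̄^H`, i.e. a power of `π` up to a unit.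
-/

set_option autoImplicit false

noncomputable section

namespace Fermat.Agent.ORD.Dep

open ModularCurve
open Fermat.Agent.S24 (Qbar FF)
open Fermat.Agent.ES.Mid (GQ gal)
open Fermat.Agent.INJ.Inst (kA)

namespace GD

/-- Artin's minimal support argument. -/
theorem artin {K L : Type*} [Field K] [CommRing L] [Algebra K L] (M : Set L)
    (T : Set ((K →+* K) × (L →+* L)))
    (hsl : ∀ t ∈ T, ∀ (c : K) (x : L), t.2 (c • x) = t.1 c • t.2 x)
    (hM : ∀ t ∈ T, ∀ m ∈ M, t.2 m = m)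
    (u : L) (hu : ∀ t ∈ T, t.2 u = u)
    (h : ∃ Y₁ Y₂ : L, Y₁ ∈ Submodule.span K M ∧ Y₂ ∈ Submodule.span K M ∧ Y₂ ≠ 0 ∧ u * Y₂ = Y₁) :
    ∃ Y₁ Y₂ : L, Y₁ ∈ Submodule.span K M ∧ Y₂ ∈ Submodule.span K M ∧ Y₂ ≠ 0 ∧ u * Y₂ = Y₁ ∧
      ∀ t ∈ T, t.2 Y₁ = Y₁ ∧ t.2 Y₂ = Y₂ := by
  classical
  set ev : (M →₀ K) →ₗ[K] L := Finsupp.linearCombination K (Subtype.val : M → L) with hev
  let P : ℕ → Prop := fun n => ∃ c₁ c₂ : M →₀ K, c₁.support.card + c₂.support.card = n ∧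
    ev c₂ ≠ 0 ∧ u * ev c₂ = ev c₁
  have hex : ∃ n, P n := by
    obtain ⟨Y₁, Y₂, h1, h2, h0, he⟩ := h
    obtain ⟨c₁, rfl⟩ := (Finsupp.mem_span_iff_linearCombination K M Y₁).1 h1
    obtain ⟨c₂, rfl⟩ := (Finsupp.mem_span_iff_linearCombination K M Y₂).1 h2
    exact ⟨_, c₁, c₂, rfl, h0, he⟩
  obtain ⟨c₁, c₂, hn, h0, he⟩ := Nat.find_spec hex
  have hmin : ∀ m, m < Nat.find hex → ¬ P m := fun m hm => Nat.find_min hex hm
  obtain ⟨m₀, hm₀⟩ : ∃ m₀, c₂ m₀ ≠ 0 := by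
    by_contra hcon
    push Not at hcon
    apply h0
    have : c₂ = 0 := Finsupp.ext hcon
    rw [this, map_zero]
  set a : K := (c₂ m₀)⁻¹ with ha
  have ha0 : a ≠ 0 := inv_ne_zero hm₀
  have hmem : ∀ c : M →₀ K, ev c ∈ Submodule.span K M := fun c =>
    (Finsupp.mem_span_iff_linearCombination K M _).2 ⟨c, rfl⟩
  have hτ : ∀ t ∈ T, ∀ c : M →₀ K, ev (c.mapRange t.1 (map_zero _)) = t.2 (ev c) := by
    intro t ht c
    rw [hev, Finsupp.linearCombination_apply, Finsupp.linearCombination_apply,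
      Finsupp.sum_mapRange_index (h := fun (i : M) (a : K) => a • (i : L))
        (fun _ => zero_smul _ _), Finsupp.sum, Finsupp.sum, map_sum]
    refine Finset.sum_congr rfl fun m _ => ?_
    rw [hsl t ht, hM t ht _ m.2]
  have he' : u * ev (a • c₂) = ev (a • c₁) := by
    rw [map_smul, map_smul, mul_smul_comm, he]
  have h0' : ev (a • c₂) ≠ 0 := by
    rw [map_smul]
    intro h
    apply h0
    have := congrArg (fun z => a⁻¹ • z) h
    simpa [smul_smul, inv_mul_cancel₀ ha0] using this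
  have key : ∀ t ∈ T, t.2 (ev (a • c₂)) = ev (a • c₂) := by
    intro t ht
    by_contra hne
    set e₁ : M →₀ K := (a • c₁).mapRange t.1 (map_zero _) - a • c₁ with he₁
    set e₂ : M →₀ K := (a • c₂).mapRange t.1 (map_zero _) - a • c₂ with he₂
    have hs1 : e₁.support ⊆ c₁.support := by
      refine Finsupp.support_sub.trans (Finset.union_subset ?_ Finsupp.support_smul)
      exact Finsupp.support_mapRange.trans Finsupp.support_smul
    have hs2 : e₂.support ⊆ c₂.support := by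
      refine Finsupp.support_sub.trans (Finset.union_subset ?_ Finsupp.support_smul)
      exact Finsupp.support_mapRange.trans Finsupp.support_smul
    have hm₀' : m₀ ∉ e₂.support := by
      rw [Finsupp.notMem_support_iff, he₂, Finsupp.sub_apply, Finsupp.mapRange_apply,
        Finsupp.smul_apply, smul_eq_mul, ha, inv_mul_cancel₀ hm₀, map_one, sub_self]
    have hlt : e₂.support.card < c₂.support.card := by
      apply Finset.card_lt_card
      refine ⟨hs2, fun hsub => hm₀' (hsub ?_)⟩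
      rw [Finsupp.mem_support_iff]
      exact hm₀
    have hle : e₁.support.card ≤ c₁.support.card := Finset.card_le_card hs1
    refine hmin (e₁.support.card + e₂.support.card) (by omega) ⟨e₁, e₂, rfl, ?_, ?_⟩
    · rw [he₂, map_sub, hτ t ht, sub_ne_zero]
      exact hne
    · rw [he₂, he₁, map_sub, map_sub, hτ t ht, hτ t ht, mul_sub, he', ← he', map_mul, hu t ht]
  refine ⟨ev (a • c₁), ev (a • c₂), hmem _, hmem _, h0', he', fun t ht => ⟨?_, key t ht⟩⟩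
  rw [← he', map_mul, hu t ht, key t ht]

/-- Artin's minimal support argument, for a finitely generated algebra with fixed generators. -/
theorem artin_adjoin {K L : Type*} [Field K] [CommRing L] [Algebra K L] (S : Set L)
    (T : Set ((K →+* K) × (L →+* L)))
    (hsl : ∀ t ∈ T, ∀ c : K, t.2 (algebraMap K L c) = algebraMap K L (t.1 c))
    (hS : ∀ t ∈ T, ∀ m ∈ S, t.2 m = m)
    (u : L) (hu : ∀ t ∈ T, t.2 u = u)
    (h : ∃ Y₁ Y₂ : L, Y₁ ∈ Algebra.adjoin K S ∧ Y₂ ∈ Algebra.adjoin K S ∧ Y₂ ≠ 0 ∧ u * Y₂ = Y₁) :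
    ∃ Y₁ Y₂ : L, Y₁ ∈ Algebra.adjoin K S ∧ Y₂ ∈ Algebra.adjoin K S ∧ Y₂ ≠ 0 ∧ u * Y₂ = Y₁ ∧
      ∀ t ∈ T, t.2 Y₁ = Y₁ ∧ t.2 Y₂ = Y₂ := by
  have hspan : ∀ x, x ∈ Algebra.adjoin K S ↔
      x ∈ Submodule.span K (Submonoid.closure S : Set L) := by
    intro x
    rw [← Algebra.adjoin_eq_span]
    rfl
  simp only [hspan] at h ⊢
  refine artin (Submonoid.closure S : Set L) T ?_ ?_ u hu h
  · intro t ht c x
    rw [Algebra.smul_def, Algebra.smul_def, map_mul, hsl t ht]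
  · intro t ht m hm
    induction hm using Submonoid.closure_induction with
    | mem x hx => exact hS t ht x hx
    | one => exact map_one _
    | mul x y _ _ hx hy => rw [map_mul, hx, hy]

open Fermat.Agent.S24.QX (serAlg serGens qExpHom qExpFun qExpFun_mem)
open Fermat.Agent.INJ.Inst (Gauss.inc Gauss.rho Gauss.IsRatio Gauss.red_eq)

/-- an `H`-fixed element of `F_N` is a quotient of `H`-fixed elements of `ℚ̄[j_d]`. -/
theorem exists_fixed_quot (N : ℕ) [NeZero N] (H : Subgroup GQ) (u : FF N) (hu : FixF N H u) :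
    ∃ Y₁ Y₂ : LaurentSeries Qbar, Y₁ ∈ serAlg N ∧ Y₂ ∈ serAlg N ∧ Y₂ ≠ 0 ∧
      (u : LaurentSeries Qbar) * Y₂ = Y₁ ∧
      ∀ σ ∈ H, coeffMap (σ : Qbar →+* Qbar) Y₁ = Y₁ ∧ coeffMap (σ : Qbar →+* Qbar) Y₂ = Y₂ := by
  obtain ⟨a, b, hb, hab⟩ := ES.Mid.INT.exists_quot N u
  obtain ⟨Y₁, Y₂, h1, h2, h0, he, hfix⟩ := artin_adjoin (K := Qbar) (L := LaurentSeries Qbar)
    (serGens N)
    {t | ∃ σ ∈ H, t = ((σ : Qbar →+* Qbar), coeffMap (σ : Qbar →+* Qbar))}
    (by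
      rintro _ ⟨σ, _, rfl⟩ c
      exact coeffMap_algebraMap _ c)
    (by
      rintro _ ⟨σ, _, rfl⟩ m ⟨d, hd0, hd, rfl⟩
      exact coeffMap_coeffEmb σ _)
    (u : LaurentSeries Qbar)
    (by
      rintro _ ⟨σ, hσ, rfl⟩
      exact congrArg Subtype.val (hu σ hσ))
    ⟨qExpFun N a, qExpFun N b, qExpFun_mem N a, qExpFun_mem N b,
      fun h0 => hb (S24.QX.qExpHom_injective N ((Subtype.ext h0).trans (map_zero _).symm)),
      congrArg Subtype.val hab⟩
  exact ⟨Y₁, Y₂, h1, h2, h0, he, fun σ hσ => hfix _ ⟨σ, hσ, rfl⟩⟩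

/-- the content of an `H`-fixed element of `ℚ̄[j_d]` is a power of `π`. -/
theorem exists_pow (A : ValuationSubring Qbar) (H : Subgroup GQ) (π : Qbar) (hL : Lvl A H π)
    (N : ℕ) {Z : LaurentSeries Qbar} (hZ : Z ∈ serAlg N) (h0 : Z ≠ 0)
    (hfix : ∀ σ ∈ H, coeffMap (σ : Qbar →+* Qbar) Z = Z) :
    ∃ (m : ℤ) (y : LaurentSeries A), Gauss.rho (IsLocalRing.residue A) y ≠ 0 ∧
      cst (π ^ (-m)) * Z = Gauss.inc A y := by
  obtain ⟨l, hl, hA, n₁, hn₁⟩ :=
    ES.Mid.INT.exists_scale A h0 (ES.Mid.INT.fgCoeff_of_mem_serAlg hZ)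
  set a : Qbar := Z.coeff n₁ with ha
  have ha0 : a ≠ 0 := by
    intro h
    rw [h, mul_zero] at hn₁
    exact zero_ne_one hn₁
  have hfa : FixK H a := by
    intro σ hσ
    have := congrArg (fun z => HahnSeries.coeff z n₁) (hfix σ hσ)
    simpa [coeffMap_coeff] using this
  obtain ⟨m, hu1, hu2⟩ := hL.unif a ha0 hfa
  have hc : ∀ k, (cst (π ^ (-m)) * Z).coeff k = π ^ (-m) * Z.coeff k := fun k => by
    rw [cst, algebraMap_laurentSeries_eq_single, HahnSeries.coeff_single_zero_mul]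
  have hmem : ∀ k, (cst (π ^ (-m)) * Z).coeff k ∈ A := by
    intro k
    have : π ^ (-m) * Z.coeff k = (a * π ^ (-m)) * (l * Z.coeff k) := by
      calc π ^ (-m) * Z.coeff k = (l * a) * (π ^ (-m) * Z.coeff k) := by rw [hn₁, one_mul]
        _ = _ := by ring
    rw [hc, this]
    exact A.mul_mem _ _ hu1 (hA k)
  refine ⟨m, ES.Mid.INT.lift A _ hmem, ?_, (ES.Mid.INT.coeffMap_lift A _ hmem).symm⟩
  intro hz
  have h1 := congrArg (fun z => HahnSeries.coeff z n₁) hz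
  simp only [coeffMap_coeff, HahnSeries.coeff_zero] at h1
  have h2 : IsUnit ((ES.Mid.INT.lift A _ hmem).coeff n₁) := by
    refine IsUnit.of_mul_eq_one ⟨(a * π ^ (-m))⁻¹, hu2⟩ ?_
    apply Subtype.ext
    show (cst (π ^ (-m)) * Z).coeff n₁ * (a * π ^ (-m))⁻¹ = 1
    rw [hc, mul_comm (π ^ (-m))]
    exact mul_inv_cancel₀ (mul_ne_zero ha0 (zpow_ne_zero _ hL.sm.1))
  exact (IsLocalRing.residue_ne_zero_iff_isUnit _).2 h2 h1

end GD

/-- **(FL-DISC)** (unconditional). -/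
theorem stmt_GaussDisc' : Stmt_GaussDisc := by
  intro A H π hL N _ u hu hfix
  obtain ⟨Y₁, Y₂, h1, h2, h0, he, hf⟩ := GD.exists_fixed_quot N H u hfix
  have hu' : (u : LaurentSeries Qbar) ≠ 0 := fun h => hu (Subtype.ext h)
  have h10 : Y₁ ≠ 0 := by
    rw [← he]
    exact mul_ne_zero hu' h0
  obtain ⟨m₁, y₁, hy₁, e₁⟩ := GD.exists_pow A H π hL N h1 h10 (fun σ hσ => (hf σ hσ).1)
  obtain ⟨m₂, y₂, hy₂, e₂⟩ := GD.exists_pow A H π hL N h2 h0 (fun σ hσ => (hf σ hσ).2)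
  have hr : INJ.Inst.Gauss.IsRatio (IsLocalRing.residue A)
      (cst (π ^ (-(m₁ - m₂))) * (u : LaurentSeries Qbar)) y₁ y₂ := by
    refine ⟨hy₂, ?_⟩
    rw [← e₁, ← e₂, ← he]
    have : π ^ (-m₁) = π ^ (-(m₁ - m₂)) * π ^ (-m₂) := by
      rw [← zpow_add₀ hL.sm.1]
      congr 1
      ring
    rw [this, cst, cst, cst, map_mul]
    ring
  refine ⟨m₁ - m₂, ⟨y₁, y₂, hr⟩, ?_⟩
  rw [rd, INJ.Inst.Gauss.red_eq hr]
  exact div_ne_zero hy₁ hy₂

/-- **(FL-DISC)** in the form requested by the interface. -/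
theorem stmt_GaussDisc (_h : Stmt_GOApi) : Stmt_GaussDisc := stmt_GaussDisc'

end Fermat.Agent.ORD.Dep

end
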