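import Fermat.Agent.ORD.Dep.Interface
import Fermat.Agent.ES.Mid.HF1
import Fermat.Agent.ES.Mid.HF2
import Fermat.Agent.ES.Mid.HF3

/-!
# ORD / Dep, package (C0) : `T_p x = 0 ⟹ x ∈ W_∞(p)` (Eichler-Shimura congruence at `p`)
-/

set_option autoImplicit false

noncomputable section

namespace Fermat.Agent.ORD.Dep

open ModularCurve
open Fermat.Agent.S24 (Qbar FF)
open Fermat.Agent.ES.Mid (GQ gal IsDiv formalN twProd compress tw tw_coeff compress_coeff HF1.hf_mul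
  HF1.hf_map HF2.hf_char HF3.charP_residue HF3.mem_of_pow_eq_one)
open Fermat.Agent.INJ.Inst (kA)
open Fermat.Agent.INJ.Inst.Gauss (IsRatio inc rho red_eq)

/-! ### `formalN` of a constant -/

section Const

variable {R : Type*} [CommRing R]

theorem KIW_tw_C (ζ : Rˣ) (d : R) :
    tw ζ (HahnSeries.C d : LaurentSeries R) = HahnSeries.C d := by
  ext n
  rw [tw_coeff, HahnSeries.C_apply, HahnSeries.coeff_single]
  split_ifs with h
  · subst h; simp
  · simp

theorem KIW_compress_C (ℓ : ℕ) [NeZero ℓ] (d : R) :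
    compress ℓ (HahnSeries.C d : LaurentSeries R) = HahnSeries.C d := by
  ext n
  rw [compress_coeff, HahnSeries.C_apply, HahnSeries.coeff_single, HahnSeries.coeff_single]
  have hℓ : (ℓ : ℤ) ≠ 0 := by exact_mod_cast NeZero.ne ℓ
  by_cases h : n = 0
  · subst h; simp
  · rw [if_neg h, if_neg (mul_ne_zero hℓ h)]

theorem KIW_formalN_C (ℓ : ℕ) [NeZero ℓ] (ζ : Rˣ) (d : R) :
    formalN ℓ ζ (HahnSeries.C d : LaurentSeries R) = HahnSeries.C (d ^ (ℓ + 1)) := by
  unfold formalN twProd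
  simp only [KIW_tw_C, Finset.prod_const, Finset.card_range]
  rw [ModularCurve.qExpand_C, ← map_pow, KIW_compress_C, ← map_mul, pow_succ']

end Const

theorem KIW_cst_eq (c : Qbar) : cst c = HahnSeries.C c := by
  rw [cst, algebraMap_laurentSeries_eq_single, HahnSeries.C_apply]

theorem KIW_cst_pow (c : Qbar) (n : ℕ) : cst (c ^ n) = cst c ^ n := map_pow _ _ _

theorem KIW_cst_inv (c : Qbar) : cst c⁻¹ = (cst c)⁻¹ := map_inv₀ _ _

/-- `a ^ n ∈ A` implies `a ∈ A`. -/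
theorem KIW_mem_of_pow_mem (A : ValuationSubring Qbar) {a : Qbar} {n : ℕ} (hn : 0 < n)
    (h : a ^ n ∈ A) : a ∈ A := by
  rcases A.mem_or_inv_mem a with h' | h'
  · exact h'
  · by_cases ha : a = 0
    · rw [ha]; exact A.zero_mem
    have : a = a ^ n * a⁻¹ ^ (n - 1) := by
      obtain ⟨m, rfl⟩ : ∃ m, n = m + 1 := ⟨n - 1, by omega⟩
      rw [Nat.add_sub_cancel, pow_succ, inv_pow]
      field_simp
    rw [this]
    exact mul_mem h (pow_mem h' _)

/-- the reduction of `N_p x`. -/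
theorem KIW_red_formalN (p : ℕ) [NeZero p] [Fact p.Prime] (A : ValuationSubring Qbar)
    [CharP (kA A) p] (ζ : Qbarˣ) (hζ : IsPrimitiveRoot ζ p) (x : LaurentSeries Qbar)
    (hx : GO A x) :
    GO A (formalN p ζ x) ∧ rd A (formalN p ζ x)
      = qExpand (kA A) p (rd A x) * coeffMap (frobenius (kA A) p) (rd A x) := by
  obtain ⟨f, g, hr⟩ := hx
  have hp : p.Prime := Fact.out
  have hζ1 : (ζ : Qbar) ^ p = 1 := by
    have := congrArg Units.val hζ.pow_eq_one
    rwa [Units.val_pow_eq_pow_val, Units.val_one] at this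
  have hζ2 : ((ζ⁻¹ : Qbarˣ) : Qbar) ^ p = 1 := by
    have h3 : (ζ⁻¹) ^ p = 1 := by rw [inv_pow, hζ.pow_eq_one, inv_one]
    have := congrArg Units.val h3
    rwa [Units.val_pow_eq_pow_val, Units.val_one] at this
  let zA : Aˣ := ⟨⟨ζ, HF3.mem_of_pow_eq_one A p hp.pos hζ1⟩,
    ⟨(ζ⁻¹ : Qbarˣ), HF3.mem_of_pow_eq_one A p hp.pos hζ2⟩,
    Subtype.ext (by simp), Subtype.ext (by simp)⟩
  have hzA : Units.map (A.subtype : A →* Qbar) zA = ζ := Units.ext rfl
  have hzr : Units.map (IsLocalRing.residue A : A →* IsLocalRing.ResidueField A) zA = 1 := by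
    apply Units.ext
    show IsLocalRing.residue A (zA : A) = 1
    apply frobenius_inj (IsLocalRing.ResidueField A) p
    rw [frobenius_def, frobenius_def, one_pow, ← map_pow]
    have : (zA : A) ^ p = 1 := Subtype.ext hζ1
    rw [this, map_one]
  have hinc : ∀ y : LaurentSeries A, inc A (formalN p zA y) = formalN p ζ (inc A y) := by
    intro y
    rw [HF1.hf_map A Qbar A.subtype p zA y, hzA]
  have hrho : ∀ y : LaurentSeries A, rho (IsLocalRing.residue A) (formalN p zA y)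
      = qExpand (kA A) p (rho (IsLocalRing.residue A) y)
        * coeffMap (frobenius (kA A) p) (rho (IsLocalRing.residue A) y) := by
    intro y
    rw [HF1.hf_map A (kA A) (IsLocalRing.residue A) p zA y, hzr]
    exact (HF2.hf_char (kA A) p _).2
  have hrat : IsRatio (IsLocalRing.residue A) (formalN p ζ x) (formalN p zA f)
      (formalN p zA g) := by
    refine ⟨?_, ?_⟩
    · rw [hrho]
      exact mul_ne_zero ((map_ne_zero _).2 hr.1) ((map_ne_zero _).2 hr.1)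
    · rw [hinc, hinc, ← (HF1.hf_mul Qbar p ζ hζ).2, hr.2]
  refine ⟨⟨_, _, hrat⟩, ?_⟩
  rw [rd, rd, red_eq hrat, red_eq hr, hrho, hrho, map_div₀, map_div₀, div_mul_div_comm]

/-- **(C0).** -/
theorem stmt_KerInW (hG : Stmt_GOApi) (hFR : Stmt_FrobRoot) : Stmt_KerInW := by
  intro p _ hp A hA N _ hpN ζ hζ u g hu hNg
  have : Fact p.Prime := ⟨hp⟩
  have : CharP (kA A) p := HF3.charP_residue A p hA
  have : CharP (LaurentSeries (kA A)) p :=
    charP_of_injective_algebraMap (algebraMap (kA A) (LaurentSeries (kA A))).injective p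
  obtain ⟨h1, h2, h3, h4, -, h6, -⟩ := hG A
  have hmulG : ∀ x y, GO A x → GO A y → GO A (x * y) := fun x y hx hy => (h1 x y hx hy).2.1
  have hmulR : ∀ x y, GO A x → GO A y → rd A (x * y) = rd A x * rd A y :=
    fun x y hx hy => (h1 x y hx hy).2.2.2.2.1
  have hone : GO A 1 ∧ rd A 1 = 1 := by
    have h := h2 1 A.one_mem
    have e : cst 1 = 1 := map_one _
    rw [e] at h
    refine ⟨h.1, ?_⟩
    rw [h.2 A.one_mem]
    have : (⟨1, A.one_mem⟩ : A) = 1 := rfl
    rw [this, map_one, cstk, map_one]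
  have hpow : ∀ x, GO A x → ∀ n : ℕ, GO A (x ^ n) ∧ rd A (x ^ n) = rd A x ^ n := by
    intro x hx n
    induction n with
    | zero => simpa using hone
    | succ n ih =>
      rw [pow_succ, pow_succ]
      exact ⟨hmulG _ _ ih.1 hx, by rw [hmulR _ _ ih.1 hx, ih.2]⟩
  have hzero : rd A 0 = 0 := by
    have h := h2 0 A.zero_mem
    have e : cst 0 = 0 := map_zero _
    rw [e] at h
    rw [h.2 A.zero_mem]
    have : (⟨0, A.zero_mem⟩ : A) = 0 := rfl
    rw [this, map_zero, cstk, map_zero]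
  -- a function whose `p`-th power is a Gauss unit is Gauss integral
  have hroot : ∀ w : FF N, w ≠ 0 → GO A ((w : LaurentSeries Qbar) ^ p) →
      rd A ((w : LaurentSeries Qbar) ^ p) ≠ 0 → GO A (w : LaurentSeries Qbar) := by
    intro w hw hwG hwR
    obtain ⟨c, hc0, hcG, hcR⟩ := h4 N w hw
    have hw0 : (w : LaurentSeries Qbar) ≠ 0 := fun h => hw (Subtype.ext h)
    have hX := hpow _ hcG p
    have hXR : rd A ((cst c * (w : LaurentSeries Qbar)) ^ p) ≠ 0 := by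
      rw [hX.2]; exact pow_ne_zero _ hcR
    have hXi := (h3 _ hX.1 hXR).1
    have hc' : cst c ≠ 0 := (map_ne_zero _).2 hc0
    have e : cst ((c⁻¹) ^ p) = (w : LaurentSeries Qbar) ^ p
        * ((cst c * (w : LaurentSeries Qbar)) ^ p)⁻¹ := by
      rw [KIW_cst_pow, KIW_cst_inv, mul_pow, inv_pow, mul_inv, mul_comm (cst c ^ p)⁻¹,
        ← mul_assoc, mul_inv_cancel₀ (pow_ne_zero p hw0), one_mul]
    have hmem : (c⁻¹) ^ p ∈ A := h6 _ (by rw [e]; exact hmulG _ _ hwG hXi)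
    have hmem' : c⁻¹ ∈ A := KIW_mem_of_pow_mem A hp.pos hmem
    have e2 : (w : LaurentSeries Qbar) = cst c⁻¹ * (cst c * (w : LaurentSeries Qbar)) := by
      rw [KIW_cst_inv, ← mul_assoc, inv_mul_cancel₀ hc', one_mul]
    rw [e2]
    exact hmulG _ _ (h2 _ hmem').1 hcG
  -- normalisation of `u`
  obtain ⟨c0, hc0, hu0G, hu0R⟩ := h4 N u hu
  obtain ⟨hNG, hNR⟩ := KIW_red_formalN p A ζ hζ _ hu0G
  obtain ⟨c1, hc1⟩ := IsAlgClosed.exists_pow_nat_eq (c0 ^ (p + 1)) hp.pos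
  have hN0 : formalN p ζ (cst c0 * (u : LaurentSeries Qbar))
      = (cst c1 * (g : LaurentSeries Qbar)) ^ p := by
    rw [(HF1.hf_mul Qbar p ζ hζ).2, hNg, KIW_cst_eq c0, KIW_formalN_C, ← KIW_cst_eq, mul_pow,
      ← KIW_cst_pow, hc1]
  set ub := rd A (cst c0 * (u : LaurentSeries Qbar)) with hub
  have hVub : qExpand (kA A) p ub ≠ 0 := (map_ne_zero _).2 hu0R
  have hφub : coeffMap (frobenius (kA A) p) ub ≠ 0 := (map_ne_zero _).2 hu0R
  have hNR0 : rd A (formalN p ζ (cst c0 * (u : LaurentSeries Qbar))) ≠ 0 := by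
    rw [hNR]; exact mul_ne_zero hVub hφub
  -- `G`
  obtain ⟨G, hGdef⟩ : ∃ G : FF N, (G : LaurentSeries Qbar) = cst c1 * (g : LaurentSeries Qbar) :=
    ⟨algebraMap Qbar (FF N) c1 * g, rfl⟩
  rw [← hGdef] at hN0
  have hG0 : G ≠ 0 := by
    rintro rfl
    apply hNR0
    rw [hN0]
    have : ((0 : FF N) : LaurentSeries Qbar) = 0 := rfl
    rw [this, zero_pow hp.ne_zero, hzero]
  have hGG : GO A (G : LaurentSeries Qbar) :=
    hroot G hG0 (by rw [← hN0]; exact hNG) (by rw [← hN0]; exact hNR0)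
  have hGp : rd A (G : LaurentSeries Qbar) ^ p
      = qExpand (kA A) p ub * coeffMap (frobenius (kA A) p) ub := by
    rw [← (hpow _ hGG p).2, ← hN0, hNR]
  -- `y1`
  obtain ⟨U0, hU0⟩ : ∃ U0 : FF N, (U0 : LaurentSeries Qbar) = cst c0 * (u : LaurentSeries Qbar) :=
    ⟨algebraMap Qbar (FF N) c0 * u, rfl⟩
  obtain ⟨⟨y1, hy1G, hy1⟩, -⟩ := hFR p hp A hA N hpN U0 (by rw [hU0]; exact hu0G)
  rw [hU0, ← hub] at hy1
  have hy1R : rd A (y1 : LaurentSeries Qbar) ≠ 0 := by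
    intro h
    rw [h, zero_pow hp.ne_zero] at hy1
    exact hVub hy1.symm
  obtain ⟨hy1iG, hy1iR⟩ := h3 _ hy1G hy1R
  obtain ⟨Y, hY⟩ : ∃ Y : FF N, (Y : LaurentSeries Qbar)
      = (G : LaurentSeries Qbar) * (y1 : LaurentSeries Qbar)⁻¹ := ⟨G * y1⁻¹, rfl⟩
  have hYG : GO A (Y : LaurentSeries Qbar) := by rw [hY]; exact hmulG _ _ hGG hy1iG
  have hYp : rd A (Y : LaurentSeries Qbar) ^ p = coeffMap (frobenius (kA A) p) ub := by
    rw [hY, hmulR _ _ hGG hy1iG, hy1iR, mul_pow, inv_pow, hGp, hy1]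
    field_simp
  -- `y2`
  obtain ⟨⟨y2, hy2G, hy2⟩, -⟩ := hFR p hp A hA N hpN Y hYG
  have hy2p : rd A (y2 : LaurentSeries Qbar) ^ p = ub := by
    apply frobenius_inj (LaurentSeries (kA A)) p
    rw [frobenius_def, frobenius_def, hy2, ← map_pow, hYp]
    exact ((HF2.hf_char (kA A) p ub).1).symm
  have hy2R : rd A (y2 : LaurentSeries Qbar) ≠ 0 := by
    intro h
    rw [h, zero_pow hp.ne_zero] at hy2p
    exact hu0R hy2p.symm
  obtain ⟨hy2iG, hy2iR⟩ := h3 _ hy2G hy2R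
  have hy20 : y2 ≠ 0 := by
    rintro rfl
    exact hy2R hzero
  refine ⟨c0, y2⁻¹, hc0, inv_ne_zero hy20, ?_⟩
  have e : ((y2⁻¹ : FF N) : LaurentSeries Qbar) = (y2 : LaurentSeries Qbar)⁻¹ := rfl
  rw [e, hmulR _ _ hu0G (hpow _ hy2iG p).1, (hpow _ hy2iG p).2, hy2iR, inv_pow, hy2p, ← hub]
  exact mul_inv_cancel₀ hu0R

end Fermat.Agent.ORD.Dep

end
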