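import Fermat.Agent.ORD.Dep.Interface
import Fermat.Agent.ES.Mid.Fix
import Fermat.Agent.ES.Mid.HF1
import Fermat.Agent.ES.Mid.HGlueFix

/-!
# ORD / Dep : Lemma D (assembly)
-/

set_option autoImplicit false

noncomputable section

namespace Fermat.Agent.ORD.Dep

open ModularCurve AlgebraicCurve
open Fermat.Agent.S24 (Qbar FF)
open Fermat.Agent.ES.Mid (GQ gal IsDiv formalN twProd compress tw)
open Fermat.Agent.INJ.Inst (kA)

/-- a natural number which is a nonunit of `A` is divisible by `p`. -/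
theorem LemD_dvd_of_mem_nonunits {p : ℕ} (hp : p.Prime) {A : ValuationSubring Qbar}
    (hA : A.LiesOverPrime p) {n : ℕ} (hn : (n : Qbar) ∈ A.nonunits) : p ∣ n := by
  by_contra hm
  have hnA : ((n : ℕ) : A) ∈ IsLocalRing.maximalIdeal A := by
    rw [← ValuationSubring.coe_mem_nonunits_iff]
    push_cast
    exact hn
  have hpA : ((p : ℕ) : A) ∈ IsLocalRing.maximalIdeal A := by
    rw [← ValuationSubring.coe_mem_nonunits_iff]
    push_cast
    exact hA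
  have hcop : Nat.Coprime p n := (Nat.Prime.coprime_iff_not_dvd hp).2 hm
  obtain ⟨a, b, hab⟩ := Nat.isCoprime_iff_coprime.2 hcop
  have h1 : (1 : A) ∈ IsLocalRing.maximalIdeal A := by
    have e : (1 : A) = (a : A) * ((p : ℕ) : A) + (b : A) * ((n : ℕ) : A) := by
      have := congrArg (Int.cast : ℤ → A) hab.symm
      push_cast at this
      exact this
    rw [e]
    exact Ideal.add_mem _ (Ideal.mul_mem_left _ _ hpA) (Ideal.mul_mem_left _ _ hnA)
  exact (Ideal.ne_top_iff_one _).1 (IsLocalRing.maximalIdeal.isMaximal A).ne_top h1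

theorem LemD_exists_actsMu {p : ℕ} [NeZero p] {ζ : Qbarˣ} (hζ : IsPrimitiveRoot ζ p) (s : GQ) :
    ∃ c : ℕ, ActsMu p s c := by
  have hζ' : IsPrimitiveRoot (ζ : Qbar) p := IsPrimitiveRoot.coe_units_iff.2 hζ
  have h1 : (s (ζ : Qbar)) ^ p = 1 := by rw [← map_pow, hζ'.pow_eq_one, map_one]
  obtain ⟨c, -, hc⟩ := hζ'.eq_pow_of_pow_eq_one h1
  refine ⟨c, fun ξ hξ => ?_⟩
  obtain ⟨i, -, hi⟩ := hζ'.eq_pow_of_pow_eq_one hξ
  rw [← hi, map_pow, ← hc, ← pow_mul, ← pow_mul, mul_comm]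

/-- `v` represents the class of `u` modulo constants and `p`-th powers. -/
def LemD_Rel (N p : ℕ) (u v : FF N) : Prop :=
  ∃ (c : Qbar) (g : FF N), c ≠ 0 ∧ g ≠ 0 ∧ v = algebraMap Qbar (FF N) c * u * g ^ p

theorem LemD_Rel.step {N p : ℕ} {u v : FF N} (h : LemD_Rel N p u v) {c : Qbar} {g : FF N}
    (hc : c ≠ 0) (hg : g ≠ 0) : LemD_Rel N p u (algebraMap Qbar (FF N) c * v * g ^ p) := by
  obtain ⟨c', g', hc', hg', rfl⟩ := h
  exact ⟨c * c', g * g', mul_ne_zero hc hc', mul_ne_zero hg hg', by rw [map_mul, mul_pow]; ring⟩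

theorem LemD_coe_step {N p : ℕ} (c : Qbar) (v g : FF N) :
    ((algebraMap Qbar (FF N) c * v * g ^ p : FF N) : LaurentSeries Qbar)
      = cst c * (v : LaurentSeries Qbar) * (g : LaurentSeries Qbar) ^ p := rfl

theorem LemD_Rel.tpow (hNM : Stmt_NMem) {N p : ℕ} [NeZero N] [NeZero p] (hp : p.Prime)
    (hpN : ¬ p ∣ N) {ζ : Qbarˣ} (hζ : IsPrimitiveRoot ζ p) {u v : FF N} (h : LemD_Rel N p u v)
    (hu : ∃ g : FF N, formalN p ζ (u : LaurentSeries Qbar) = (g : LaurentSeries Qbar) ^ p) :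
    ∃ g : FF N, formalN p ζ (v : LaurentSeries Qbar) = (g : LaurentSeries Qbar) ^ p := by
  obtain ⟨c, g, hc, hg, rfl⟩ := h
  obtain ⟨g0, hg0⟩ := hu
  obtain ⟨h1, hmul⟩ := ES.Mid.HF1.hf_mul Qbar p ζ hζ
  obtain ⟨v', hv', -⟩ := hNM N p hp hpN ζ hζ g
  obtain ⟨d, hd⟩ := IsAlgClosed.exists_pow_nat_eq (c ^ (p + 1)) hp.pos
  refine ⟨algebraMap Qbar (FF N) d * g0 * v', ?_⟩
  have hpow : ∀ (x : LaurentSeries Qbar) (n : ℕ), formalN p ζ (x ^ n) = formalN p ζ x ^ n := by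
    intro x n
    induction n with
    | zero => simp [h1]
    | succ n ih => rw [pow_succ, hmul, ih, pow_succ]
  have e : ((algebraMap Qbar (FF N) c * u * g ^ p : FF N) : LaurentSeries Qbar)
      = (HahnSeries.C c) * (u : LaurentSeries Qbar) * (g : LaurentSeries Qbar) ^ p := by
    rw [← ES.Mid.HGF.coe_const (N := N)]; rfl
  have e' : ((algebraMap Qbar (FF N) d * g0 * v' : FF N) : LaurentSeries Qbar)
      = (HahnSeries.C d) * (g0 : LaurentSeries Qbar) * (v' : LaurentSeries Qbar) := by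
    rw [← ES.Mid.HGF.coe_const (N := N)]; rfl
  rw [e, e', hmul, hmul, hpow, ES.Mid.HGF.formalN_C, hg0, ← hv', ← hd, map_pow]
  ring

theorem LemD_fixF_step {N p : ℕ} {H : Subgroup GQ} {c : Qbar} {v g : FF N} (hc : FixK H c)
    (hv : FixF N H v) (hg : FixF N H g) : FixF N H (algebraMap Qbar (FF N) c * v * g ^ p) := by
  intro σ hσ
  rw [map_mul, map_mul, map_pow, hv σ hσ, hg σ hσ, ES.Mid.HGF.gal_const, hc σ hσ]

theorem LemD_Rel.isDiv {N p : ℕ} {u v : FF N} (h : LemD_Rel N p u v) (hu : IsDiv N p u) :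
    IsDiv N p v := by
  obtain ⟨c, g, hc, hg, rfl⟩ := h
  refine ES.Mid.GLUE.isDiv_mul (ES.Mid.GLUE.isDiv_mul (ES.Mid.FIX.isDiv_const N p hc) hu)
    ⟨pow_ne_zero _ hg, fun P => ?_⟩
  rw [← zpow_natCast, Place.ord_zpow]
  exact Dvd.intro _ rfl

theorem LemD_Rel.root {N p : ℕ} (hp : 0 < p) {u v : FF N} (h : LemD_Rel N p u v) {y : FF N}
    (hy : y ^ p = v) : ∃ g : FF N, u = g ^ p := by
  obtain ⟨c, g, hc, hg, rfl⟩ := h
  obtain ⟨γ, hγ⟩ := IsAlgClosed.exists_pow_nat_eq c hp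
  refine ⟨y * (algebraMap Qbar (FF N) γ * g)⁻¹, ?_⟩
  rw [mul_pow, hy, inv_pow, mul_pow, ← map_pow, hγ]
  have h1 : algebraMap Qbar (FF N) c ≠ 0 :=
    (map_ne_zero_iff _ (algebraMap Qbar (FF N)).injective).2 hc
  have h2 : g ^ p ≠ 0 := pow_ne_zero _ hg
  field_simp

/-- **Lemma D.** -/
theorem stmt_LemmaD (hAFF : Stmt_AFF) (hUnr : Stmt_Unr) (hUW : Stmt_UnifW) (hTame : Stmt_Tame)
    (hH90 : Stmt_H90) (hKer : Stmt_KerInW) (hRep : Stmt_RepFix) (hDS : Stmt_DStep)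
    (hNM : Stmt_NMem) : Stmt_LemmaD := by
  intro p _ hp hp2 A hA N _ hpN ζ hζ u hu hT hI
  have hp1 : 0 < p - 1 := Nat.sub_pos_of_lt hp.one_lt
  obtain ⟨w, hw⟩ := IsAlgClosed.exists_pow_nat_eq (-(p : Qbar)) hp1
  obtain ⟨hSm, hUnif⟩ := hUW p hp A hA w hw
  have halg : Algebra.IsAlgebraic ℚ Qbar := AlgebraicClosure.isAlgebraic ℚ
  have hwint : IsIntegral ℚ w := (Algebra.IsAlgebraic.isAlgebraic w).isIntegral
  have hfin : FiniteDimensional ℚ (IntermediateField.adjoin ℚ {w}) :=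
    IntermediateField.adjoin.finiteDimensional hwint
  have hwmem : w ∈ IntermediateField.adjoin ℚ {w} := IntermediateField.mem_adjoin_simple_self ℚ w
  set H : Subgroup GQ :=
    A.inertiaSubgroupIn ℚ ⊓ (IntermediateField.adjoin ℚ {w}).fixingSubgroup with hH
  have hLvl : Lvl A H w := hUnr p hp A hA _ hfin w hwmem hSm hUnif
  -- the class of `u` is fixed by `H`
  have hfixcl : ∀ σ ∈ H, ∃ g : FF N, gal N σ u = u * g ^ p := by
    intro s hs
    have hsI : s ∈ A.inertiaSubgroupIn ℚ := hs.1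
    have hsw : s w = w := hLvl.fix s hs
    obtain ⟨c, hc⟩ := LemD_exists_actsMu hζ s
    have h1 := hTame p hp A hA w hw s hsI c hc
    rw [hsw, mul_inv_cancel₀ hSm.1] at h1
    have hc0 : c ≠ 0 := by
      rintro rfl
      rw [Nat.cast_zero, sub_zero] at h1
      exact (A.mem_nonunits_iff.1 h1).ne (map_one _)
    have h2 : (((c - 1 : ℕ)) : Qbar) ∈ A.nonunits := by
      rw [Nat.cast_sub (Nat.one_le_iff_ne_zero.2 hc0), Nat.cast_one, ← neg_sub]
      rw [A.mem_nonunits_iff] at h1 ⊢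
      rwa [Valuation.map_neg]
    obtain ⟨m, hm⟩ := LemD_dvd_of_mem_nonunits hp hA h2
    obtain ⟨g, hg⟩ := hI s hsI c hc
    refine ⟨u ^ m * g, ?_⟩
    have hc' : c = 1 + p * m := by omega
    rw [hg, hc', pow_add, pow_one, mul_pow, mul_comm p m, pow_mul, mul_assoc]
  obtain ⟨c₀, b, hc₀, hb, hfix1⟩ := hH90 N p H u hp.pos hu.1 hfixcl
  have hrel1 : LemD_Rel N p u (algebraMap Qbar (FF N) c₀ * u * b ^ p) := ⟨c₀, b, hc₀, hb, rfl⟩
  set u₁ : FF N := algebraMap Qbar (FF N) c₀ * u * b ^ p with hu₁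
  obtain ⟨g₁, hg₁⟩ := hrel1.tpow hNM hp hpN hζ hT
  have hInW : InW A N p u₁ := hKer p hp A hA N hpN ζ hζ u₁ g₁ (hrel1.isDiv hu).1 hg₁
  obtain ⟨c₂, g₂, hc₂, hc₂f, hg₂, hg₂f, hCg₂⟩ := hRep p hp A hA H w hLvl N hpN u₁ hfix1 hInW
  -- the induction
  have key : ∀ a : ℕ, a ≤ p → ∃ v : FF N, LemD_Rel N p u v ∧ FixF N H v ∧
      Cg A (w ^ (a + 1)) (v : LaurentSeries Qbar) 1 := by
    intro a
    induction a with
    | zero =>
      intro _
      refine ⟨algebraMap Qbar (FF N) c₂ * u₁ * g₂ ^ p, hrel1.step hc₂ hg₂,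
        LemD_fixF_step hc₂f hfix1 hg₂f, ?_⟩
      rw [zero_add, pow_one, LemD_coe_step]
      exact hCg₂
    | succ a ih =>
      intro ha
      obtain ⟨v, hv1, hv2, hv3⟩ := ih (by omega)
      obtain ⟨c, g, hc, hcf, hg, hgf, hCg⟩ := hDS p hp hp2 A hA H w hw hLvl N hpN ζ hζ v (a + 1)
        (by omega) ha hv2 hv3 (hv1.tpow hNM hp hpN hζ hT)
      exact ⟨algebraMap Qbar (FF N) c * v * g ^ p, hv1.step hc hg, LemD_fixF_step hcf hv2 hgf,
        by rw [LemD_coe_step]; exact hCg⟩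
  obtain ⟨v, hv1, -, hv3⟩ := key p le_rfl
  rw [pow_succ] at hv3
  obtain ⟨y, hy⟩ := hAFF p hp hp2 A hA N hpN w w hw hSm v (hv1.isDiv hu) hv3
  exact hv1.root hp.pos hy

end Fermat.Agent.ORD.Dep

end

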