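import Fermat.Agent.ORD.Dep.Interface

/-!
# ORD / Dep : (FL-REP) a representative `≡ 1 mod π` in `F_N^H` (helper19)
-/

set_option autoImplicit false

noncomputable section

namespace Fermat.Agent.ORD.Dep

open ModularCurve
open Fermat.Agent.S24 (Qbar FF)
open Fermat.Agent.ES.Mid (GQ gal IsDiv formalN twProd compress tw)
open Fermat.Agent.INJ.Inst (kA)

namespace RepFixAux

theorem go_of_rd_ne_zero {A : ValuationSubring Qbar} {x : LaurentSeries Qbar} (h : rd A x ≠ 0) :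
    GO A x := by
  by_contra hx
  apply h
  unfold rd INJ.Inst.Gauss.red
  unfold GO at hx
  rw [dif_neg hx]

theorem rd_zero (A : ValuationSubring Qbar) : rd A 0 = 0 := by
  unfold rd
  rw [INJ.Inst.Gauss.red_eq INJ.Inst.Gauss.isRatio_zero, map_zero, zero_div]

theorem go_zero (A : ValuationSubring Qbar) : GO A 0 := ⟨_, _, INJ.Inst.Gauss.isRatio_zero⟩

theorem go_one (A : ValuationSubring Qbar) : GO A 1 := ⟨_, _, INJ.Inst.Gauss.isRatio_one⟩

theorem rd_one (A : ValuationSubring Qbar) : rd A 1 = 1 := by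
  unfold rd
  rw [INJ.Inst.Gauss.red_eq INJ.Inst.Gauss.isRatio_one, map_one, div_one]

theorem gal_const (N : ℕ) (σ : GQ) (c : Qbar) :
    gal N σ (algebraMap Qbar (FF N) c) = algebraMap Qbar (FF N) (σ c) := by
  apply Subtype.ext
  rw [Fermat.Agent.ES.Mid.coe_gal]
  show ModularCurve.coeffMap (σ : Qbar →+* Qbar) (algebraMap Qbar (LaurentSeries Qbar) c) =
    algebraMap Qbar (LaurentSeries Qbar) (σ c)
  rw [ModularCurve.algebraMap_laurentSeries_eq_single,
    ModularCurve.algebraMap_laurentSeries_eq_single, ModularCurve.coeffMap_single]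
  rfl

theorem cst_mul (a b : Qbar) : cst (a * b) = cst a * cst b := map_mul _ a b

theorem cst_pow (a : Qbar) (n : ℕ) : cst (a ^ n) = cst a ^ n := map_pow _ a n

theorem cst_one : cst 1 = 1 := map_one _

theorem cst_zero : cst 0 = 0 := map_zero _

theorem mem_of_sm {A : ValuationSubring Qbar} {a : Qbar} (h : Sm A a) : a ∈ A :=
  (ValuationSubring.mem_nonunits_iff_exists_mem_maximalIdeal.1 h.2).choose

theorem zpow_mem {A : ValuationSubring Qbar} {a : Qbar} (h : a ∈ A) {n : ℤ} (hn : 0 ≤ n) :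
    a ^ n ∈ A := by
  obtain ⟨j, rfl⟩ := Int.eq_ofNat_of_zero_le hn
  rw [zpow_natCast]
  exact A.pow_mem h j

theorem residue_eq {A : ValuationSubring Qbar} {a b : Qbar} (ha : a ∈ A) (hb : b ∈ A)
    (h : a - b ∈ A.nonunits) :
    IsLocalRing.residue A ⟨a, ha⟩ = IsLocalRing.residue A ⟨b, hb⟩ := by
  rw [← sub_eq_zero, ← map_sub, IsLocalRing.residue_eq_zero_iff,
    ← ValuationSubring.coe_mem_nonunits_iff]
  exact h

end RepFixAux

open RepFixAux in
theorem stmt_RepFix (hApi : Stmt_GOApi) (hGD : Stmt_GaussDisc) (hLF : Stmt_LiftFix)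
    (hT : Stmt_Teich) : Stmt_RepFix := by
  intro p hp A hA H π hL N _ hpN u hu hW
  obtain ⟨c1, g1, hc1, hg1, hx1⟩ := hW
  obtain ⟨api1, api2, api3, api4, -, api6, -⟩ := hApi A
  -- convenient forms of the API
  have gmul : ∀ x y, GO A x → GO A y → GO A (x * y) := fun x y hx hy => (api1 x y hx hy).2.1
  have rmul : ∀ x y, GO A x → GO A y → rd A (x * y) = rd A x * rd A y :=
    fun x y hx hy => (api1 x y hx hy).2.2.2.2.1
  have gpow : ∀ x, GO A x → ∀ n : ℕ, GO A (x ^ n) ∧ rd A (x ^ n) = rd A x ^ n := by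
    intro x hx n
    induction n with
    | zero => simpa using ⟨go_one A, rd_one A⟩
    | succ n ih =>
      rw [pow_succ, pow_succ]
      exact ⟨gmul _ _ ih.1 hx, by rw [rmul _ _ ih.1 hx, ih.2]⟩
  have hπ0 : π ≠ 0 := hL.sm.1
  have hπA : π ∈ A := mem_of_sm hL.sm
  have one_ne : (1 : LaurentSeries (kA A)) ≠ 0 := one_ne_zero
  have hx1G : GO A (cst c1 * (u : LaurentSeries Qbar) * (g1 : LaurentSeries Qbar) ^ p) :=
    go_of_rd_ne_zero (by rw [hx1]; exact one_ne)
  have hu0 : u ≠ 0 := by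
    rintro rfl
    have : cst c1 * ((0 : FF N) : LaurentSeries Qbar) * (g1 : LaurentSeries Qbar) ^ p = 0 := by
      simp
    rw [this, rd_zero] at hx1
    exact one_ne hx1.symm
  -- normalisation of `u` and `g1`
  obtain ⟨n, hu0G, hu0r⟩ := hGD A H π hL N u hu0 hu
  obtain ⟨c2, hc2, hg2G, hg2r⟩ := api4 N g1 hg1
  set u0 : LaurentSeries Qbar := cst (π ^ (-n)) * (u : LaurentSeries Qbar) with hu0def
  set g2 : LaurentSeries Qbar := cst c2 * (g1 : LaurentSeries Qbar) with hg2def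
  set c3 : Qbar := c1 * π ^ n * (c2⁻¹) ^ p with hc3def
  have hyG : GO A (u0 * g2 ^ p) := gmul _ _ hu0G (gpow _ hg2G p).1
  have hyr : rd A (u0 * g2 ^ p) = rd A u0 * rd A g2 ^ p := by
    rw [rmul _ _ hu0G (gpow _ hg2G p).1, (gpow _ hg2G p).2]
  have hyr0 : rd A (u0 * g2 ^ p) ≠ 0 := by
    rw [hyr]; exact mul_ne_zero hu0r (pow_ne_zero _ hg2r)
  have hy0 : u0 * g2 ^ p ≠ 0 := by
    intro h0
    rw [h0, rd_zero] at hyr0
    exact hyr0 rfl
  have hx1eq : cst c1 * (u : LaurentSeries Qbar) * (g1 : LaurentSeries Qbar) ^ p =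
      cst c3 * (u0 * g2 ^ p) := by
    have e : c3 * π ^ (-n) * c2 ^ p = c1 := by
      rw [hc3def, zpow_neg, inv_pow]
      have h1 : π ^ n ≠ 0 := zpow_ne_zero _ hπ0
      have h2 : c2 ^ p ≠ 0 := pow_ne_zero _ hc2
      field_simp
    rw [hu0def, hg2def, mul_pow, ← cst_pow]
    calc cst c1 * (u : LaurentSeries Qbar) * (g1 : LaurentSeries Qbar) ^ p
        = cst (c3 * π ^ (-n) * c2 ^ p) * (u : LaurentSeries Qbar) *
            (g1 : LaurentSeries Qbar) ^ p := by rw [e]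
      _ = _ := by
          rw [cst_mul, cst_mul]
          ring
  have hc3eq : cst c3 = (cst c1 * (u : LaurentSeries Qbar) * (g1 : LaurentSeries Qbar) ^ p) *
      (u0 * g2 ^ p)⁻¹ := by
    rw [hx1eq, mul_assoc, mul_inv_cancel₀ hy0, mul_one]
  obtain ⟨hyiG, hyir⟩ := api3 _ hyG hyr0
  have hc3G : GO A (cst c3) := by rw [hc3eq]; exact gmul _ _ hx1G hyiG
  have hc3A : c3 ∈ A := api6 c3 hc3G
  -- lifts
  obtain ⟨g, hgfix, hgG, hgr⟩ := hLF p hp A hA N hpN (algebraMap Qbar (FF N) c2 * g1) hg2G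
  have hgr' : rd A (g : LaurentSeries Qbar) = rd A g2 := hgr
  obtain ⟨c4, hc4A, hc4fix, hc34⟩ := hT p hp A hA c3 hc3A
  have hrc : rd A (cst c4) = rd A (cst c3) := by
    rw [(api2 c4 hc4A).2 hc4A, (api2 c3 hc3A).2 hc3A, residue_eq hc3A hc4A hc34]
  have hc4G : GO A (cst c4) := (api2 c4 hc4A).1
  have hrc3 : rd A (cst c3) ≠ 0 := by
    intro h0
    have := rmul _ _ hc3G hyG
    rw [← hx1eq, hx1, h0, zero_mul] at this
    exact one_ne this
  have hc40 : c4 ≠ 0 := by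
    rintro rfl
    apply hrc3
    rw [← hrc]
    rw [cst_zero, rd_zero]
  have hg0 : g ≠ 0 := by
    rintro rfl
    apply hg2r
    rw [← hgr']
    exact rd_zero A
  have hHI : ∀ σ ∈ H, σ ∈ A.inertiaSubgroupIn ℚ := fun σ hσ => hL.le hσ
  have hcfix : FixK H (c4 * π ^ (-n)) := by
    intro σ hσ
    rw [map_mul, map_zpow₀, hc4fix σ (hHI σ hσ), hL.fix σ hσ]
  have hgfixH : FixF N H g := fun σ hσ => hgfix σ (hHI σ hσ)
  refine ⟨c4 * π ^ (-n), g, mul_ne_zero hc40 (zpow_ne_zero _ hπ0), hcfix, hg0, hgfixH, ?_⟩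
  -- the new representative
  set X : LaurentSeries Qbar :=
    cst (c4 * π ^ (-n)) * (u : LaurentSeries Qbar) * (g : LaurentSeries Qbar) ^ p with hXdef
  have hXeq : X = cst c4 * (u0 * (g : LaurentSeries Qbar) ^ p) := by
    rw [hXdef, hu0def, cst_mul]
    ring
  have hzG : GO A (u0 * (g : LaurentSeries Qbar) ^ p) := gmul _ _ hu0G (gpow _ hgG p).1
  have hXG : GO A X := by rw [hXeq]; exact gmul _ _ hc4G hzG
  have hXr : rd A X = 1 := by
    rw [hXeq, rmul _ _ hc4G hzG, rmul _ _ hu0G (gpow _ hgG p).1, (gpow _ hgG p).2, hgr', hrc,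
      ← hyr, ← rmul _ _ hc3G hyG, ← hx1eq, hx1]
  have hm1G : GO A (-1 : LaurentSeries Qbar) := (api1 1 1 (go_one A) (go_one A)).2.2.1
  have hm1r : rd A (-1 : LaurentSeries Qbar) = -1 := by
    rw [(api1 1 1 (go_one A) (go_one A)).2.2.2.2.2, rd_one]
  have hvG : GO A (X + -1) := (api1 X (-1) hXG hm1G).1
  have hvr : rd A (X + -1) = 0 := by
    rw [(api1 X (-1) hXG hm1G).2.2.2.1, hXr, hm1r, add_neg_cancel]
  -- `v` as an element of `FF N`
  set vF : FF N := algebraMap Qbar (FF N) (c4 * π ^ (-n)) * u * g ^ p + -1 with hvF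
  have hvcoe : (vF : LaurentSeries Qbar) = X + -1 := rfl
  have hvfix : FixF N H vF := by
    intro σ hσ
    rw [hvF, map_add, map_mul, map_mul, map_pow, map_neg, map_one, gal_const, hcfix σ hσ,
      hu σ hσ, hgfixH σ hσ]
  by_cases hv0 : vF = 0
  · refine ⟨0, go_zero A, ?_⟩
    have : X + -1 = 0 := by rw [← hvcoe, hv0]; rfl
    rw [mul_zero, add_zero]
    exact add_neg_eq_zero.1 this
  · obtain ⟨m, htG, htr⟩ := hGD A H π hL N vF hv0 hvfix
    rw [hvcoe] at htG htr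
    have hm : 1 ≤ m := by
      by_contra hlt
      have hmem : π ^ (-m) ∈ A := zpow_mem hπA (by omega)
      apply htr
      rw [rmul _ _ (api2 _ hmem).1 hvG, hvr, mul_zero]
    have hmem : π ^ (m - 1) ∈ A := zpow_mem hπA (by omega)
    refine ⟨cst (π ^ (m - 1)) * (cst (π ^ (-m)) * (X + -1)), gmul _ _ (api2 _ hmem).1 htG, ?_⟩
    have e : π * π ^ (m - 1) * π ^ (-m) = 1 := by
      rw [← zpow_one_add₀ hπ0, ← zpow_add₀ hπ0]
      have : 1 + (m - 1) + -m = 0 := by ring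
      rw [this, zpow_zero]
    have e' : cst π * (cst (π ^ (m - 1)) * (cst (π ^ (-m)) * (X + -1))) = X + -1 := by
      rw [← mul_assoc, ← mul_assoc, ← cst_mul, ← cst_mul, e, cst_one, one_mul]
    rw [e']
    ring

end Fermat.Agent.ORD.Dep

end
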