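import Fermat.Agent.ORD.Dep.Interface
import Fermat.Agent.S36.Base.Mu
import Fermat.Agent.S36.Base.Res

/-!
# ORD / Dep : DEP-TEICH, the inertia field has the full residue field

Direct consequence of `S36.Base.stmt_Res` (`A_E → A / 𝔪_A` is onto) and `S36.Base.stmt_Mu`.
-/

set_option autoImplicit false

namespace Fermat.Agent.ORD.Dep

open Fermat.Agent.S24 (Qbar)
open Fermat.Agent.S36.Base (AE IE)

theorem stmt_Teich : Stmt_Teich := by
  intro p hp A hA a ha
  obtain ⟨b, hb⟩ := S36.Base.stmt_Res S36.Base.stmt_Mu p A hp hA ⟨a, ha⟩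
  refine ⟨(AE.toA A b : A), (AE.toA A b).2, fun σ hσ => ?_, ?_⟩
  · rw [AE.coe_toA]
    exact IE.fixed A _ hσ
  · exact ValuationSubring.coe_mem_nonunits_iff.2 hb

end Fermat.Agent.ORD.Dep
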