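import Fermat.Agent.ORD.Dep.AFF
import Fermat.Agent.ORD.Dep.B1
import Fermat.Agent.ORD.Dep.B2
import Fermat.Agent.ORD.Dep.C
import Fermat.Agent.ORD.Dep.DStep
import Fermat.Agent.ORD.Dep.Disc
import Fermat.Agent.ORD.Dep.DpEnd
import Fermat.Agent.ORD.Dep.DpStep
import Fermat.Agent.ORD.Dep.GOApi
import Fermat.Agent.ORD.Dep.GaussDisc
import Fermat.Agent.ORD.Dep.H90
import Fermat.Agent.ORD.Dep.KerInW
import Fermat.Agent.ORD.Dep.LemmaD
import Fermat.Agent.ORD.Dep.LemmaDp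
import Fermat.Agent.ORD.Dep.LiftFix
import Fermat.Agent.ORD.Dep.NMem
import Fermat.Agent.ORD.Dep.RepFix
import Fermat.Agent.ORD.Dep.Tame
import Fermat.Agent.ORD.Dep.Teich
import Fermat.Agent.ORD.Dep.UnifW
import Fermat.Agent.ORD.Dep.Unr

/-!
# ORD / Dep : assembly.  Lemma D and Lemma D' unconditionally (helper79)
-/

set_option autoImplicit false

namespace Fermat.Agent.ORD.Dep

theorem all_LiftFix : Stmt_LiftFix := stmt_LiftFix stmt_Teich

theorem all_B2 : Stmt_B2 := stmt_B2 stmt_GOApi stmt_GaussDisc' stmt_Teich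

theorem all_B1 : Stmt_B1 := stmt_B1 stmt_GOApi stmt_GaussDisc' stmt_Teich

theorem all_RepFix : Stmt_RepFix := stmt_RepFix stmt_GOApi stmt_GaussDisc' all_LiftFix stmt_Teich

theorem all_KerInW : Stmt_KerInW := stmt_KerInW stmt_GOApi stmt_FrobRoot

theorem all_DStep : Stmt_DStep :=
  stmt_DStep stmt_GOApi stmt_GaussDisc' stmt_Teich all_LiftFix stmt_FrobRoot stmt_KD stmt_C1 all_B2
    stmt_NMem

/-- **Lemma D**, unconditionally. -/
theorem all_LemmaD : Stmt_LemmaD :=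
  stmt_LemmaD aff stmt_Unr stmt_UnifW stmt_Tame stmt_H90 all_KerInW all_RepFix all_DStep stmt_NMem

theorem all_D'Step : Stmt_D'Step :=
  stmt_D'Step stmt_GOApi stmt_GaussDisc' stmt_Teich all_LiftFix stmt_FrobRoot stmt_KD stmt_C1 all_B1
    stmt_NMem

theorem all_D'End : Stmt_D'End := stmt_D'End aff stmt_Tame stmt_GOApi

/-- **Lemma D'**, unconditionally. -/
theorem all_LemmaD' : Stmt_LemmaD' :=
  stmt_LemmaD' stmt_Disc stmt_Unr stmt_GaussDisc' stmt_GOApi all_D'Step all_D'End stmt_NMem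

end Fermat.Agent.ORD.Dep
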