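import Fermat.Agent.ORD.Dep.Interface
import Fermat.Agent.ES.Mid.Finite
import Fermat.Agent.ES.Mid.HF1
import Fermat.Agent.S24.PlaceBasic

/-!
# ORD / Dep : assembly of Lemma D' (helper17)
-/

set_option autoImplicit false

noncomputable section

namespace Fermat.Agent.ORD.Dep

open ModularCurve AlgebraicCurve
open Fermat.Agent.S24 (Qbar FF)
open Fermat.Agent.ES.Mid (GQ gal coe_gal IsDiv formalN twProd compress tw tw_coeff compress_coeff)
open Fermat.Agent.INJ.Inst (kA)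

/-! ### constants and the formal Hecke operator -/

theorem DP_coe_const (N : ℕ) (c : Qbar) :
    ((algebraMap Qbar (FF N) c : FF N) : LaurentSeries Qbar) = cst c := rfl

theorem DP_cst_single (c : Qbar) : cst c = HahnSeries.single 0 c :=
  algebraMap_laurentSeries_eq_single Qbar c

theorem DP_cst_mul (a b : Qbar) : cst (a * b) = cst a * cst b := map_mul _ a b

theorem DP_cst_pow (a : Qbar) (n : ℕ) : cst (a ^ n) = cst a ^ n := map_pow _ a n

theorem DP_cst_one : cst 1 = 1 := map_one _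

theorem DP_cst_zero : cst 0 = 0 := map_zero _

theorem DP_cst_coeff (c : Qbar) (n : ℤ) : (cst c).coeff n = if n = 0 then c else 0 := by
  classical
  rw [DP_cst_single, HahnSeries.coeff_single]
  split_ifs <;> rfl

theorem DP_cst_ne_zero {c : Qbar} (hc : c ≠ 0) : cst c ≠ 0 :=
  (map_ne_zero_iff _ (algebraMap Qbar (LaurentSeries Qbar)).injective).2 hc

theorem DP_tw_cst (ζ : Qbarˣ) (c : Qbar) : tw ζ (cst c) = cst c := by
  ext n
  rw [tw_coeff, DP_cst_coeff]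
  split_ifs with h
  · subst h; simp
  · simp

theorem DP_twProd_cst (p : ℕ) (ζ : Qbarˣ) (c : Qbar) : twProd p ζ (cst c) = cst (c ^ p) := by
  unfold twProd
  simp only [DP_tw_cst]
  rw [Finset.prod_const, Finset.card_range, DP_cst_pow]

theorem DP_compress_cst (p : ℕ) [NeZero p] (c : Qbar) : compress p (cst c) = cst c := by
  ext n
  rw [compress_coeff, DP_cst_coeff, DP_cst_coeff]
  have hp : p ≠ 0 := NeZero.ne p
  simp [hp]

theorem DP_qExpand_cst (p : ℕ) [NeZero p] (c : Qbar) : qExpand Qbar p (cst c) = cst c := by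
  rw [DP_cst_single, qExpand_single, mul_zero]

theorem DP_formalN_cst (p : ℕ) [NeZero p] (ζ : Qbarˣ) (c : Qbar) :
    formalN p ζ (cst c) = cst (c ^ (p + 1)) := by
  unfold formalN
  rw [DP_qExpand_cst, DP_twProd_cst, DP_compress_cst, ← DP_cst_mul, pow_succ']

/-- the formal Hecke operator as a monoid homomorphism. -/
def DP_T (p : ℕ) [NeZero p] (ζ : Qbarˣ) (hζ : IsPrimitiveRoot ζ p) :
    LaurentSeries Qbar →* LaurentSeries Qbar where
  toFun := formalN p ζ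
  map_one' := (Fermat.Agent.ES.Mid.HF1.hf_mul Qbar p ζ hζ).1
  map_mul' := (Fermat.Agent.ES.Mid.HF1.hf_mul Qbar p ζ hζ).2

theorem DP_iter_mul {p : ℕ} [NeZero p] {ζ : Qbarˣ} (hζ : IsPrimitiveRoot ζ p) (J : ℕ)
    (x y : LaurentSeries Qbar) :
    (formalN p ζ)^[J] (x * y) = (formalN p ζ)^[J] x * (formalN p ζ)^[J] y :=
  iterate_map_mul (DP_T p ζ hζ) J x y

theorem DP_iter_pow {p : ℕ} [NeZero p] {ζ : Qbarˣ} (hζ : IsPrimitiveRoot ζ p) (J : ℕ)
    (x : LaurentSeries Qbar) (n : ℕ) :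
    (formalN p ζ)^[J] (x ^ n) = ((formalN p ζ)^[J] x) ^ n :=
  iterate_map_pow (DP_T p ζ hζ) J x n

theorem DP_iter_cst (p : ℕ) [NeZero p] (ζ : Qbarˣ) (J : ℕ) (c : Qbar) (hc : c ≠ 0) :
    ∃ c' : Qbar, c' ≠ 0 ∧ (formalN p ζ)^[J] (cst c) = cst c' := by
  induction J with
  | zero => exact ⟨c, hc, rfl⟩
  | succ J ih =>
    obtain ⟨c', hc', h⟩ := ih
    exact ⟨c' ^ (p + 1), pow_ne_zero _ hc', by
      rw [Function.iterate_succ_apply', h, DP_formalN_cst]⟩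

theorem DP_iter_mem (hN : Stmt_NMem) (N : ℕ) [NeZero N] (p : ℕ) [NeZero p] (hp : p.Prime)
    (hpN : ¬ p ∣ N) (ζ : Qbarˣ) (hζ : IsPrimitiveRoot ζ p) (J : ℕ) (h : FF N) (hh : h ≠ 0) :
    ∃ v : FF N, v ≠ 0 ∧ (v : LaurentSeries Qbar) = (formalN p ζ)^[J] (h : LaurentSeries Qbar) := by
  induction J with
  | zero => exact ⟨h, hh, rfl⟩
  | succ J ih =>
    obtain ⟨v, hv0, hv⟩ := ih
    obtain ⟨v', hv', hv'0, -⟩ := hN N p hp hpN ζ hζ v
    exact ⟨v', hv'0 hv0, by rw [Function.iterate_succ_apply', ← hv, hv']⟩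

/-- periodicity under `T_p` modulo `p`-th powers. -/
def DP_Per (N p : ℕ) [NeZero p] (ζ : Qbarˣ) (u : FF N) : Prop :=
  ∃ (J : ℕ) (g : FF N), 0 < J ∧
    (formalN p ζ)^[J] (u : LaurentSeries Qbar)
      = (u : LaurentSeries Qbar) * (g : LaurentSeries Qbar) ^ p

theorem DP_per (hN : Stmt_NMem) (N : ℕ) [NeZero N] (p : ℕ) [NeZero p] (hp : p.Prime)
    (hpN : ¬ p ∣ N) (ζ : Qbarˣ) (hζ : IsPrimitiveRoot ζ p) (u : FF N) (hu : DP_Per N p ζ u)
    (c : Qbar) (hc : c ≠ 0) (h : FF N) (hh : h ≠ 0) :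
    DP_Per N p ζ (algebraMap Qbar (FF N) c * u * h ^ p) := by
  obtain ⟨J, g, hJ, hg⟩ := hu
  obtain ⟨c', hc', hcJ⟩ := DP_iter_cst p ζ J c hc
  obtain ⟨v, hv0, hv⟩ := DP_iter_mem hN N p hp hpN ζ hζ J h hh
  obtain ⟨d, hd⟩ := IsAlgClosed.exists_pow_nat_eq (c' * c⁻¹) hp.pos
  refine ⟨J, algebraMap Qbar (FF N) d * g * v * h⁻¹, hJ, ?_⟩
  have hh' : (h : LaurentSeries Qbar) ≠ 0 := fun h0 => hh (Subtype.ext h0)
  have e1 : ((algebraMap Qbar (FF N) c * u * h ^ p : FF N) : LaurentSeries Qbar)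
      = cst c * (u : LaurentSeries Qbar) * (h : LaurentSeries Qbar) ^ p := rfl
  have e2 : ((algebraMap Qbar (FF N) d * g * v * h⁻¹ : FF N) : LaurentSeries Qbar)
      = cst d * (g : LaurentSeries Qbar) * (v : LaurentSeries Qbar) * (h : LaurentSeries Qbar)⁻¹ :=
    rfl
  rw [e1, e2, DP_iter_mul hζ, DP_iter_mul hζ, DP_iter_pow hζ, hcJ, hg, ← hv]
  have e3 : cst c' = cst c * cst d ^ p := by
    rw [← DP_cst_pow, hd, ← DP_cst_mul]
    congr 1
    field_simp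
  rw [e3, mul_pow, mul_pow, mul_pow, inv_pow]
  have hhp : (h : LaurentSeries Qbar) ^ p ≠ 0 := pow_ne_zero _ hh'
  field_simp

/-! ### Galois action -/

theorem DP_gal_const (N : ℕ) (σ : GQ) (c : Qbar) :
    gal N σ (algebraMap Qbar (FF N) c) = algebraMap Qbar (FF N) (σ c) := by
  apply Subtype.ext
  rw [coe_gal, DP_coe_const, DP_coe_const, coeffMap_algebraMap]
  rfl

theorem DP_fix_const {N : ℕ} {H : Subgroup GQ} {c : Qbar} (hc : FixK H c) :
    FixF N H (algebraMap Qbar (FF N) c) := fun σ hσ => by rw [DP_gal_const, hc σ hσ]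

theorem DP_fix_mul {N : ℕ} {H : Subgroup GQ} {x y : FF N} (hx : FixF N H x) (hy : FixF N H y) :
    FixF N H (x * y) := fun σ hσ => by rw [map_mul, hx σ hσ, hy σ hσ]

theorem DP_fix_pow {N : ℕ} {H : Subgroup GQ} {x : FF N} (hx : FixF N H x) (n : ℕ) :
    FixF N H (x ^ n) := fun σ hσ => by rw [map_pow, hx σ hσ]

theorem DP_fix_sub_one {N : ℕ} {H : Subgroup GQ} {x : FF N} (hx : FixF N H x) :
    FixF N H (x - 1) := fun σ hσ => by rw [map_sub, hx σ hσ, map_one]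

theorem DP_fix_rep {N : ℕ} {H : Subgroup GQ} {c : Qbar} {u g : FF N} (hc : FixK H c)
    (hu : FixF N H u) (hg : FixF N H g) (p : ℕ) :
    FixF N H (algebraMap Qbar (FF N) c * u * g ^ p) :=
  DP_fix_mul (DP_fix_mul (DP_fix_const hc) hu) (DP_fix_pow hg p)

/-! ### divisors -/

theorem DP_isDiv_rep {N p : ℕ} {u : FF N} (hu : IsDiv N p u) {c : Qbar} (hc : c ≠ 0) {g : FF N}
    (hg : g ≠ 0) : IsDiv N p (algebraMap Qbar (FF N) c * u * g ^ p) := by
  have hc' : algebraMap Qbar (FF N) c ≠ 0 :=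
    (map_ne_zero_iff _ (algebraMap Qbar (FF N)).injective).2 hc
  refine ⟨mul_ne_zero (mul_ne_zero hc' hu.1) (pow_ne_zero _ hg), fun P => ?_⟩
  rw [Place.ord_mul P (mul_ne_zero hc' hu.1) (pow_ne_zero _ hg), Place.ord_mul P hc' hu.1,
    Fermat.Agent.S24.ord_algebraMap, zero_add, ← zpow_natCast, Place.ord_zpow]
  exact dvd_add (hu.2 P) (Dvd.intro _ rfl)

/-! ### valuations -/

theorem DP_not_unit {A : ValuationSubring Qbar} {x : Qbar} (hx : x ≠ 0) (h : x ∈ A.nonunits)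
    (h' : x⁻¹ ∈ A) : False := by
  rw [ValuationSubring.mem_nonunits_iff] at h
  rw [← ValuationSubring.valuation_le_one_iff, map_inv₀] at h'
  have h0 : A.valuation x ≠ 0 := (Valuation.ne_zero_iff _).2 hx
  have : 1 ≤ A.valuation x := (inv_le_one₀ (zero_lt_iff.2 h0)).1 h'
  exact absurd h (not_lt.2 this)

theorem DP_nonunits_mul {A : ValuationSubring Qbar} {a b : Qbar} (ha : a ∈ A.nonunits)
    (hb : b ∈ A) : a * b ∈ A.nonunits := by
  rw [ValuationSubring.mem_nonunits_iff] at *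
  rw [← ValuationSubring.valuation_le_one_iff] at hb
  rw [map_mul]
  exact lt_of_le_of_lt (mul_le_of_le_one_right' hb) ha

theorem DP_sm_mem {A : ValuationSubring Qbar} {π : Qbar} (h : Sm A π) : π ∈ A := by
  have h2 := h.2
  rw [ValuationSubring.mem_nonunits_iff] at h2
  exact (ValuationSubring.valuation_le_one_iff _ _).1 h2.le

theorem DP_zpow_mem {A : ValuationSubring Qbar} {π : Qbar} (hπ : π ∈ A) {m : ℤ} (hm : 0 ≤ m) :
    π ^ m ∈ A := by
  obtain ⟨k, rfl⟩ := Int.eq_ofNat_of_zero_le hm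
  rw [zpow_natCast]
  exact pow_mem hπ k

theorem DP_w_sm {p : ℕ} (hp : p.Prime) {A : ValuationSubring Qbar} (hA : A.LiesOverPrime p)
    {w : Qbar} (hw : w ^ (p - 1) = -(p : Qbar)) : Sm A w := by
  have hp0 : (p : Qbar) ≠ 0 := by exact_mod_cast hp.ne_zero
  have hp1 : p - 1 ≠ 0 := by have := hp.two_le; omega
  refine ⟨?_, ?_⟩
  · rintro rfl
    rw [zero_pow hp1] at hw
    exact hp0 (neg_eq_zero.1 hw.symm)
  · have hA' : (p : Qbar) ∈ A.nonunits := hA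
    rw [ValuationSubring.mem_nonunits_iff] at hA' ⊢
    by_contra hge
    rw [not_lt] at hge
    have h1 : 1 ≤ A.valuation w ^ (p - 1) := one_le_pow₀ hge
    rw [← map_pow, hw, Valuation.map_neg] at h1
    exact absurd hA' (not_lt.2 h1)

/-- the ramification index of `w`. -/
theorem DP_exists_e {A : ValuationSubring Qbar} {T : Qbar → Prop} {π w : Qbar} (hπ : Sm A π)
    (hU : UnifOn A T π) (hw : Sm A w) (hT : T w) :
    ∃ e' : ℕ, 1 ≤ e' ∧ UnitA A (w * (π ^ e')⁻¹) := by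
  obtain ⟨n, hn⟩ := hU w hw.1 hT
  have hn1 : 1 ≤ n := by
    by_contra hlt
    have h0 : 0 ≤ -n := by omega
    have h1 : w * π ^ (-n) ∈ A.nonunits := DP_nonunits_mul hw.2 (DP_zpow_mem (DP_sm_mem hπ) h0)
    exact DP_not_unit (mul_ne_zero hw.1 (zpow_ne_zero _ hπ.1)) h1 hn.2
  refine ⟨n.toNat, by omega, ?_⟩
  have : (π ^ n.toNat)⁻¹ = π ^ (-n) := by
    rw [zpow_neg, ← zpow_natCast, Int.toNat_of_nonneg (by omega)]
  rw [this]
  exact hn

/-! ### `GO`, `rd`, `Cg` -/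

theorem DP_go_zero (A : ValuationSubring Qbar) : GO A 0 :=
  ⟨0, 1, INJ.Inst.Gauss.isRatio_zero⟩

theorem DP_go_one (A : ValuationSubring Qbar) : GO A 1 :=
  ⟨1, 1, INJ.Inst.Gauss.isRatio_one⟩

theorem DP_rd_one (A : ValuationSubring Qbar) : rd A 1 = 1 := by
  unfold rd
  rw [INJ.Inst.Gauss.red_eq INJ.Inst.Gauss.isRatio_one, map_one, div_one]

theorem DP_go_of_rd_ne_zero {A : ValuationSubring Qbar} {x : LaurentSeries Qbar}
    (h : rd A x ≠ 0) : GO A x := by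
  by_contra hx
  apply h
  unfold rd INJ.Inst.Gauss.red
  exact dif_neg hx

theorem DP_cg_mono (hG : Stmt_GOApi) {A : ValuationSubring Qbar} {c d e : Qbar} (hcd : c = d * e)
    (he : e ∈ A) {x y : LaurentSeries Qbar} (h : Cg A c x y) : Cg A d x y := by
  obtain ⟨ga, gc, -⟩ := hG A
  obtain ⟨z, hz, rfl⟩ := h
  exact ⟨cst e * z, (ga _ _ (gc e he).1 hz).2.1, by rw [hcd, DP_cst_mul, mul_assoc]⟩

/-- an `H`-fixed function with reduction `1` is `≡ 1 mod π`. -/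
theorem DP_cg_pi (hG : Stmt_GOApi) (hD : Stmt_GaussDisc) {A : ValuationSubring Qbar}
    {H : Subgroup GQ} {π : Qbar} (hL : Lvl A H π) (N : ℕ) [NeZero N] (u : FF N)
    (hu : FixF N H u) (hrd : rd A (u : LaurentSeries Qbar) = 1) :
    Cg A π (u : LaurentSeries Qbar) 1 := by
  obtain ⟨ga, gc, -⟩ := hG A
  have hπA : π ∈ A := DP_sm_mem hL.sm
  have hπ0 : π ≠ 0 := hL.sm.1
  by_cases hv : u - 1 = 0
  · refine ⟨0, DP_go_zero A, ?_⟩
    rw [sub_eq_zero.1 hv, mul_zero, add_zero]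
    rfl
  obtain ⟨n, hn, hnr⟩ := hD A H π hL N (u - 1) hv (DP_fix_sub_one hu)
  have hcoe : ((u - 1 : FF N) : LaurentSeries Qbar) = (u : LaurentSeries Qbar) + -1 := by
    rw [← sub_eq_add_neg]; rfl
  have hgu : GO A (u : LaurentSeries Qbar) :=
    DP_go_of_rd_ne_zero (by rw [hrd]; exact one_ne_zero)
  have hg1 : GO A (-1 : LaurentSeries Qbar) := (ga 1 1 (DP_go_one A) (DP_go_one A)).2.2.1
  have hr1 : rd A (-1 : LaurentSeries Qbar) = -1 := by
    rw [(ga 1 1 (DP_go_one A) (DP_go_one A)).2.2.2.2.2, DP_rd_one]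
  have hgv : GO A ((u - 1 : FF N) : LaurentSeries Qbar) := by
    rw [hcoe]; exact (ga _ _ hgu hg1).1
  have hrv : rd A ((u - 1 : FF N) : LaurentSeries Qbar) = 0 := by
    rw [hcoe, (ga _ _ hgu hg1).2.2.2.1, hrd, hr1, add_neg_cancel]
  have hn1 : 1 ≤ n := by
    by_contra hlt
    have h0 : 0 ≤ -n := by omega
    apply hnr
    rw [(ga _ _ (gc _ (DP_zpow_mem hπA h0)).1 hgv).2.2.2.2.1, hrv, mul_zero]
  refine ⟨cst (π ^ (n - 1)) * (cst (π ^ (-n)) * ((u - 1 : FF N) : LaurentSeries Qbar)),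
    (ga _ _ (gc _ (DP_zpow_mem hπA (by omega))).1 hn).2.1, ?_⟩
  rw [← mul_assoc, ← mul_assoc, ← DP_cst_mul, ← DP_cst_mul]
  have : π * π ^ (n - 1) * π ^ (-n) = 1 := by
    rw [← zpow_one_add₀ hπ0, ← zpow_add₀ hπ0]
    have : 1 + (n - 1) + -n = 0 := by ring
    rw [this, zpow_zero]
  rw [this, DP_cst_one, one_mul, hcoe]
  ring

/-! ### the iteration -/

theorem DP_iterate (hS : Stmt_D'Step) (hN : Stmt_NMem) (p : ℕ) [NeZero p]
    (hp : p.Prime) (hp2 : p ≠ 2) (A : ValuationSubring Qbar) (hA : A.LiesOverPrime p)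
    (H : Subgroup GQ) (π w : Qbar) (e' : ℕ) (hw : w ^ (p - 1) = -(p : Qbar)) (hL : Lvl A H π)
    (he : UnitA A (w * (π ^ e')⁻¹)) (N : ℕ) [NeZero N] (hpN : ¬ p ∣ N) (ζ : Qbarˣ)
    (hζ : IsPrimitiveRoot ζ p) (u : FF N) (hu : FixF N H u) (hper : DP_Per N p ζ u)
    (hcg : Cg A π (u : LaurentSeries Qbar) 1) (a : ℕ) (ha : 1 ≤ a) :
    a ≤ p * e' → ∃ (c : Qbar) (g : FF N), c ≠ 0 ∧ FixK H c ∧ g ≠ 0 ∧ FixF N H g ∧
      Cg A (π ^ a) (cst c * (u : LaurentSeries Qbar) * (g : LaurentSeries Qbar) ^ p) 1 := by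
  induction a, ha using Nat.le_induction with
  | base =>
    intro _
    refine ⟨1, 1, one_ne_zero, fun σ _ => map_one σ, one_ne_zero, fun σ _ => map_one _, ?_⟩
    have : cst 1 * (u : LaurentSeries Qbar) * ((1 : FF N) : LaurentSeries Qbar) ^ p
        = (u : LaurentSeries Qbar) := by
      have h1 : ((1 : FF N) : LaurentSeries Qbar) = 1 := rfl
      rw [DP_cst_one, h1, one_pow, one_mul, mul_one]
    rw [this, pow_one]
    exact hcg
  | succ a ha ih =>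
    intro hle
    obtain ⟨c, g, hc, hcH, hg, hgH, hcga⟩ := ih (by omega)
    obtain ⟨c', g', hc', hc'H, hg', hg'H, hcg'⟩ := hS p hp hp2 A hA H π w e' hw hL he N hpN ζ hζ
      (algebraMap Qbar (FF N) c * u * g ^ p) a ha (by omega) (DP_fix_rep hcH hu hgH p) hcga
      (DP_per hN N p hp hpN ζ hζ u hper c hc g hg)
    refine ⟨c' * c, g * g', mul_ne_zero hc' hc, fun σ hσ => by rw [map_mul, hc'H σ hσ, hcH σ hσ],
      mul_ne_zero hg hg', DP_fix_mul hgH hg'H, ?_⟩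
    have e1 : ((algebraMap Qbar (FF N) c * u * g ^ p : FF N) : LaurentSeries Qbar)
        = cst c * (u : LaurentSeries Qbar) * (g : LaurentSeries Qbar) ^ p := rfl
    have e2 : ((g * g' : FF N) : LaurentSeries Qbar)
        = (g : LaurentSeries Qbar) * (g' : LaurentSeries Qbar) := rfl
    rw [e1] at hcg'
    have e3 : cst (c' * c) * (u : LaurentSeries Qbar) * ((g * g' : FF N) : LaurentSeries Qbar) ^ p
        = cst c' * (cst c * (u : LaurentSeries Qbar) * (g : LaurentSeries Qbar) ^ p)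
          * (g' : LaurentSeries Qbar) ^ p := by
      rw [e2, DP_cst_mul, mul_pow]; ring
    rw [e3]
    exact hcg'

/-- transport of the conclusion along `u₂ = C u G ^ p`. -/
theorem DP_transport (N p : ℕ) (hp : 0 < p) (s : GQ) (c₀ : ℕ) (u G g' : FF N) (C : Qbar)
    (hC : C ≠ 0) (hG : G ≠ 0)
    (h : gal N s (algebraMap Qbar (FF N) C * u * G ^ p)
      = (algebraMap Qbar (FF N) C * u * G ^ p) ^ c₀ * g' ^ p) :
    ∃ g : FF N, gal N s u = u ^ c₀ * g ^ p := by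
  obtain ⟨d, hd⟩ := IsAlgClosed.exists_pow_nat_eq (C ^ c₀ * (s C)⁻¹) hp
  have hsC : s C ≠ 0 := (map_ne_zero_iff _ s.injective).2 hC
  have hK : algebraMap Qbar (FF N) (s C) ≠ 0 :=
    (map_ne_zero_iff _ (algebraMap Qbar (FF N)).injective).2 hsC
  have hsG : gal N s G ≠ 0 := (map_ne_zero_iff _ (gal N s).injective).2 hG
  rw [map_mul, map_mul, map_pow, DP_gal_const] at h
  have hD : algebraMap Qbar (FF N) d ^ p * algebraMap Qbar (FF N) (s C)
      = algebraMap Qbar (FF N) C ^ c₀ := by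
    rw [← map_pow, hd, ← map_mul, ← map_pow]
    congr 1
    field_simp
  refine ⟨algebraMap Qbar (FF N) d * G ^ c₀ * g' * (gal N s G)⁻¹, ?_⟩
  have hne : algebraMap Qbar (FF N) (s C) * gal N s G ^ p ≠ 0 := mul_ne_zero hK (pow_ne_zero _ hsG)
  apply mul_left_cancel₀ hne
  have hinv : gal N s G ^ p * ((gal N s G)⁻¹) ^ p = 1 := by
    rw [← mul_pow, mul_inv_cancel₀ hsG, one_pow]
  calc algebraMap Qbar (FF N) (s C) * gal N s G ^ p * gal N s u
      = algebraMap Qbar (FF N) (s C) * gal N s u * gal N s G ^ p := by ring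
    _ = (algebraMap Qbar (FF N) C * u * G ^ p) ^ c₀ * g' ^ p := h
    _ = (algebraMap Qbar (FF N) d ^ p * algebraMap Qbar (FF N) (s C)) * u ^ c₀ * (G ^ c₀) ^ p
          * g' ^ p * (gal N s G ^ p * ((gal N s G)⁻¹) ^ p) := by
        rw [hD, hinv]; ring
    _ = _ := by ring

/-- **Lemma D'.** -/
theorem stmt_LemmaD' (hDisc : Stmt_Disc) (hUnr : Stmt_Unr) (hGD : Stmt_GaussDisc)
    (hG : Stmt_GOApi) (hS : Stmt_D'Step) (hE : Stmt_D'End) (hN : Stmt_NMem) : Stmt_LemmaD' := by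
  intro p _ hp hp2 A hA N _ hpN ζ hζ u hdiv hW hper s hs c₀ hact
  obtain ⟨w, hw⟩ := IsAlgClosed.exists_pow_nat_eq (-(p : Qbar))
    (show 0 < p - 1 by have := hp.two_le; omega)
  obtain ⟨c1, g1, hc1, hg1, hrd⟩ := hW
  obtain ⟨Lu, hLu, hfu⟩ := Fermat.Agent.ES.Mid.LM.fixedOpen N u
  obtain ⟨Lg, hLg, hfg⟩ := Fermat.Agent.ES.Mid.LM.fixedOpen N g1
  have hint : ∀ x : Qbar, IsIntegral ℚ x := fun x =>
    ((AlgebraicClosure.isAlgebraic ℚ).isAlgebraic x).isIntegral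
  have hLw : FiniteDimensional ℚ (IntermediateField.adjoin ℚ ({w, c1} : Set Qbar)) :=
    IntermediateField.finiteDimensional_adjoin (fun x _ => hint x)
  obtain ⟨L0, hL0⟩ : ∃ L0 : IntermediateField ℚ Qbar,
      L0 = Lu ⊔ Lg ⊔ IntermediateField.adjoin ℚ ({w, c1} : Set Qbar) := ⟨_, rfl⟩
  have hL0fd : FiniteDimensional ℚ L0 := by
    rw [hL0]
    have := IntermediateField.finiteDimensional_sup Lu Lg
    exact IntermediateField.finiteDimensional_sup _ _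
  have hLuL0 : Lu ≤ L0 := by rw [hL0]; exact le_trans le_sup_left le_sup_left
  have hLgL0 : Lg ≤ L0 := by rw [hL0]; exact le_trans le_sup_right le_sup_left
  have hwL0 : w ∈ L0 := by
    rw [hL0]
    exact (le_sup_right : _ ≤ Lu ⊔ Lg ⊔ IntermediateField.adjoin ℚ ({w, c1} : Set Qbar))
      (IntermediateField.subset_adjoin ℚ _ (by simp))
  have hc1L0 : c1 ∈ L0 := by
    rw [hL0]
    exact (le_sup_right : _ ≤ Lu ⊔ Lg ⊔ IntermediateField.adjoin ℚ ({w, c1} : Set Qbar))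
      (IntermediateField.subset_adjoin ℚ _ (by simp))
  obtain ⟨π, hπL0, hπsm, hπU⟩ := hDisc p hp A hA L0 hL0fd
  have hL := hUnr p hp A hA L0 hL0fd π hπL0 hπsm hπU
  obtain ⟨H, hH⟩ : ∃ H : Subgroup GQ, H = A.inertiaSubgroupIn ℚ ⊓ L0.fixingSubgroup := ⟨_, rfl⟩
  rw [← hH] at hL
  have hHfix : ∀ σ ∈ H, ∀ x ∈ L0, σ x = x := by
    intro σ hσ x hx
    rw [hH] at hσ
    exact (IntermediateField.mem_fixingSubgroup_iff L0 σ).1 hσ.2 x hx
  have hwsm : Sm A w := DP_w_sm hp hA hw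
  obtain ⟨e', he'1, he'⟩ := DP_exists_e hπsm hπU hwsm hwL0
  have huH : FixF N H u := fun σ hσ => hfu σ fun x hx => hHfix σ hσ x (hLuL0 hx)
  have hg1H : FixF N H g1 := fun σ hσ => hfg σ fun x hx => hHfix σ hσ x (hLgL0 hx)
  have hc1H : FixK H c1 := fun σ hσ => hHfix σ hσ c1 hc1L0
  -- the first representative
  have hu1H : FixF N H (algebraMap Qbar (FF N) c1 * u * g1 ^ p) := DP_fix_rep hc1H huH hg1H p
  have hu1per : DP_Per N p ζ (algebraMap Qbar (FF N) c1 * u * g1 ^ p) :=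
    DP_per hN N p hp hpN ζ hζ u hper c1 hc1 g1 hg1
  have hu1cg : Cg A π ((algebraMap Qbar (FF N) c1 * u * g1 ^ p : FF N) : LaurentSeries Qbar) 1 :=
    DP_cg_pi hG hGD hL N _ hu1H hrd
  have hpe : 1 ≤ p * e' := Nat.mul_pos hp.pos he'1
  obtain ⟨c, g, hc, -, hg, -, hcg⟩ := DP_iterate hS hN p hp hp2 A hA H π w e' hw hL he' N hpN ζ
    hζ _ hu1H hu1per hu1cg (p * e') hpe le_rfl
  -- `π ^ (p e') = w ^ p * unit`
  have hπ0 : π ≠ 0 := hπsm.1
  have hcg2 : Cg A (w ^ p) (cst c * ((algebraMap Qbar (FF N) c1 * u * g1 ^ p : FF N) :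
      LaurentSeries Qbar) * (g : LaurentSeries Qbar) ^ p) 1 := by
    refine DP_cg_mono hG (e := ((w * (π ^ e')⁻¹)⁻¹) ^ p) ?_ (pow_mem he'.2 p) hcg
    rw [← mul_pow, pow_mul', mul_inv, inv_inv, ← mul_assoc, mul_inv_cancel₀ hwsm.1, one_mul]
  -- the final representative
  have hrep : algebraMap Qbar (FF N) c * (algebraMap Qbar (FF N) c1 * u * g1 ^ p) * g ^ p
      = algebraMap Qbar (FF N) (c * c1) * u * (g1 * g) ^ p := by
    rw [map_mul, mul_pow]; ring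
  have hdiv2 : IsDiv N p (algebraMap Qbar (FF N) (c * c1) * u * (g1 * g) ^ p) :=
    DP_isDiv_rep hdiv (mul_ne_zero hc hc1) (mul_ne_zero hg1 hg)
  have hcg3 : Cg A (w ^ p)
      ((algebraMap Qbar (FF N) (c * c1) * u * (g1 * g) ^ p : FF N) : LaurentSeries Qbar) 1 := by
    rw [← hrep]
    exact hcg2
  obtain ⟨g', hg'⟩ := hE p hp hp2 A hA N hpN w hw _ hdiv2 hcg3 s hs c₀ hact
  exact DP_transport N p hp.pos s c₀ u (g1 * g) g' (c * c1) (mul_ne_zero hc hc1)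
    (mul_ne_zero hg1 hg) hg'

end Fermat.Agent.ORD.Dep

end
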