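import Fermat.Agent.ORD.Dep.Interface
import Fermat.Agent.INJ.Deep.DeepK
import Fermat.Agent.INJ.Deep.DeepKM
import Fermat.Agent.INJ.Deep.Cube
import Fermat.Agent.INJ.Deep.DeepA
import Fermat.Agent.INJ.Deep.Core
import Fermat.Agent.INJ.Deep.L1
import Fermat.Agent.INJ.Deep.L3
import Fermat.Agent.INJ.Deep.L4
import Fermat.Agent.INJ.Deep.L5
import Fermat.Agent.INJ.Deep.Binom
import Fermat.Agent.INJ.Deep.BARed
import Fermat.Agent.INJ.Deep.ClRed

/-!
# ORD / Dep, package DEP-AFF : `Stmt_AFF` from `INJ.Deep.Stmt_DeepK` (adapter), and the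
hypothesis-free form.
-/

set_option autoImplicit false
set_option synthInstance.maxHeartbeats 400000

noncomputable section

namespace Fermat.Agent.ORD.Dep

open ModularCurve
open Fermat.Agent.S24 (Qbar FF)
open Fermat.Agent.ES.Mid (GQ gal IsDiv)
open Fermat.Agent.INJ.Inst (kA)
open Fermat.Agent.INJ.Inst.Gauss (inc rho IsRatio)

/-- a small element: `a ∈ A`, `a⁻¹ ∉ A`. -/
theorem AFF_sm {A : ValuationSubring Qbar} {a : Qbar} (h : Sm A a) : a ∈ A ∧ a⁻¹ ∉ A := by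
  obtain ⟨h0, h1⟩ := h
  rw [ValuationSubring.mem_nonunits_iff] at h1
  refine ⟨(A.valuation_le_one_iff a).1 h1.le, fun h2 => ?_⟩
  have h3 := (A.valuation_le_one_iff a⁻¹).2 h2
  rw [map_inv₀] at h3
  have h4 : A.valuation a ≠ 0 := (A.valuation.ne_zero_iff).2 h0
  have h5 : 1 ≤ A.valuation a := (inv_le_one₀ (zero_lt_iff.2 h4)).1 h3
  exact absurd h1 (not_lt.2 h5)

/-- if `α · (primitive integral series) = integral series` then `α ∈ A`. -/
theorem AFF_mem_of_mul {A : ValuationSubring Qbar} {α : Qbar} {f g : LaurentSeries A}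
    (hg : rho (IsLocalRing.residue A) g ≠ 0) (h : cst α * inc A g = inc A f) : α ∈ A := by
  by_contra hα
  have hα' : α⁻¹ ∈ A := (A.mem_or_inv_mem α).resolve_left hα
  have hα0 : α ≠ 0 := fun h0 => hα (h0 ▸ A.zero_mem)
  have hnu : ¬ IsUnit (⟨α⁻¹, hα'⟩ : A) := by
    intro hu
    obtain ⟨v, hv⟩ := hu
    apply hα
    have h1 : α⁻¹ * ((v⁻¹ : Aˣ) : A).1 = 1 := by
      have h2 : (v : A) * ((v⁻¹ : Aˣ) : A) = 1 := v.mul_inv
      rw [hv] at h2
      exact congrArg Subtype.val h2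
    have h3 : α = ((v⁻¹ : Aˣ) : A).1 := by
      field_simp at h1
      exact h1.symm
    rw [h3]; exact ((v⁻¹ : Aˣ) : A).2
  have hres : IsLocalRing.residue A ⟨α⁻¹, hα'⟩ = 0 :=
    (IsLocalRing.residue_eq_zero_iff _).2 ((IsLocalRing.mem_maximalIdeal _).2 hnu)
  apply hg
  have h1 : g = HahnSeries.single 0 (⟨α⁻¹, hα'⟩ : A) * f := by
    apply INJ.Inst.Gauss.inc_injective A
    rw [map_mul, INJ.Inst.Gauss.inc_single, ← h, ← mul_assoc, ← map_mul]
    show inc A g = algebraMap Qbar (LaurentSeries Qbar) (α⁻¹ * α) * inc A g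
    rw [inv_mul_cancel₀ hα0, map_one, one_mul]
  rw [h1, map_mul, INJ.Inst.Gauss.rho_single, hres, map_zero, zero_mul]

/-- the adapter. -/
theorem stmt_AFF (hK : INJ.Deep.Stmt_DeepK) : Stmt_AFF := by
  intro p hp hp2 A hA N _ hpN w π' hw hπ u hu hcg
  have : Fact p.Prime := ⟨hp⟩
  obtain ⟨z, ⟨f, g, hg, hfg⟩, huz⟩ := hcg
  obtain ⟨hπA, hπ'⟩ := AFF_sm hπ
  have hw0 : w ≠ 0 := by
    rintro rfl
    rw [zero_pow (by have := hp.two_le; omega)] at hw
    have : (p : Qbar) = 0 := by linear_combination hw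
    exact hp.ne_zero (by exact_mod_cast this)
  have hc0 : w ^ p * π' ≠ 0 := mul_ne_zero (pow_ne_zero _ hw0) hπ.1
  have hcst0 : cst (w ^ p * π') ≠ 0 := by
    rw [Ne, map_eq_zero]; exact hc0
  obtain ⟨z', hz'⟩ : ∃ z' : FF N, (z' : LaurentSeries Qbar) = z := by
    refine ⟨(u - 1) * (algebraMap Qbar (FF N) (w ^ p * π'))⁻¹, ?_⟩
    show ((u : LaurentSeries Qbar) - 1) * (cst (w ^ p * π'))⁻¹ = z
    rw [huz]
    field_simp
    ring
  by_cases hz0 : z' = 0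
  · refine ⟨1, Subtype.ext ?_⟩
    rw [huz, ← hz', hz0]
    simp
  obtain ⟨α, y₁, y₂, θ₁, θ₂, hα0, h1, h2, he, hy1, hy2⟩ := ES.Mid.INT.intRep' N A z' hz0
  have he' : z * inc A y₂ = cst α * inc A y₁ := by
    have := congrArg Subtype.val he
    show z * coeffMap A.subtype y₂ = algebraMap Qbar (LaurentSeries Qbar) α * coeffMap A.subtype y₁
    rw [h1, h2, ← hz']
    exact this
  have hαA : α ∈ A := by
    refine AFF_mem_of_mul (f := f * y₂) (g := y₁ * g) ?_ ?_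
    · rw [map_mul]; exact mul_ne_zero hy1 hg
    · rw [map_mul, map_mul, ← hfg, ← mul_assoc, ← he']
      ring
  have h₂ : coeffMap A.subtype y₂ ∈ modularFunctionFieldBar N := by
    rw [h2]; exact (S24.QX.qExpHom N θ₂).2
  have e₃ : coeffMap A.subtype (HahnSeries.single 0 (⟨α, hαA⟩ : A) * y₁) = cst α * inc A y₁ := by
    rw [map_mul]
    exact congrArg (· * inc A y₁) (INJ.Inst.Gauss.inc_single (⟨α, hαA⟩ : A))
  have h₃ : coeffMap A.subtype (HahnSeries.single 0 (⟨α, hαA⟩ : A) * y₁)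
      ∈ modularFunctionFieldBar N := by
    rw [e₃]
    refine mul_mem (IntermediateField.algebraMap_mem _ _) ?_
    show coeffMap A.subtype y₁ ∈ _
    rw [h1]; exact (S24.QX.qExpHom N θ₁).2
  have hy20 : inc A y₂ ≠ 0 := INJ.Inst.Gauss.inc_ne_zero_of_rho hy2
  have hueq : u = 1 + algebraMap Qbar (FF N) (w ^ p * π') *
      ((⟨_, h₃⟩ : FF N) / ⟨_, h₂⟩) := by
    apply Subtype.ext
    rw [INJ.Deep.D12_coe, huz]
    congr 2
    show z = coeffMap A.subtype (HahnSeries.single 0 (⟨α, hαA⟩ : A) * y₁) / inc A y₂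
    rw [e₃, eq_div_iff hy20, he']
  obtain ⟨y, hy⟩ := hK N p hp2 hpN A hA w π' hw hπA hπ' y₂ _ h₂ h₃ hy2
    (fun P => by rw [← hueq]; exact hu.2 P)
  exact ⟨y, by rw [hy, ← hueq]⟩

/-- deep Claim K, hypothesis-free. -/
theorem AFF_deepK : INJ.Deep.Stmt_DeepK :=
  INJ.Deep.stmt_DeepK
    (INJ.Deep.stmt_DeepKM
      (INJ.Deep.stmt_DeepA (INJ.Deep.stmt_L1 INJ.Deep.stmt_Binom)
        (INJ.Deep.stmt_L3 (INJ.Deep.stmt_PowCg INJ.Deep.stmt_Binom))
        (INJ.Deep.stmt_Core (INJ.Deep.stmt_L4 INJ.Deep.stmt_Binom)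
          (INJ.Deep.stmt_L5 INJ.Deep.stmt_Binom))
        INJ.Deep.stmt_BARed INJ.Deep.stmt_ClRed))
    INJ.Deep.stmt_Cube

/-- **(A)**, hypothesis-free. -/
theorem aff : Stmt_AFF := stmt_AFF AFF_deepK

end Fermat.Agent.ORD.Dep

end
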