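import Fermat.Agent.INJ.Inst.Gauss
import Fermat.Agent.ES.Mid.HeckeDefs

/-!
# ORD / Dep : depth of Kummer classes of degree `p` in residue characteristic `p`
(architect: helper79).  Definitions.

`A` is a valuation subring of `ℚ̄` over `p`.  Everything is expressed on `q`-expansions
(`LaurentSeries ℚ̄`), in the ratio language of `INJ/Inst/GaussAbs.lean`:

* `GO A x`      : `x` is Gauss-integral, i.e. `x * g = f` with `f g ∈ A((q))`, `gbar ≠ 0`;
* `rd A x`      : its reduction `fbar / gbar ∈ k((q))` (junk value `0`);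
* `Cg A c x y`  : `x ≡ y mod c`, i.e. `x = y + c z` with `z` Gauss-integral;
* `Lvl A H π`   : `H ≤ I_A` is a subgroup of the inertia group such that the fixed field `ℚ̄^H` is
                  discretely valued with uniformiser `π`;
* `FixF N H u`  : `u ∈ F_N` has coefficients in `ℚ̄^H`.
-/

set_option autoImplicit false

noncomputable section

namespace Fermat.Agent.ORD.Dep

open ModularCurve
open Fermat.Agent.S24 (Qbar FF)
open Fermat.Agent.ES.Mid (GQ gal IsDiv formalN twProd compress tw)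
open Fermat.Agent.INJ.Inst (kA)

/-- constants in `ℚ̄((q))`. -/
abbrev cst (c : Qbar) : LaurentSeries Qbar := algebraMap Qbar (LaurentSeries Qbar) c

/-- constants in `k((q))`. -/
abbrev cstk (A : ValuationSubring Qbar) (c : kA A) : LaurentSeries (kA A) :=
  algebraMap (kA A) (LaurentSeries (kA A)) c

/-- `x` is Gauss-integral. -/
def GO (A : ValuationSubring Qbar) (x : LaurentSeries Qbar) : Prop :=
  ∃ f g : LaurentSeries A, INJ.Inst.Gauss.IsRatio (IsLocalRing.residue A) x f g

/-- the reduction of a Gauss-integral series (junk value `0`). -/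
def rd (A : ValuationSubring Qbar) (x : LaurentSeries Qbar) : LaurentSeries (kA A) :=
  INJ.Inst.Gauss.red (IsLocalRing.residue A) x

/-- `x ≡ y mod c`. -/
def Cg (A : ValuationSubring Qbar) (c : Qbar) (x y : LaurentSeries Qbar) : Prop :=
  ∃ z : LaurentSeries Qbar, GO A z ∧ x = y + cst c * z

/-- `a` is a unit of `A`. -/
def UnitA (A : ValuationSubring Qbar) (a : Qbar) : Prop := a ∈ A ∧ a⁻¹ ∈ A

/-- `a` is a nonzero element of the maximal ideal of `A`. -/
def Sm (A : ValuationSubring Qbar) (a : Qbar) : Prop := a ≠ 0 ∧ a ∈ A.nonunits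

/-- `a ∈ ℚ̄^H`. -/
def FixK (H : Subgroup GQ) (a : Qbar) : Prop := ∀ σ ∈ H, σ a = a

/-- `u ∈ F_N` has coefficients in `ℚ̄^H`. -/
def FixF (N : ℕ) (H : Subgroup GQ) (u : FF N) : Prop := ∀ σ ∈ H, gal N σ u = u

/-- `π` is a uniformiser of the subset `T` of `ℚ̄`. -/
def UnifOn (A : ValuationSubring Qbar) (T : Qbar → Prop) (π : Qbar) : Prop :=
  ∀ a : Qbar, a ≠ 0 → T a → ∃ n : ℤ, UnitA A (a * π ^ (-n))

/-- a discretely valued level inside the inertia field tower. -/
structure Lvl (A : ValuationSubring Qbar) (H : Subgroup GQ) (π : Qbar) : Prop where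
  le : H ≤ A.inertiaSubgroupIn ℚ
  fix : FixK H π
  sm : Sm A π
  unif : UnifOn A (FixK H) π

/-- `s` acts on `μ_p` by `ζ ↦ ζ ^ c`. -/
def ActsMu (p : ℕ) (s : GQ) (c : ℕ) : Prop := ∀ ζ : Qbar, ζ ^ p = 1 → s ζ = ζ ^ c

/-- the class of `u` lies in `W_∞(p)` : up to a constant and a `p`-th power, `u ≡ 1`. -/
def InW (A : ValuationSubring Qbar) (N p : ℕ) (u : FF N) : Prop :=
  ∃ (c : Qbar) (g : FF N), c ≠ 0 ∧ g ≠ 0 ∧
    rd A (cst c * (u : LaurentSeries Qbar) * (g : LaurentSeries Qbar) ^ p) = 1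

/-- the multiplicative `U_p` on `q`-expansions : `x ↦ ∏_{j mod p} x(ζ^j q^{1/p})`. -/
def formalU (p : ℕ) [NeZero p] (ζ : Qbarˣ) (x : LaurentSeries Qbar) : LaurentSeries Qbar :=
  compress p (twProd p ζ x)

end Fermat.Agent.ORD.Dep

end
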